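import Mathlib

/-!
# A Lipschitz partition of unity for the action of units on the mixed space

For a number field `K` we construct a weight `unitWeight` on the mixed space which is homogeneous
of degree `0`, supported in a cone `ε * ‖x‖ ^ d ≤ N x`, has unit translates summing to `1`, and is
Lipschitz away from the origin. The function `weightedNorm s x = unitWeight x * (max (N x) 1) ^ (-s)`
then varies very little under bounded translations, uniformly in `s ∈ [1, 2]`.
-/

set_option autoImplicit false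

noncomputable section

namespace FermatAgent.CFT

open NumberField NumberField.InfinitePlace NumberField.mixedEmbedding NumberField.mixedEmbedding.fundamentalCone
open scoped nonZeroDivisors Classical

variable {K : Type*} [Field K] [NumberField K]

/-! ### Functions which are Lipschitz on bounded sets -/

/-- A real function on the mixed space which is Lipschitz on every ball around `0`. -/
def LipB (f : mixedSpace K → ℝ) : Prop :=
  ∀ B : ℝ, ∃ L : ℝ, 0 ≤ L ∧ ∀ x y : mixedSpace K, ‖x‖ ≤ B → ‖y‖ ≤ B → |f x - f y| ≤ L * ‖x - y‖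

theorem LipB.bound {f : mixedSpace K → ℝ} (hf : LipB f) (B : ℝ) :
    ∃ M : ℝ, 0 ≤ M ∧ ∀ x : mixedSpace K, ‖x‖ ≤ B → |f x| ≤ M := by
  obtain ⟨L, hL, h⟩ := hf (max B 0)
  refine ⟨|f 0| + L * max B 0, by positivity, fun x hx ↦ ?_⟩
  have h1 := h x 0 (hx.trans (le_max_left _ _)) (by simp)
  rw [sub_zero] at h1
  have h2 : L * ‖x‖ ≤ L * max B 0 := by gcongr; exact hx.trans (le_max_left _ _)
  have h3 := abs_sub_abs_le_abs_sub (f x) (f 0)
  linarith

theorem LipB.const (c : ℝ) : LipB (fun _ : mixedSpace K ↦ c) :=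
  fun _ ↦ ⟨0, le_rfl, fun x y _ _ ↦ by simp⟩

theorem normAtPlace_le_norm (w : InfinitePlace K) (x : mixedSpace K) : normAtPlace w x ≤ ‖x‖ := by
  classical
  rw [norm_eq_sup'_normAtPlace]
  exact Finset.le_sup' (fun w ↦ normAtPlace w x) (Finset.mem_univ w)

theorem LipB.normAtPlace (w : InfinitePlace K) : LipB (fun x ↦ normAtPlace w x) := by
  refine fun _ ↦ ⟨1, zero_le_one, fun x y _ _ ↦ ?_⟩
  have h1 := normAtPlace_add_le w (x - y) y
  have h2 := normAtPlace_add_le w (y - x) x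
  rw [sub_add_cancel] at h1 h2
  have h3 := normAtPlace_le_norm w (x - y)
  have h4 := normAtPlace_le_norm w (y - x)
  rw [norm_sub_rev y x] at h4
  rw [abs_sub_le_iff, one_mul]
  constructor <;> linarith

theorem LipB.norm : LipB (fun x : mixedSpace K ↦ ‖x‖) :=
  fun _ ↦ ⟨1, zero_le_one, fun x y _ _ ↦ by simpa using abs_norm_sub_norm_le x y⟩

theorem LipB.add {f g : mixedSpace K → ℝ} (hf : LipB f) (hg : LipB g) :
    LipB (fun x ↦ f x + g x) := by
  intro B
  obtain ⟨Lf, hLf, hf⟩ := hf B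
  obtain ⟨Lg, hLg, hg⟩ := hg B
  refine ⟨Lf + Lg, by positivity, fun x y hx hy ↦ ?_⟩
  calc |f x + g x - (f y + g y)| = |(f x - f y) + (g x - g y)| := by ring_nf
    _ ≤ |f x - f y| + |g x - g y| := abs_add_le _ _
    _ ≤ Lf * ‖x - y‖ + Lg * ‖x - y‖ := add_le_add (hf x y hx hy) (hg x y hx hy)
    _ = (Lf + Lg) * ‖x - y‖ := by ring

theorem LipB.mul {f g : mixedSpace K → ℝ} (hf : LipB f) (hg : LipB g) :
    LipB (fun x ↦ f x * g x) := by
  intro B
  obtain ⟨Mf, hMf, hbf⟩ := hf.bound B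
  obtain ⟨Mg, hMg, hbg⟩ := hg.bound B
  obtain ⟨Lf, hLf, hf⟩ := hf B
  obtain ⟨Lg, hLg, hg⟩ := hg B
  refine ⟨Lf * Mg + Mf * Lg, by positivity, fun x y hx hy ↦ ?_⟩
  calc |f x * g x - f y * g y| = |(f x - f y) * g x + f y * (g x - g y)| := by ring_nf
    _ ≤ |(f x - f y) * g x| + |f y * (g x - g y)| := abs_add_le _ _
    _ ≤ Lf * ‖x - y‖ * Mg + Mf * (Lg * ‖x - y‖) := by
        rw [abs_mul, abs_mul]
        exact add_le_add (mul_le_mul (hf x y hx hy) (hbg x hx) (abs_nonneg _) (by positivity))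
          (mul_le_mul (hbf y hy) (hg x y hx hy) (abs_nonneg _) hMf)
    _ = (Lf * Mg + Mf * Lg) * ‖x - y‖ := by ring

theorem LipB.pow {f : mixedSpace K → ℝ} (hf : LipB f) (n : ℕ) : LipB (fun x ↦ f x ^ n) := by
  induction n with
  | zero => simpa using LipB.const (K := K) 1
  | succ n ih => simpa [pow_succ] using ih.mul hf

theorem LipB.prod {ι : Type*} (s : Finset ι) {f : ι → mixedSpace K → ℝ}
    (hf : ∀ i, LipB (f i)) : LipB (fun x ↦ ∏ i ∈ s, f i x) := by
  classical
  induction s using Finset.induction_on with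
  | empty => simpa using LipB.const (K := K) 1
  | insert a s ha ih => simpa [Finset.prod_insert ha] using (hf a).mul ih

theorem LipB.sum {ι : Type*} (s : Finset ι) {f : ι → mixedSpace K → ℝ}
    (hf : ∀ i, LipB (f i)) : LipB (fun x ↦ ∑ i ∈ s, f i x) := by
  classical
  induction s using Finset.induction_on with
  | empty => simpa using LipB.const (K := K) 0
  | insert a s ha ih => simpa [Finset.sum_insert ha] using (hf a).add ih

theorem LipB.max_const {f : mixedSpace K → ℝ} (hf : LipB f) (c : ℝ) :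
    LipB (fun x ↦ max (f x) c) := by
  intro B
  obtain ⟨L, hL, hf⟩ := hf B
  exact ⟨L, hL, fun x y hx hy ↦
    (abs_max_sub_max_le_abs (f x) (f y) c).trans (hf x y hx hy)⟩

theorem LipB.comp_mul {f : mixedSpace K → ℝ} (hf : LipB f) (c : mixedSpace K) :
    LipB (fun x ↦ f (c * x)) := by
  intro B
  obtain ⟨L, hL, hf⟩ := hf (‖c‖ * B)
  refine ⟨L * ‖c‖, by positivity, fun x y hx hy ↦ ?_⟩
  refine (hf _ _ ((norm_mul_le _ _).trans (by gcongr)) ((norm_mul_le _ _).trans (by gcongr))).trans ?_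
  rw [← mul_sub, mul_assoc]
  gcongr
  exact norm_mul_le _ _

theorem lipB_mixedNorm : LipB (fun x : mixedSpace K ↦ mixedEmbedding.norm x) := by
  classical
  simp_rw [mixedEmbedding.norm_apply]
  exact LipB.prod _ fun w ↦ (LipB.normAtPlace w).pow _

/-! ### The weight -/

local notation "d" => Module.finrank ℚ K

theorem finrank_ne_zero : d ≠ 0 := Module.finrank_pos.ne'

theorem mixedNorm_le_norm_pow (x : mixedSpace K) : mixedEmbedding.norm x ≤ ‖x‖ ^ d := by
  classical
  rw [mixedEmbedding.norm_apply, ← sum_mult_eq (K := K), ← Finset.prod_pow_eq_pow_sum]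
  exact Finset.prod_le_prod (fun w _ ↦ pow_nonneg (normAtPlace_nonneg _ _) _)
    (fun w _ ↦ pow_le_pow_left₀ (normAtPlace_nonneg _ _) (normAtPlace_le_norm _ _) _)

theorem exists_unit_norm_pow_le :
    ∃ C : ℝ, 0 < C ∧ ∀ x : mixedSpace K, mixedEmbedding.norm x ≠ 0 →
      ∃ u : (𝓞 K)ˣ, ‖u • x‖ ^ d ≤ C * mixedEmbedding.norm x := by
  obtain ⟨C₀, hC₀⟩ := Bornology.IsBounded.exists_norm_le (isBounded_normLeOne K)
  refine ⟨max C₀ 1 ^ d, by positivity, fun x hx ↦ ?_⟩
  obtain ⟨u, hu⟩ := fundamentalCone.exists_unit_smul_mem hx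
  refine ⟨u, ?_⟩
  have hN : 0 < mixedEmbedding.norm x := (mixedEmbedding.norm_nonneg x).lt_of_ne' hx
  let c : ℝ := mixedEmbedding.norm x ^ (-(d : ℝ)⁻¹)
  have hc : 0 < c := Real.rpow_pos_of_pos hN _
  have hcd : c ^ d * mixedEmbedding.norm x = 1 := by
    rw [← Real.rpow_natCast c, ← Real.rpow_mul hN.le,
      neg_mul, inv_mul_cancel₀ (Nat.cast_ne_zero.mpr finrank_ne_zero), Real.rpow_neg_one,
      inv_mul_cancel₀ hN.ne']
  have hmem : c • u • x ∈ normLeOne K := by
    refine ⟨fundamentalCone.smul_mem_of_mem hu hc.ne', ?_⟩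
    rw [Set.mem_ofPred_eq, mixedEmbedding.norm_smul, abs_of_pos hc, norm_unit_smul, hcd]
  have h1 := hC₀ _ hmem
  rw [_root_.norm_smul, Real.norm_of_nonneg hc.le] at h1
  have h2 : (c * ‖u • x‖) ^ d ≤ max C₀ 1 ^ d :=
    pow_le_pow_left₀ (by positivity) (h1.trans (le_max_left _ _)) _
  calc ‖u • x‖ ^ d = (c ^ d * mixedEmbedding.norm x) * ‖u • x‖ ^ d := by rw [hcd, one_mul]
    _ = (c * ‖u • x‖) ^ d * mixedEmbedding.norm x := by rw [mul_pow]; ring
    _ ≤ max C₀ 1 ^ d * mixedEmbedding.norm x := by gcongr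

variable (K) in
/-- The opening of the cone supporting the weight. -/
def coneConst : ℝ := (2 * (exists_unit_norm_pow_le (K := K)).choose)⁻¹

theorem coneConst_pos : 0 < coneConst K :=
  inv_pos.mpr (mul_pos two_pos (exists_unit_norm_pow_le (K := K)).choose_spec.1)

/-- The bump function, homogeneous of degree `d`. -/
def bump (x : mixedSpace K) : ℝ := max (mixedEmbedding.norm x + (-coneConst K) * ‖x‖ ^ d) 0

theorem bump_nonneg (x : mixedSpace K) : 0 ≤ bump x := le_max_right _ _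

theorem lipB_bump : LipB (bump (K := K)) :=
  (lipB_mixedNorm.add ((LipB.const _).mul (LipB.norm.pow _))).max_const 0

theorem lt_of_bump_ne_zero {x : mixedSpace K} (h : bump x ≠ 0) :
    coneConst K * ‖x‖ ^ d < mixedEmbedding.norm x := by
  by_contra! h'
  exact h (max_eq_right (by linarith))

theorem bump_le_norm (x : mixedSpace K) : bump x ≤ mixedEmbedding.norm x := by
  refine max_le ?_ (mixedEmbedding.norm_nonneg x)
  have : 0 ≤ coneConst K * ‖x‖ ^ d := by have := coneConst_pos (K := K); positivity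
  linarith

theorem bump_eq_zero_of_norm_eq_zero {x : mixedSpace K} (h : mixedEmbedding.norm x = 0) :
    bump x = 0 :=
  le_antisymm (h ▸ bump_le_norm x) (bump_nonneg x)

theorem exists_unit_norm_half_le_bump {x : mixedSpace K} (hx : mixedEmbedding.norm x ≠ 0) :
    ∃ u : (𝓞 K)ˣ, mixedEmbedding.norm x / 2 ≤ bump (u • x) := by
  obtain ⟨hC, h⟩ := (exists_unit_norm_pow_le (K := K)).choose_spec
  obtain ⟨u, hu⟩ := h x hx
  refine ⟨u, le_max_of_le_left ?_⟩
  rw [norm_unit_smul]
  have : coneConst K * ‖u • x‖ ^ d ≤ mixedEmbedding.norm x / 2 := by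
    calc coneConst K * ‖u • x‖ ^ d
        ≤ coneConst K * ((exists_unit_norm_pow_le (K := K)).choose * mixedEmbedding.norm x) :=
          mul_le_mul_of_nonneg_left hu coneConst_pos.le
      _ = mixedEmbedding.norm x / 2 := by rw [coneConst]; field_simp
  linarith

theorem bump_smul {c : ℝ} (hc : 0 < c) (x : mixedSpace K) : bump (c • x) = c ^ d * bump x := by
  rw [bump, bump, mixedEmbedding.norm_smul, _root_.norm_smul, Real.norm_of_nonneg hc.le,
    abs_of_pos hc, mul_max_of_nonneg _ _ (by positivity : (0 : ℝ) ≤ c ^ d), mul_zero, mul_pow]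
  ring_nf

omit [NumberField K] in
theorem normAtPlace_unit_smul (u : (𝓞 K)ˣ) (w : InfinitePlace K) (x : mixedSpace K) :
    normAtPlace w (u • x) = w ((u : 𝓞 K) : K) * normAtPlace w x := by
  rw [unitSMul_smul, map_mul, normAtPlace_apply]

theorem finite_units_bump_ne_zero {δ : ℝ} (hδ : 0 < δ) (B : ℝ) :
    {u : (𝓞 K)ˣ | ∃ x : mixedSpace K, ‖x‖ ≤ B ∧ δ ≤ mixedEmbedding.norm x ∧
      bump (u • x) ≠ 0}.Finite := by
  classical
  let B₁ : ℝ := max B 1
  let M : ℝ := max (B₁ ^ d / coneConst K) 1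
  let m : ℝ := δ / B₁ ^ d
  have hB₁ : 1 ≤ B₁ := le_max_right _ _
  have hm : 0 < m := by positivity
  have key : ∀ u : (𝓞 K)ˣ, (∃ x : mixedSpace K, ‖x‖ ≤ B ∧ δ ≤ mixedEmbedding.norm x ∧
      bump (u • x) ≠ 0) → ∀ φ : K →+* ℂ, ‖φ ((u : 𝓞 K) : K)‖ ≤ M / m := by
    rintro u ⟨x, hxB, hxN, hb⟩ φ
    let w := InfinitePlace.mk φ
    have hxB₁ : ‖x‖ ≤ B₁ := hxB.trans (le_max_left _ _)
    have h1 := lt_of_bump_ne_zero hb
    rw [norm_unit_smul] at h1
    have h2 : ‖u • x‖ ≤ M := by
      by_contra! h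
      have h3 : ‖u • x‖ ≤ ‖u • x‖ ^ d :=
        le_self_pow₀ ((le_max_right _ _).trans h.le) finrank_ne_zero
      have h4 : ‖u • x‖ ^ d ≤ B₁ ^ d / coneConst K := by
        rw [le_div_iff₀ coneConst_pos, mul_comm]
        exact h1.le.trans ((mixedNorm_le_norm_pow x).trans
          (pow_le_pow_left₀ (norm_nonneg _) hxB₁ _))
      exact absurd (h3.trans (h4.trans (le_max_left _ _))) (not_le.mpr h)
    have hw : m ≤ normAtPlace w x := by
      rw [div_le_iff₀ (by positivity)]
      refine hxN.trans ?_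
      rw [mixedEmbedding.norm_apply, ← Finset.mul_prod_erase _ _ (Finset.mem_univ w)]
      calc normAtPlace w x ^ mult w * ∏ v ∈ Finset.univ.erase w, normAtPlace v x ^ mult v
          ≤ (normAtPlace w x * B₁ ^ mult w) * ∏ v ∈ Finset.univ.erase w, B₁ ^ mult v := by
            refine mul_le_mul ?_ (Finset.prod_le_prod (fun v _ ↦ ?_) (fun v _ ↦ ?_))
              (Finset.prod_nonneg fun v _ ↦ ?_) ?_
            · obtain h | h := isReal_or_isComplex w
              · rw [mult, if_pos h, pow_one, pow_one]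
                exact le_mul_of_one_le_right (normAtPlace_nonneg _ _) hB₁
              · rw [mult, if_neg (not_isReal_iff_isComplex.mpr h), sq, sq]
                gcongr
                · exact normAtPlace_nonneg _ _
                · exact ((normAtPlace_le_norm w x).trans hxB₁).trans
                    (le_mul_of_one_le_right (by linarith) hB₁)
            · exact pow_nonneg (normAtPlace_nonneg _ _) _
            · exact pow_le_pow_left₀ (normAtPlace_nonneg _ _)
                ((normAtPlace_le_norm v x).trans hxB₁) _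
            · exact pow_nonneg (normAtPlace_nonneg _ _) _
            · exact mul_nonneg (normAtPlace_nonneg _ _) (by positivity)
        _ = normAtPlace w x * B₁ ^ d := by
            rw [mul_assoc, Finset.mul_prod_erase _ (fun v ↦ B₁ ^ mult v) (Finset.mem_univ w),
              Finset.prod_pow_eq_pow_sum, sum_mult_eq]
    have h5 : w ((u : 𝓞 K) : K) * m ≤ M := by
      refine le_trans ?_ ((normAtPlace_le_norm w (u • x)).trans h2)
      rw [normAtPlace_unit_smul]
      exact mul_le_mul_of_nonneg_left hw (apply_nonneg _ _)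
    rw [InfinitePlace.apply, ← le_div_iff₀ hm] at h5
    exact h5
  refine Set.Finite.of_finite_image (f := fun u : (𝓞 K)ˣ ↦ ((u : 𝓞 K) : K)) ?_ ?_
  · refine (Embeddings.finite_of_norm_le K ℂ (M / m)).subset ?_
    rintro _ ⟨u, hu, rfl⟩
    exact ⟨RingOfIntegers.isIntegral_coe _, key u hu⟩
  · exact (RingOfIntegers.coe_injective.comp Units.val_injective).injOn

/-- The sum of the bump over the unit translates. -/
def bumpSum (x : mixedSpace K) : ℝ := ∑' u : (𝓞 K)ˣ, bump (u • x)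

theorem summable_bump {x : mixedSpace K} : Summable fun u : (𝓞 K)ˣ ↦ bump (u • x) := by
  by_cases hx : mixedEmbedding.norm x = 0
  · exact summable_zero.congr fun u ↦
      (bump_eq_zero_of_norm_eq_zero (by rw [norm_unit_smul, hx])).symm
  · refine summable_of_hasFiniteSupport ((finite_units_bump_ne_zero
      ((mixedEmbedding.norm_nonneg x).lt_of_ne' hx) ‖x‖).subset fun u hu ↦ ?_)
    exact ⟨x, le_rfl, le_rfl, hu⟩

theorem bumpSum_nonneg (x : mixedSpace K) : 0 ≤ bumpSum x :=
  tsum_nonneg fun _ ↦ bump_nonneg _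

theorem bump_le_bumpSum (x : mixedSpace K) : bump x ≤ bumpSum x := by
  simpa [bumpSum] using summable_bump.le_tsum (1 : (𝓞 K)ˣ) fun u _ ↦ bump_nonneg (u • x)

theorem half_le_bumpSum {x : mixedSpace K} (hx : mixedEmbedding.norm x ≠ 0) :
    mixedEmbedding.norm x / 2 ≤ bumpSum x := by
  obtain ⟨u, hu⟩ := exists_unit_norm_half_le_bump hx
  exact hu.trans (summable_bump.le_tsum u fun v _ ↦ bump_nonneg (v • x))

theorem bumpSum_unit_smul (v : (𝓞 K)ˣ) (x : mixedSpace K) : bumpSum (v • x) = bumpSum x := by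
  simp_rw [bumpSum, smul_smul]
  exact (Equiv.mulRight v).tsum_eq (fun u : (𝓞 K)ˣ ↦ bump (u • x))

theorem bumpSum_smul {c : ℝ} (hc : 0 < c) (x : mixedSpace K) :
    bumpSum (c • x) = c ^ d * bumpSum x := by
  rw [bumpSum, bumpSum, ← tsum_mul_left]
  refine tsum_congr fun u ↦ ?_
  rw [← bump_smul hc, unitSMul_smul, unitSMul_smul, mul_smul_comm]

/-- The weight: a partition of unity for the unit action, homogeneous of degree `0`. -/
def unitWeight (x : mixedSpace K) : ℝ := bump x / bumpSum x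

theorem unitWeight_nonneg (x : mixedSpace K) : 0 ≤ unitWeight x :=
  div_nonneg (bump_nonneg x) (bumpSum_nonneg x)

theorem unitWeight_le_one (x : mixedSpace K) : unitWeight x ≤ 1 :=
  div_le_one_of_le₀ (bump_le_bumpSum x) (bumpSum_nonneg x)

theorem tsum_unitWeight {x : mixedSpace K} (hx : mixedEmbedding.norm x ≠ 0) :
    ∑' u : (𝓞 K)ˣ, unitWeight (u • x) = 1 := by
  simp_rw [unitWeight, bumpSum_unit_smul, tsum_div_const]
  refine div_self (ne_of_gt (lt_of_lt_of_le ?_ (half_le_bumpSum hx)))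
  have := (mixedEmbedding.norm_nonneg x).lt_of_ne' hx
  positivity

theorem lt_of_unitWeight_ne_zero {x : mixedSpace K} (h : unitWeight x ≠ 0) :
    coneConst K * ‖x‖ ^ d < mixedEmbedding.norm x :=
  lt_of_bump_ne_zero fun h' ↦ h (by rw [unitWeight, h', zero_div])

theorem unitWeight_zero : unitWeight (0 : mixedSpace K) = 0 := by
  rw [unitWeight, bump_eq_zero_of_norm_eq_zero (map_zero _), zero_div]

theorem unitWeight_smul {c : ℝ} (hc : 0 < c) (x : mixedSpace K) :
    unitWeight (c • x) = unitWeight x := by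
  rw [unitWeight, unitWeight, bump_smul hc, bumpSum_smul hc,
    mul_div_mul_left _ _ (pow_ne_zero _ hc.ne')]

variable (K) in
/-- A lower bound for the norm on the support of the weight in the annulus `1/2 ≤ ‖x‖`. -/
def annulusConst : ℝ := coneConst K * (1 / 2) ^ d

theorem annulusConst_pos : 0 < annulusConst K :=
  mul_pos coneConst_pos (by positivity)

theorem annulusConst_le {x : mixedSpace K} (hx : 1 / 2 ≤ ‖x‖) (h : bump x ≠ 0) :
    annulusConst K ≤ mixedEmbedding.norm x := by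
  refine le_trans ?_ (lt_of_bump_ne_zero h).le
  exact mul_le_mul_of_nonneg_left (pow_le_pow_left₀ (by norm_num) hx _) coneConst_pos.le

theorem exists_lip_unitWeight :
    ∃ L : ℝ, 0 ≤ L ∧ ∀ x y : mixedSpace K, ‖x‖ ≤ 3 / 2 → ‖y‖ ≤ 3 / 2 → 1 / 2 ≤ ‖x‖ →
      1 / 2 ≤ ‖y‖ → |unitWeight x - unitWeight y| ≤ L * ‖x - y‖ := by
  classical
  obtain ⟨δ, hδ, hle⟩ : ∃ δ : ℝ, 0 < δ ∧ ∀ {x : mixedSpace K}, 1 / 2 ≤ ‖x‖ → bump x ≠ 0 →
      δ ≤ mixedEmbedding.norm x := ⟨annulusConst K, annulusConst_pos, annulusConst_le⟩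
  obtain ⟨U, hU⟩ : ∃ U : Finset (𝓞 K)ˣ, ∀ u : (𝓞 K)ˣ, (∃ x : mixedSpace K, ‖x‖ ≤ 3 / 2 ∧
      δ ≤ mixedEmbedding.norm x ∧ bump (u • x) ≠ 0) → u ∈ U :=
    ⟨(finite_units_bump_ne_zero (K := K) hδ (3 / 2)).toFinset,
      fun u hu ↦ (Set.Finite.mem_toFinset _).mpr hu⟩
  obtain ⟨L₁, hL₁, h₁⟩ := lipB_bump (K := K) (3 / 2)
  obtain ⟨L₂, hL₂, h₂⟩ :=
    (LipB.sum U fun u ↦ (lipB_bump (K := K)).comp_mul (mixedEmbedding K (u : 𝓞 K))) (3 / 2)
  have hsum : ∀ x : mixedSpace K, ‖x‖ ≤ 3 / 2 → δ ≤ mixedEmbedding.norm x →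
      bumpSum x = ∑ u ∈ U, bump (mixedEmbedding K (u : 𝓞 K) * x) := fun x hx hN ↦ by
    refine tsum_eq_sum fun u hu ↦ ?_
    by_contra hne
    exact hu (hU u ⟨x, hx, hN, hne⟩)
  refine ⟨2 / δ * (L₁ + L₂), by positivity, fun x y hx hy hx' hy' ↦ ?_⟩
  have hfar : ∀ a b : mixedSpace K, ‖a‖ ≤ 3 / 2 → ‖b‖ ≤ 3 / 2 → 1 / 2 ≤ ‖a‖ → bump b = 0 →
      |unitWeight a - unitWeight b| ≤ 2 / δ * (L₁ + L₂) * ‖a - b‖ := by
    intro a b ha hb ha' hb0
    rw [show unitWeight b = 0 by rw [unitWeight, hb0, zero_div], sub_zero,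
      abs_of_nonneg (unitWeight_nonneg a)]
    by_cases ha0 : bump a = 0
    · rw [unitWeight, ha0, zero_div]; positivity
    have hN := hle ha' ha0
    have hΦ : δ / 2 ≤ bumpSum a :=
      le_trans (by linarith) (half_le_bumpSum (by linarith : 0 < mixedEmbedding.norm a).ne')
    have h3 := h₁ a b ha hb
    rw [hb0, sub_zero, abs_of_nonneg (bump_nonneg a)] at h3
    calc unitWeight a ≤ (L₁ * ‖a - b‖) / (δ / 2) := by
          unfold unitWeight; gcongr
      _ = 2 / δ * L₁ * ‖a - b‖ := by field_simp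
      _ ≤ _ := mul_le_mul_of_nonneg_right
          (mul_le_mul_of_nonneg_left (le_add_of_nonneg_right hL₂) (div_nonneg two_pos.le hδ.le))
          (norm_nonneg _)
  by_cases hy0 : bump y = 0
  · exact hfar x y hx hy hx' hy0
  by_cases hx0 : bump x = 0
  · rw [abs_sub_comm, norm_sub_rev]
    exact hfar y x hy hx hy' hx0
  have hNx := hle hx' hx0
  have hNy := hle hy' hy0
  have hΦx : δ / 2 ≤ bumpSum x :=
    le_trans (by linarith) (half_le_bumpSum (by linarith : 0 < mixedEmbedding.norm x).ne')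
  have hΦy : δ / 2 ≤ bumpSum y :=
    le_trans (by linarith) (half_le_bumpSum (by linarith : 0 < mixedEmbedding.norm y).ne')
  have hΦxy : |bumpSum x - bumpSum y| ≤ L₂ * ‖x - y‖ := by
    rw [hsum x hx hNx, hsum y hy hNy]; exact h₂ x y hx hy
  have hxp : 0 < bumpSum x := by linarith
  have hyp : 0 < bumpSum y := by linarith
  have key : unitWeight x - unitWeight y =
      (bump x - bump y) / bumpSum x + unitWeight y * (bumpSum y - bumpSum x) / bumpSum x := by
    unfold unitWeight; field_simp; ring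
  rw [key]
  calc |(bump x - bump y) / bumpSum x + unitWeight y * (bumpSum y - bumpSum x) / bumpSum x|
      ≤ |(bump x - bump y) / bumpSum x| + |unitWeight y * (bumpSum y - bumpSum x) / bumpSum x| :=
        abs_add_le _ _
    _ ≤ L₁ * ‖x - y‖ / (δ / 2) + 1 * (L₂ * ‖x - y‖) / (δ / 2) := by
        rw [abs_div, abs_div, abs_mul, abs_of_pos hxp, abs_of_nonneg (unitWeight_nonneg y),
          abs_sub_comm (bumpSum y) (bumpSum x)]
        exact add_le_add
          (div_le_div₀ (mul_nonneg hL₁ (norm_nonneg _)) (h₁ x y hx hy) (by linarith) hΦx)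
          (div_le_div₀ (mul_nonneg zero_le_one (mul_nonneg hL₂ (norm_nonneg _)))
            (mul_le_mul (unitWeight_le_one y) hΦxy (abs_nonneg _) zero_le_one) (by linarith) hΦx)
    _ = 2 / δ * (L₁ + L₂) * ‖x - y‖ := by field_simp

/-! ### The weighted norm -/

/-- `unitWeight x * (max (N x) 1) ^ (-s)`. -/
def weightedNorm (s : ℝ) (x : mixedSpace K) : ℝ :=
  unitWeight x * max (mixedEmbedding.norm x) 1 ^ (-s)

theorem weightedNorm_nonneg (s : ℝ) (x : mixedSpace K) : 0 ≤ weightedNorm s x :=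
  mul_nonneg (unitWeight_nonneg x)
    (Real.rpow_nonneg (zero_le_one.trans (le_max_right _ _)) _)

theorem weightedNorm_le_one {s : ℝ} (hs : 0 ≤ s) (x : mixedSpace K) : weightedNorm s x ≤ 1 :=
  mul_le_one₀ (unitWeight_le_one x) (Real.rpow_nonneg (zero_le_one.trans (le_max_right _ _)) _)
    (Real.rpow_le_one_of_one_le_of_nonpos (le_max_right _ _) (neg_nonpos.mpr hs))

theorem weightedNorm_zero (s : ℝ) : weightedNorm s (0 : mixedSpace K) = 0 := by
  rw [weightedNorm, unitWeight_zero, zero_mul]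

theorem weightedNorm_le_rpow_norm {s : ℝ} (hs : 0 ≤ s) {x : mixedSpace K} (hx : x ≠ 0) :
    weightedNorm s x ≤ (coneConst K * ‖x‖ ^ d) ^ (-s) := by
  by_cases h : unitWeight x = 0
  · rw [weightedNorm, h, zero_mul]
    exact Real.rpow_nonneg (mul_nonneg coneConst_pos.le (by positivity)) _
  calc weightedNorm s x ≤ 1 * max (mixedEmbedding.norm x) 1 ^ (-s) :=
        mul_le_mul_of_nonneg_right (unitWeight_le_one x)
          (Real.rpow_nonneg (zero_le_one.trans (le_max_right _ _)) _)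
    _ ≤ _ := by
        rw [one_mul]
        exact Real.rpow_le_rpow_of_nonpos
          (mul_pos coneConst_pos (pow_pos (norm_pos_iff.mpr hx) _))
          ((lt_of_unitWeight_ne_zero h).le.trans (le_max_left _ _)) (neg_nonpos.mpr hs)

theorem abs_rpow_neg_sub_le {δ s h k : ℝ} (hδ : 0 < δ) (hs₁ : 1 ≤ s) (hs₂ : s ≤ 2)
    (hh : δ ≤ h) (hk : δ ≤ k) :
    |h ^ (-s) - k ^ (-s)| ≤ 2 * max (δ⁻¹ ^ 3) 1 * |h - k| := by
  wlog hle : h ≤ k generalizing h k
  · rw [abs_sub_comm, abs_sub_comm h k]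
    exact this hk hh (le_of_not_ge hle)
  have hh0 : 0 < h := hδ.trans_le hh
  have hk0 : 0 < k := hδ.trans_le hk
  have h1 : k ^ (-s) ≤ h ^ (-s) := Real.rpow_le_rpow_of_nonpos hh0 hle (by linarith)
  rw [abs_of_nonneg (sub_nonneg.mpr h1), abs_of_nonpos (sub_nonpos.mpr hle)]
  have h2 : k ^ (-s) = h ^ (-s) * Real.exp (-s * Real.log (k / h)) := by
    rw [Real.rpow_def_of_pos hk0, Real.rpow_def_of_pos hh0, ← Real.exp_add,
      Real.log_div hk0.ne' hh0.ne']
    ring_nf
  have h3 : 1 - Real.exp (-s * Real.log (k / h)) ≤ 2 * ((k - h) / h) := by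
    have h4 := Real.add_one_le_exp (-s * Real.log (k / h))
    have h5 : Real.log (k / h) ≤ k / h - 1 := Real.log_le_sub_one_of_pos (div_pos hk0 hh0)
    have h6 : 0 ≤ Real.log (k / h) := Real.log_nonneg ((one_le_div hh0).mpr hle)
    have h7 : k / h - 1 = (k - h) / h := by field_simp
    have h8 : s * Real.log (k / h) ≤ 2 * (k / h - 1) := mul_le_mul hs₂ h5 h6 two_pos.le
    linarith
  have h9 : h ^ (-s) * h⁻¹ ≤ max (δ⁻¹ ^ 3) 1 := by
    rw [← Real.rpow_neg_one h, ← Real.rpow_add hh0]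
    by_cases hδ1 : h ≤ 1
    · refine le_max_of_le_left ((Real.rpow_le_rpow_of_exponent_ge hh0 hδ1
        (by linarith : (-3 : ℝ) ≤ -s + -1)).trans ?_)
      rw [Real.rpow_neg hh0.le, show (3 : ℝ) = ((3 : ℕ) : ℝ) by norm_num, Real.rpow_natCast,
        inv_pow]
      gcongr
    · exact le_max_of_le_right (Real.rpow_le_one_of_one_le_of_nonpos (le_of_not_ge hδ1)
        (by linarith))
  calc h ^ (-s) - k ^ (-s) = h ^ (-s) * (1 - Real.exp (-s * Real.log (k / h))) := by
        rw [h2]; ring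
    _ ≤ h ^ (-s) * (2 * ((k - h) / h)) :=
        mul_le_mul_of_nonneg_left h3 (Real.rpow_nonneg hh0.le _)
    _ = 2 * (h ^ (-s) * h⁻¹) * (k - h) := by rw [div_eq_mul_inv]; ring
    _ ≤ 2 * max (δ⁻¹ ^ 3) 1 * (k - h) :=
        mul_le_mul_of_nonneg_right (by linarith) (by linarith)
    _ = 2 * max (δ⁻¹ ^ 3) 1 * -(h - k) := by ring

/-- **Key estimate**: translating by a fixed vector changes the weighted norm very little. -/
theorem exists_weightedNorm_translate_bound (r : mixedSpace K) :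
    ∃ C : ℝ, 0 ≤ C ∧ ∀ s : ℝ, 1 ≤ s → s ≤ 2 → ∀ a : mixedSpace K, a ≠ 0 →
      |weightedNorm s (a + r) - weightedNorm s a| ≤ C * (‖a‖ ^ (d + 1))⁻¹ := by
  obtain ⟨Lw, hLw, hW⟩ := exists_lip_unitWeight (K := K)
  obtain ⟨Ln, hLn, hN⟩ := lipB_mixedNorm.max_const (annulusConst K) (3 / 2) (K := K)
  let δ := annulusConst K
  have hδ : 0 < δ := annulusConst_pos
  let M := max (δ⁻¹ ^ 3) 1
  let LG := Lw * max (δ⁻¹ ^ 2) 1 + 2 * M * Ln
  let T : ℝ := max (max (2 * ‖r‖) 1) δ⁻¹
  refine ⟨max (LG * ‖r‖) (T ^ (d + 1)), by positivity, fun s hs₁ hs₂ a ha ↦ ?_⟩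
  let t := ‖a‖
  have ht : 0 < t := norm_pos_iff.mpr ha
  by_cases htT : t < T
  · calc |weightedNorm s (a + r) - weightedNorm s a| ≤ 1 := by
          rw [abs_sub_le_iff]
          constructor <;>
            linarith [weightedNorm_nonneg s (a + r), weightedNorm_nonneg s a,
              weightedNorm_le_one (by linarith : 0 ≤ s) (a + r),
              weightedNorm_le_one (by linarith : 0 ≤ s) a]
      _ = t ^ (d + 1) * (t ^ (d + 1))⁻¹ := by field_simp
      _ ≤ _ := by
          gcongr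
          exact (pow_le_pow_left₀ ht.le htT.le _).trans (le_max_right _ _)
  rw [not_lt] at htT
  have hT1 : 1 ≤ t := ((le_max_right _ _).trans (le_max_left _ _)).trans htT
  have hTr : 2 * ‖r‖ ≤ t := ((le_max_left _ _).trans (le_max_left _ _)).trans htT
  have hTδ : δ⁻¹ ≤ t := (le_max_right _ _).trans htT
  -- value at a point `t • z` of the annulus
  let G : mixedSpace K → ℝ := fun z ↦
    unitWeight z * max (mixedEmbedding.norm z) δ ^ (-s)
  have hval : ∀ z : mixedSpace K, 1 / 2 ≤ ‖z‖ →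
      weightedNorm s (t • z) = (t ^ d) ^ (-s) * G z := by
    intro z hz
    by_cases h0 : unitWeight z = 0
    · simp only [weightedNorm, G, unitWeight_smul ht, h0, zero_mul, mul_zero]
    have hz' : δ ≤ mixedEmbedding.norm z :=
      annulusConst_le hz fun h ↦ h0 (by rw [unitWeight, h, zero_div])
    have h1 : 1 ≤ t ^ d * mixedEmbedding.norm z := by
      calc (1 : ℝ) = δ⁻¹ * δ := (inv_mul_cancel₀ hδ.ne').symm
        _ ≤ t ^ d * mixedEmbedding.norm z :=
          mul_le_mul (hTδ.trans (le_self_pow₀ hT1 finrank_ne_zero)) hz' hδ.le (by positivity)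
    simp only [weightedNorm, G, unitWeight_smul ht, mixedEmbedding.norm_smul, abs_of_pos ht]
    rw [max_eq_left h1, max_eq_left hz', Real.mul_rpow (by positivity) (hδ.le.trans hz')]
    ring
  let y := t⁻¹ • a
  let z := t⁻¹ • (a + r)
  have hy : t • y = a := smul_inv_smul₀ ht.ne' a
  have hz : t • z = a + r := smul_inv_smul₀ ht.ne' _
  have hyn : ‖y‖ = 1 := by
    rw [_root_.norm_smul, norm_inv, Real.norm_of_nonneg ht.le, inv_mul_cancel₀ ht.ne']
  have hzy : ‖z - y‖ = ‖r‖ / t := by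
    rw [← smul_sub, add_sub_cancel_left, _root_.norm_smul, norm_inv, Real.norm_of_nonneg ht.le,
      div_eq_inv_mul]
  have hzy' : ‖r‖ / t ≤ 1 / 2 := by rw [div_le_iff₀ ht]; linarith
  have hz1 : ‖z‖ ≤ 3 / 2 := by
    have := norm_le_norm_add_norm_sub' z y
    linarith [norm_sub_rev z y]
  have hz2 : 1 / 2 ≤ ‖z‖ := by
    have := norm_sub_norm_le y z
    linarith [norm_sub_rev z y]
  have hGlip : |G z - G y| ≤ LG * ‖z - y‖ := by
    have hb : ∀ w : mixedSpace K, max (mixedEmbedding.norm w) δ ^ (-s) ≤ max (δ⁻¹ ^ 2) 1 := by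
      intro w
      by_cases h1 : max (mixedEmbedding.norm w) δ ≤ 1
      · refine le_max_of_le_left ((Real.rpow_le_rpow_of_exponent_ge
          (hδ.trans_le (le_max_right _ _)) h1 (neg_le_neg hs₂)).trans ?_)
        rw [Real.rpow_neg (hδ.le.trans (le_max_right _ _)),
          show (2 : ℝ) = ((2 : ℕ) : ℝ) by norm_num, Real.rpow_natCast, inv_pow]
        gcongr
        exact le_max_right _ _
      · exact le_max_of_le_right (Real.rpow_le_one_of_one_le_of_nonpos (le_of_not_ge h1)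
          (by linarith))
    have e : G z - G y = (unitWeight z - unitWeight y) * max (mixedEmbedding.norm z) δ ^ (-s) +
        unitWeight y * (max (mixedEmbedding.norm z) δ ^ (-s) -
          max (mixedEmbedding.norm y) δ ^ (-s)) := by
      simp only [G]; ring
    rw [e]
    refine (abs_add_le _ _).trans ?_
    rw [abs_mul, abs_mul,
      abs_of_nonneg (Real.rpow_nonneg (hδ.le.trans (le_max_right (mixedEmbedding.norm z) δ)) _),
      abs_of_nonneg (unitWeight_nonneg y)]
    calc _ ≤ Lw * ‖z - y‖ * max (δ⁻¹ ^ 2) 1 + 1 * (2 * M * (Ln * ‖z - y‖)) := by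
          refine add_le_add (mul_le_mul (hW z y hz1 (by linarith) hz2 (by linarith)) (hb z)
            (Real.rpow_nonneg (hδ.le.trans (le_max_right _ _)) _) (by positivity))
            (mul_le_mul (unitWeight_le_one y) ?_ (abs_nonneg _) zero_le_one)
          exact (abs_rpow_neg_sub_le hδ hs₁ hs₂ (le_max_right _ _) (le_max_right _ _)).trans
            (mul_le_mul_of_nonneg_left (hN z y hz1 (by linarith)) (by positivity))
      _ = LG * ‖z - y‖ := by simp only [LG]; ring
  rw [← hz, ← hy, hval z hz2, hval y (by linarith), ← mul_sub, abs_mul, hy,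
    abs_of_nonneg (Real.rpow_nonneg (by positivity) _)]
  calc (t ^ d) ^ (-s) * |G z - G y| ≤ (t ^ d)⁻¹ * (LG * (‖r‖ / t)) := by
        gcongr
        · rw [← Real.rpow_neg_one]
          exact Real.rpow_le_rpow_of_exponent_le (one_le_pow₀ hT1) (by linarith)
        · exact hzy ▸ hGlip
    _ = LG * ‖r‖ * (t ^ (d + 1))⁻¹ := by
        rw [pow_succ, mul_inv, div_eq_mul_inv]; ring
    _ ≤ _ := by gcongr; exact le_max_left _ _

end FermatAgent.CFT
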