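import Mathlib
import Fermat.Agent.CFT.WeightFunction

/-!
# Partial zeta functions of ideal classes

We show that the partial zeta functions of the ideal classes of a number field differ from each
other by a bounded amount as `s → 1⁺`, by comparing lattice sums of the weighted norm.
-/

set_option autoImplicit false

noncomputable section

namespace FermatAgent.CFT

open NumberField NumberField.mixedEmbedding Filter Topology
open scoped nonZeroDivisors Classical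

variable (K : Type*) [Field K] [NumberField K]

/-- The Dedekind zeta function as a sum over ideals, for real arguments. -/
def idealZeta (s : ℝ) : ℝ :=
  ∑' I : (Ideal (𝓞 K))⁰, (Ideal.absNorm (I : Ideal (𝓞 K)) : ℝ) ^ (-s)

variable {K}

/-- The zeta function of an ideal class. -/
def classZeta (C : ClassGroup (𝓞 K)) (s : ℝ) : ℝ :=
  ∑' I : {I : (Ideal (𝓞 K))⁰ // ClassGroup.mk0 I = C},
    (Ideal.absNorm (I.1 : Ideal (𝓞 K)) : ℝ) ^ (-s)

/-- The value of the weighted norm at an algebraic integer. -/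
def intWeight (s : ℝ) (a : 𝓞 K) : ℝ := weightedNorm s (mixedEmbedding K (a : K))

/-- The sum of the weighted norm over an ideal. -/
def latticeSum (J : Ideal (𝓞 K)) (s : ℝ) : ℝ := ∑' a : J, intWeight s (a : 𝓞 K)

local notation "d" => Module.finrank ℚ K

theorem intEmbedding_injective :
    Function.Injective fun a : 𝓞 K ↦ mixedEmbedding K (a : K) :=
  (mixedEmbedding_injective K).comp RingOfIntegers.coe_injective

theorem summable_norm_rpow_int {r : ℝ} (hr : r < -(d : ℝ)) :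
    Summable fun a : 𝓞 K ↦ ‖mixedEmbedding K (a : K)‖ ^ r := by
  have h := ZLattice.summable_norm_rpow (mixedEmbedding.integerLattice K) r
    (by rwa [ZLattice.rank ℝ, mixedEmbedding.finrank])
  let e : 𝓞 K → mixedEmbedding.integerLattice K := fun a ↦
    ⟨mixedEmbedding K (a : K), LinearMap.mem_range.mpr ⟨a, by simp⟩⟩
  exact h.comp_injective (i := e) fun a b hab ↦ intEmbedding_injective congr(($hab).1)

theorem summable_inv_norm_pow :
    Summable fun a : 𝓞 K ↦ (‖mixedEmbedding K (a : K)‖ ^ (d + 1))⁻¹ := by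
  refine (summable_norm_rpow_int (r := -((d + 1 : ℕ) : ℝ)) (by push_cast; linarith)).congr
    fun a ↦ ?_
  rw [Real.rpow_neg (norm_nonneg _), Real.rpow_natCast]

theorem intWeight_nonneg (s : ℝ) (a : 𝓞 K) : 0 ≤ intWeight s a := weightedNorm_nonneg _ _

theorem summable_intWeight {s : ℝ} (hs : 1 < s) : Summable fun a : 𝓞 K ↦ intWeight s a := by
  refine Summable.of_nonneg_of_le (intWeight_nonneg s) (fun a ↦ ?_)
    ((summable_norm_rpow_int (K := K) (r := -((d : ℝ) * s)) ?_).mul_left (coneConst K ^ (-s)))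
  · by_cases ha : mixedEmbedding K (a : K) = 0
    · rw [intWeight, ha, weightedNorm_zero]
      exact mul_nonneg (Real.rpow_nonneg coneConst_pos.le _) (Real.rpow_nonneg (norm_nonneg _) _)
    · refine (weightedNorm_le_rpow_norm (by linarith) ha).trans ?_
      rw [Real.mul_rpow coneConst_pos.le (by positivity), ← Real.rpow_natCast ‖_‖ (d),
        ← Real.rpow_mul (norm_nonneg _), mul_neg]
  · have : (0 : ℝ) < d := Nat.cast_pos.mpr Module.finrank_pos
    nlinarith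

theorem summable_intWeight_subtype {s : ℝ} (hs : 1 < s) (J : Ideal (𝓞 K)) :
    Summable fun a : J ↦ intWeight s (a : 𝓞 K) :=
  (summable_intWeight hs).comp_injective Subtype.val_injective

/-- Translating an ideal by a fixed element changes the lattice sum by a bounded amount. -/
theorem exists_translate_bound (J : Ideal (𝓞 K)) (r : 𝓞 K) :
    ∃ B : ℝ, ∀ s : ℝ, 1 < s → s ≤ 2 →
      |(∑' a : J, intWeight s ((a : 𝓞 K) + r)) - latticeSum J s| ≤ B := by
  obtain ⟨C, hC, h⟩ := exists_weightedNorm_translate_bound (mixedEmbedding K (r : K))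
  let g : J → ℝ := fun a ↦ C * (‖mixedEmbedding K ((a : 𝓞 K) : K)‖ ^ (d + 1))⁻¹ +
    (Pi.single (0 : J) (1 : ℝ) : J → ℝ) a
  have hg : Summable g :=
    ((summable_inv_norm_pow.comp_injective Subtype.val_injective).mul_left C).add
      (hasSum_pi_single (0 : J) (1 : ℝ)).summable
  refine ⟨∑' a, g a, fun s hs₁ hs₂ ↦ ?_⟩
  have hsum₁ : Summable fun a : J ↦ intWeight s ((a : 𝓞 K) + r) :=
    (summable_intWeight hs₁).comp_injective
      ((add_left_injective r).comp Subtype.val_injective)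
  rw [latticeSum, ← hsum₁.tsum_sub (summable_intWeight_subtype hs₁ J)]
  rw [← Real.norm_eq_abs]
  refine tsum_of_norm_bounded hg.hasSum fun a ↦ ?_
  rw [Real.norm_eq_abs]
  by_cases ha : a = 0
  · subst ha
    simp only [g, Pi.single_eq_same, ZeroMemClass.coe_zero, zero_add, map_zero]
    refine le_add_of_nonneg_of_le (by positivity) ?_
    simp only [intWeight, map_zero, weightedNorm_zero, sub_zero,
      abs_of_nonneg (weightedNorm_nonneg _ _)]
    exact weightedNorm_le_one (by linarith) _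
  · simp only [g, Pi.single_eq_of_ne ha, add_zero, intWeight, map_add]
    refine h s hs₁.le hs₂ _ ?_
    rw [map_ne_zero, RingOfIntegers.coe_ne_zero_iff, ne_eq, ZeroMemClass.coe_eq_zero]
    exact ha

/-- `N J * S_J = S_O + O(1)`. -/
theorem exists_latticeSum_bound (J : (Ideal (𝓞 K))⁰) :
    ∃ B : ℝ, ∀ s : ℝ, 1 < s → s ≤ 2 →
      |(Ideal.absNorm (J : Ideal (𝓞 K)) : ℝ) * latticeSum (J : Ideal (𝓞 K)) s -
        ∑' a : 𝓞 K, intWeight s a| ≤ B := by
  let J' : Ideal (𝓞 K) := J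
  let H : AddSubgroup (𝓞 K) := J'.toAddSubgroup
  have : Finite (𝓞 K ⧸ J') :=
    Ideal.finiteQuotientOfFreeOfNeBot J' (nonZeroDivisors.coe_ne_zero J)
  have : Finite (𝓞 K ⧸ H) := ‹Finite (𝓞 K ⧸ J')›
  let _ : Fintype (𝓞 K ⧸ H) := Fintype.ofFinite _
  choose B hB using fun q : 𝓞 K ⧸ H ↦ exists_translate_bound J' q.out
  refine ⟨∑ q, B q, fun s hs₁ hs₂ ↦ ?_⟩
  have hcard : (Ideal.absNorm (J : Ideal (𝓞 K)) : ℝ) = Fintype.card (𝓞 K ⧸ H) := by
    rw [← Nat.card_eq_fintype_card, Ideal.absNorm_apply, Submodule.cardQuot_apply]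
    rfl
  let e : (𝓞 K ⧸ H) × J' ≃ 𝓞 K :=
    { toFun := fun p ↦ (p.2 : 𝓞 K) + p.1.out
      invFun := fun x ↦ (QuotientAddGroup.mk x, ⟨x - (QuotientAddGroup.mk x : 𝓞 K ⧸ H).out,
        (QuotientAddGroup.eq_iff_sub_mem (N := H)).mp (QuotientAddGroup.out_eq' _).symm⟩)
      left_inv := fun p ↦ by
        have h1 : (QuotientAddGroup.mk ((p.2 : 𝓞 K) + p.1.out) : 𝓞 K ⧸ H) = p.1 := by
          rw [QuotientAddGroup.mk_add, QuotientAddGroup.out_eq',
            (QuotientAddGroup.eq_zero_iff _).mpr p.2.2, zero_add]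
        refine Prod.ext h1 (Subtype.ext ?_)
        simp only [h1, add_sub_cancel_right]
      right_inv := fun x ↦ sub_add_cancel _ _ }
  have hdecomp : ∑' a : 𝓞 K, intWeight s a =
      ∑ q : 𝓞 K ⧸ H, ∑' a : J', intWeight s ((a : 𝓞 K) + q.out) := by
    have hs : Summable fun p : (𝓞 K ⧸ H) × J' ↦ intWeight s (e p) :=
      (summable_intWeight hs₁).comp_injective e.injective
    rw [← e.tsum_eq, hs.tsum_prod, tsum_fintype]
    rfl
  rw [hdecomp, hcard, ← nsmul_eq_mul, ← Finset.card_univ, ← Finset.sum_const,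
    ← Finset.sum_sub_distrib]
  refine (Finset.abs_sum_le_sum_abs _ _).trans (Finset.sum_le_sum fun q _ ↦ ?_)
  rw [abs_sub_comm]
  exact hB q s hs₁ hs₂

/-- Orbit decomposition of a lattice sum. -/
theorem hasSum_principal {s : ℝ} (hs : 1 < s) (J : (Ideal (𝓞 K))⁰) :
    HasSum (fun I : {I : (Ideal (𝓞 K))⁰ //
        (J : Ideal (𝓞 K)) ∣ I ∧ (I : Ideal (𝓞 K)).IsPrincipal} ↦
      (Ideal.absNorm (I.1 : Ideal (𝓞 K)) : ℝ) ^ (-s)) (latticeSum (J : Ideal (𝓞 K)) s) := by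
  let P := {I : (Ideal (𝓞 K))⁰ // (J : Ideal (𝓞 K)) ∣ I ∧ (I : Ideal (𝓞 K)).IsPrincipal}
  have hgen : ∀ I : P, ∃ g : 𝓞 K, g ≠ 0 ∧ g ∈ (J : Ideal (𝓞 K)) ∧
      (I.1 : Ideal (𝓞 K)) = Ideal.span {g} := by
    intro I
    obtain ⟨g, hg⟩ := I.2.2.principal
    rw [← Ideal.span] at hg
    refine ⟨g, ?_, ?_, hg⟩
    · rintro rfl
      exact nonZeroDivisors.coe_ne_zero I.1 (by simpa using hg)
    · have := I.2.1
      rw [hg, Ideal.dvd_iff_le, Ideal.span_singleton_le_iff_mem] at this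
      exact this
  choose g hg0 hgJ hgspan using hgen
  let Ψ : P × (𝓞 K)ˣ → (J : Ideal (𝓞 K)) := fun p ↦
    ⟨(p.2 : 𝓞 K) * g p.1, Ideal.mul_mem_left _ _ (hgJ p.1)⟩
  have hΨ : Function.Injective Ψ := by
    rintro ⟨I, u⟩ ⟨I', u'⟩ h
    have h' : (u : 𝓞 K) * g I = (u' : 𝓞 K) * g I' := congr(($h).1)
    have hI : I = I' := by
      refine Subtype.ext (Subtype.ext ?_)
      rw [hgspan I, hgspan I', Ideal.span_singleton_eq_span_singleton]
      exact ⟨u'⁻¹ * u, by rw [Units.val_mul, ← mul_assoc, mul_comm (g I), mul_assoc,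
        mul_comm (g I), h', ← mul_assoc, Units.inv_mul, one_mul]⟩
    subst hI
    rw [mul_left_inj' (hg0 I), Units.val_inj] at h'
    rw [h']
  have hsupp : Function.support (fun a : (J : Ideal (𝓞 K)) ↦ intWeight s (a : 𝓞 K)) ⊆
      Set.range Ψ := by
    intro a ha
    have ha0 : (a : 𝓞 K) ≠ 0 := by
      intro h
      exact ha (by simp only [intWeight, h, map_zero, weightedNorm_zero])
    let I : P := ⟨⟨Ideal.span {(a : 𝓞 K)}, mem_nonZeroDivisors_of_ne_zero (by simpa using ha0)⟩,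
      Ideal.dvd_iff_le.mpr ((Ideal.span_singleton_le_iff_mem _).mpr a.2),
      ⟨⟨(a : 𝓞 K), rfl⟩⟩⟩
    obtain ⟨u, hu⟩ := Ideal.span_singleton_eq_span_singleton.mp (hgspan I).symm
    exact ⟨(I, u), Subtype.ext ((mul_comm _ _).trans hu)⟩
  have hterm : ∀ p : P × (𝓞 K)ˣ, intWeight s (Ψ p : 𝓞 K) =
      unitWeight (p.2 • mixedEmbedding K (g p.1 : K)) *
        (Ideal.absNorm (p.1.1 : Ideal (𝓞 K)) : ℝ) ^ (-s) := by
    intro p
    have h1 : mixedEmbedding K ((Ψ p : 𝓞 K) : K) = p.2 • mixedEmbedding K (g p.1 : K) := by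
      simp [Ψ, unitSMul_smul]
    have h2 : (Ideal.absNorm (p.1.1 : Ideal (𝓞 K)) : ℝ) =
        mixedEmbedding.norm (mixedEmbedding K (g p.1 : K)) := by
      rw [hgspan, Ideal.absNorm_span_singleton, norm_eq_norm, Nat.cast_natAbs,
        ← Algebra.coe_norm_int, ← Int.cast_abs, Rat.cast_intCast]
    rw [intWeight, weightedNorm, h1, norm_unit_smul, ← h2, max_eq_left]
    exact Nat.one_le_cast.mpr (Nat.one_le_iff_ne_zero.mpr
      (Ideal.absNorm_ne_zero_of_nonZeroDivisors p.1.1))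
  have hsum : Summable fun p : P × (𝓞 K)ˣ ↦ intWeight s (Ψ p : 𝓞 K) :=
    (summable_intWeight_subtype hs _).comp_injective hΨ
  have hinner : ∀ I : P, ∑' u : (𝓞 K)ˣ, intWeight s (Ψ (I, u) : 𝓞 K) =
      (Ideal.absNorm (I.1 : Ideal (𝓞 K)) : ℝ) ^ (-s) := by
    intro I
    simp_rw [hterm, tsum_mul_right]
    rw [tsum_unitWeight, one_mul]
    rw [norm_eq_norm, ne_eq, Rat.cast_eq_zero, abs_eq_zero, Algebra.norm_eq_zero_iff]
    simpa using hg0 I
  have h3 : HasSum (fun p : P × (𝓞 K)ˣ ↦ intWeight s (Ψ p : 𝓞 K))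
      (latticeSum (J : Ideal (𝓞 K)) s) := by
    rw [latticeSum, ← hΨ.tsum_eq hsupp]
    exact hsum.hasSum
  exact h3.prod_fiberwise fun I ↦ hinner I ▸ (hsum.prod_factor I).hasSum

/-- Ideals in the class `C` correspond to principal multiples of `J ∈ C⁻¹`. -/
theorem hasSum_classZeta {s : ℝ} (hs : 1 < s) {C : ClassGroup (𝓞 K)} {J : (Ideal (𝓞 K))⁰}
    (hJ : ClassGroup.mk0 J = C⁻¹) :
    HasSum (fun I : {I : (Ideal (𝓞 K))⁰ // ClassGroup.mk0 I = C} ↦
        (Ideal.absNorm (I.1 : Ideal (𝓞 K)) : ℝ) ^ (-s))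
      ((Ideal.absNorm (J : Ideal (𝓞 K)) : ℝ) ^ s * latticeSum (J : Ideal (𝓞 K)) s) := by
  let P := {I : (Ideal (𝓞 K))⁰ // (J : Ideal (𝓞 K)) ∣ I ∧ (I : Ideal (𝓞 K)).IsPrincipal}
  have hmem : ∀ I : {I : (Ideal (𝓞 K))⁰ // ClassGroup.mk0 I = C},
      (J : Ideal (𝓞 K)) ∣ ((J * I.1 : (Ideal (𝓞 K))⁰) : Ideal (𝓞 K)) ∧
        ((J * I.1 : (Ideal (𝓞 K))⁰) : Ideal (𝓞 K)).IsPrincipal := fun I ↦
    ⟨by simp, (ClassGroup.mk0_eq_one_iff (SetLike.coe_mem _)).mp
      (by rw [map_mul, hJ, I.2, inv_mul_cancel])⟩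
  let e : {I : (Ideal (𝓞 K))⁰ // ClassGroup.mk0 I = C} → P := fun I ↦ ⟨J * I.1, hmem I⟩
  have he : Function.Bijective e := by
    refine ⟨fun I I' h ↦ Subtype.ext (mul_left_cancel congr(($h).1)), fun I ↦ ?_⟩
    obtain ⟨I₀, hI₀⟩ := I.2.1
    have hI₀' : I₀ ∈ (Ideal (𝓞 K))⁰ := by
      have := I.1.2
      rw [hI₀] at this
      exact (mul_mem_nonZeroDivisors.mp this).2
    have hI : J * ⟨I₀, hI₀'⟩ = I.1 := Subtype.ext hI₀.symm
    refine ⟨⟨⟨I₀, hI₀'⟩, ?_⟩, Subtype.ext hI⟩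
    have := (ClassGroup.mk0_eq_one_iff (SetLike.coe_mem I.1)).mpr I.2.2
    rwa [← hI, map_mul, hJ, inv_mul_eq_one, eq_comm] at this
  have h := ((Equiv.ofBijective e he).hasSum_iff.mpr (hasSum_principal hs J)).mul_left
    ((Ideal.absNorm (J : Ideal (𝓞 K)) : ℝ) ^ s)
  refine h.congr_fun fun I ↦ ?_
  simp only [Function.comp_apply, Equiv.ofBijective_apply, e, Submonoid.coe_mul, map_mul,
    Nat.cast_mul]
  have hJ0 : (0 : ℝ) < Ideal.absNorm (J : Ideal (𝓞 K)) :=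
    Nat.cast_pos.mpr (Ideal.absNorm_pos_of_nonZeroDivisors J)
  rw [Real.mul_rpow hJ0.le (Nat.cast_nonneg _), ← mul_assoc, ← Real.rpow_add hJ0, add_neg_cancel,
    Real.rpow_zero, one_mul]

theorem summable_absNorm_rpow {s : ℝ} (hs : 1 < s) :
    Summable fun I : (Ideal (𝓞 K))⁰ ↦ (Ideal.absNorm (I : Ideal (𝓞 K)) : ℝ) ^ (-s) := by
  rw [← (Equiv.sigmaFiberEquiv ClassGroup.mk0).summable_iff]
  refine (summable_sigma_of_nonneg fun _ ↦ Real.rpow_nonneg (Nat.cast_nonneg _) _).mpr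
    ⟨fun C ↦ ?_, Summable.of_finite⟩
  obtain ⟨J, hJ⟩ := ClassGroup.mk0_surjective C⁻¹
  exact (hasSum_classZeta hs hJ).summable

theorem sum_classZeta {s : ℝ} (hs : 1 < s) :
    ∑ C : ClassGroup (𝓞 K), classZeta C s = idealZeta K s := by
  have h := (Equiv.sigmaFiberEquiv ClassGroup.mk0).summable_iff.mpr
    (summable_absNorm_rpow (K := K) hs)
  rw [idealZeta, ← (Equiv.sigmaFiberEquiv ClassGroup.mk0).tsum_eq]
  refine Eq.trans ?_ h.tsum_sigma.symm
  rw [tsum_fintype]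
  rfl

theorem classZeta_nonneg (C : ClassGroup (𝓞 K)) (s : ℝ) : 0 ≤ classZeta C s :=
  tsum_nonneg fun _ ↦ Real.rpow_nonneg (Nat.cast_nonneg _) _

theorem idealZeta_eq_re_dedekindZeta {s : ℝ} (hs : 1 < s) :
    (idealZeta K s : ℂ) = dedekindZeta K s := by
  let f : (Ideal (𝓞 K))⁰ → ℕ := fun I ↦ Ideal.absNorm (I : Ideal (𝓞 K))
  have h := (Equiv.sigmaFiberEquiv f).summable_iff.mpr (summable_absNorm_rpow (K := K) hs)
  rw [idealZeta, ← (Equiv.sigmaFiberEquiv f).tsum_eq]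
  simp only [Function.comp_def] at h
  rw [h.tsum_sigma, Complex.ofReal_tsum, dedekindZeta, LSeries]
  refine tsum_congr fun n ↦ ?_
  obtain rfl | hn := eq_or_ne n 0
  · have : IsEmpty {I // f I = 0} := ⟨fun I ↦ Ideal.absNorm_ne_zero_of_nonZeroDivisors I.1 I.2⟩
    simp
  let e : {I : (Ideal (𝓞 K))⁰ // f I = n} ≃ {I : Ideal (𝓞 K) // Ideal.absNorm I = n} :=
    { toFun := fun I ↦ ⟨I.1, I.2⟩
      invFun := fun I ↦ ⟨⟨I.1, mem_nonZeroDivisors_of_ne_zero fun h ↦ hn <| by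
        rw [← I.2, h, map_zero]⟩, I.2⟩
      left_inv := fun _ ↦ rfl
      right_inv := fun _ ↦ rfl }
  have hconst : ∀ I : {I // f I = n},
      ((Ideal.absNorm ((Equiv.sigmaFiberEquiv f ⟨n, I⟩ : (Ideal (𝓞 K))⁰) : Ideal (𝓞 K))) : ℝ) ^
        (-s) = (n : ℝ) ^ (-s) := fun I ↦ by
    rw [Equiv.sigmaFiberEquiv_apply, show Ideal.absNorm (I.1 : Ideal (𝓞 K)) = n from I.2]
  have : Finite {I : Ideal (𝓞 K) // Ideal.absNorm I = n} :=
    (Ideal.finite_setOfPred_absNorm_eq n).to_subtype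
  have : Finite {I // f I = n} := Finite.of_equiv _ e.symm
  let _ : Fintype {I // f I = n} := Fintype.ofFinite _
  rw [tsum_congr hconst, tsum_fintype, Finset.sum_const, Finset.card_univ,
    ← Nat.card_eq_fintype_card, Nat.card_congr e, LSeries.term_of_ne_zero hn, nsmul_eq_mul,
    Complex.ofReal_mul, Complex.ofReal_natCast, Real.rpow_neg (Nat.cast_nonneg _),
    Complex.ofReal_inv, Complex.ofReal_cpow (Nat.cast_nonneg _), Complex.ofReal_natCast,
    div_eq_mul_inv]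

theorem tendsto_sub_one_mul_idealZeta :
    Tendsto (fun s : ℝ ↦ (s - 1) * idealZeta K s) (𝓝[>] 1) (𝓝 (dedekindZeta_residue K)) := by
  have h := (Complex.continuous_re.tendsto _).comp
    (tendsto_sub_one_mul_dedekindZeta_nhdsGT K)
  rw [Complex.ofReal_re] at h
  refine h.congr' ?_
  filter_upwards [self_mem_nhdsWithin] with s hs
  rw [Function.comp_apply, ← idealZeta_eq_re_dedekindZeta hs]
  simp

/-- The zeta functions of any two ideal classes differ by a bounded amount near `1`. -/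
theorem exists_classZeta_sub_bounded :
    ∃ B : ℝ, ∀ᶠ s in 𝓝[>] (1 : ℝ), ∀ C : ClassGroup (𝓞 K),
      |classZeta C s - classZeta (1 : ClassGroup (𝓞 K)) s| ≤ B := by
  let S₀ : ℝ → ℝ := fun s ↦ ∑' a : 𝓞 K, intWeight s a
  suffices H : ∀ C : ClassGroup (𝓞 K),
      ∃ B : ℝ, ∀ᶠ s in 𝓝[>] (1 : ℝ), |classZeta C s - S₀ s| ≤ B by
    choose B hB using H
    refine ⟨∑ C, |B C| + |B 1|, ?_⟩
    filter_upwards [eventually_all.mpr hB] with s hs C
    calc |classZeta C s - classZeta 1 s| ≤ |classZeta C s - S₀ s| + |S₀ s - classZeta 1 s| :=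
          abs_sub_le _ _ _
      _ ≤ |B C| + |B 1| := by
          rw [abs_sub_comm (S₀ s)]
          exact add_le_add ((hs C).trans (le_abs_self _)) ((hs 1).trans (le_abs_self _))
      _ ≤ _ := by
          gcongr
          exact Finset.single_le_sum (f := fun C ↦ |B C|) (fun _ _ ↦ abs_nonneg _)
            (Finset.mem_univ C)
  intro C
  obtain ⟨J, hJ⟩ := ClassGroup.mk0_surjective C⁻¹
  obtain ⟨B, hB⟩ := exists_latticeSum_bound J
  obtain ⟨B₁, hB₁⟩ := exists_latticeSum_bound (1 : (Ideal (𝓞 K))⁰)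
  set n : ℝ := (Ideal.absNorm (J : Ideal (𝓞 K)) : ℝ) with hn
  have hn1 : 1 ≤ n := Nat.one_le_cast.mpr
    (Nat.one_le_iff_ne_zero.mpr (Ideal.absNorm_ne_zero_of_nonZeroDivisors J))
  refine ⟨n * |B| + (n - 1) * (dedekindZeta_residue K + 1 + |B₁|), ?_⟩
  filter_upwards [self_mem_nhdsWithin,
    nhdsWithin_le_nhds (Iic_mem_nhds (by norm_num : (1 : ℝ) < 2)),
    tendsto_sub_one_mul_idealZeta (K := K) |>.eventually
      (Iic_mem_nhds (lt_add_one _))] with s hs₁ hs₂ hζ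
  simp only [Set.mem_Ioi, Set.mem_Iic] at hs₁ hs₂ hζ
  have hC : classZeta C s = n ^ (s - 1) * (n * latticeSum (J : Ideal (𝓞 K)) s) := by
    rw [classZeta, (hasSum_classZeta hs₁ hJ).tsum_eq, ← mul_assoc,
      ← Real.rpow_add_one (by linarith), sub_add_cancel]
  have hS₀ : S₀ s ≤ idealZeta K s + |B₁| := by
    have h1 := abs_le.mp (hB₁ s hs₁ hs₂)
    have h2 : classZeta (1 : ClassGroup (𝓞 K)) s = latticeSum ((1 : (Ideal (𝓞 K))⁰) : Ideal (𝓞 K)) s := by
      rw [classZeta, (hasSum_classZeta hs₁ (C := 1) (J := 1) (by simp)).tsum_eq]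
      simp
    have h3 : classZeta (1 : ClassGroup (𝓞 K)) s ≤ idealZeta K s := by
      rw [← sum_classZeta hs₁]
      exact Finset.single_le_sum (fun C _ ↦ classZeta_nonneg C s) (Finset.mem_univ _)
    simp only [S₀]
    have h4 : ((Ideal.absNorm ((1 : (Ideal (𝓞 K))⁰) : Ideal (𝓞 K)) : ℕ) : ℝ) = 1 := by simp
    rw [h4, one_mul] at h1
    linarith [le_abs_self B₁]
  have hpow : n ^ (s - 1) - 1 ≤ (s - 1) * (n - 1) := by
    have := rpow_one_add_le_one_add_mul_self (by linarith : (-1 : ℝ) ≤ n - 1)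
      (by linarith : 0 ≤ s - 1) (by linarith : s - 1 ≤ 1)
    rw [add_sub_cancel] at this
    linarith
  have hpow1 : 1 ≤ n ^ (s - 1) := Real.one_le_rpow hn1 (by linarith)
  have hpown : n ^ (s - 1) ≤ n := Real.rpow_le_self_of_one_le hn1 (by linarith)
  have hS₀nn : 0 ≤ S₀ s := tsum_nonneg fun _ ↦ intWeight_nonneg _ _
  rw [hC, show n ^ (s - 1) * (n * latticeSum (J : Ideal (𝓞 K)) s) - S₀ s =
    n ^ (s - 1) * (n * latticeSum (J : Ideal (𝓞 K)) s - S₀ s) + (n ^ (s - 1) - 1) * S₀ s by ring]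
  refine (abs_add_le _ _).trans (add_le_add ?_ ?_)
  · rw [abs_mul, abs_of_nonneg (by linarith : 0 ≤ n ^ (s - 1))]
    exact mul_le_mul hpown ((hB s hs₁ hs₂).trans (le_abs_self _)) (abs_nonneg _) (by linarith)
  · rw [abs_of_nonneg (mul_nonneg (by linarith) hS₀nn)]
    calc (n ^ (s - 1) - 1) * S₀ s ≤ (s - 1) * (n - 1) * (idealZeta K s + |B₁|) :=
          mul_le_mul hpow hS₀ hS₀nn (mul_nonneg (by linarith) (by linarith))
      _ = (n - 1) * ((s - 1) * idealZeta K s + (s - 1) * |B₁|) := by ring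
      _ ≤ _ := by
          refine mul_le_mul_of_nonneg_left (add_le_add hζ ?_) (by linarith)
          exact mul_le_of_le_one_left (abs_nonneg _) (by linarith)

end FermatAgent.CFT
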