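import Mathlib
import Fermat.Agent.CFT.LatticeSum

/-!
# Euler products over the ideals of a number field, and prime sums in ideal classes

The main result is `exists_primeSum_classGroup_bound`: for a surjective homomorphism from the class
group onto a group of order `h`, the primes in the kernel have upper density at most `1 / h`.
-/

set_option autoImplicit false

noncomputable section

namespace FermatAgent.CFT

open Filter Topology NumberField IsDedekindDomain
open scoped nonZeroDivisors Classical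

/-! ### Abstract Euler product -/

section Euler

variable {ι : Type*}

/-- The equivalence splitting off one prime in multisets supported on `insert a S`. -/
def multisetInsertEquiv {S : Finset ι} {a : ι} (ha : a ∉ S) :
    {m : Multiset ι // ∀ i ∈ m, i ∈ insert a S} ≃ ℕ × {m : Multiset ι // ∀ i ∈ m, i ∈ S} where
  toFun m := (m.1.count a, ⟨m.1.filter (· ≠ a), fun i hi ↦ by
    obtain ⟨h1, h2⟩ := Multiset.mem_filter.mp hi
    exact (Finset.mem_insert.mp (m.2 i h1)).resolve_left h2⟩)
  invFun p := ⟨Multiset.replicate p.1 a + p.2.1, fun i hi ↦ by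
    rcases Multiset.mem_add.mp hi with h | h
    · exact Finset.mem_insert.mpr (Or.inl (Multiset.eq_of_mem_replicate h))
    · exact Finset.mem_insert_of_mem (p.2.2 i h)⟩
  left_inv m := Subtype.ext <| by
    simp only
    rw [← Multiset.filter_eq', Multiset.filter_add_not]
  right_inv p := by
    have h1 : a ∉ p.2.1 := fun h ↦ ha (p.2.2 a h)
    refine Prod.ext ?_ (Subtype.ext ?_)
    · simp [Multiset.count_eq_zero.mpr h1]
    · simp only [Multiset.filter_add]
      rw [Multiset.filter_eq_nil.mpr (fun i hi ↦ by simp [Multiset.eq_of_mem_replicate hi]),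
        Multiset.filter_eq_self.mpr (fun i hi ↦ ne_of_mem_of_not_mem hi h1), zero_add]

theorem hasSum_multiset_finset {x : ι → ℂ} (hx : Summable fun m : Multiset ι ↦ ‖(m.map x).prod‖)
    (hlt : ∀ i, ‖x i‖ < 1) (S : Finset ι) :
    HasSum (fun m : {m : Multiset ι // ∀ i ∈ m, i ∈ S} ↦ (m.1.map x).prod)
      (∏ i ∈ S, (1 - x i)⁻¹) := by
  induction S using Finset.induction_on with
  | empty =>
    let z : {m : Multiset ι // ∀ i ∈ m, i ∈ (∅ : Finset ι)} := ⟨0, by simp⟩
    have : Unique {m : Multiset ι // ∀ i ∈ m, i ∈ (∅ : Finset ι)} :=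
      ⟨⟨z⟩, fun m ↦ Subtype.ext (Multiset.eq_zero_of_forall_notMem fun i hi ↦ by
        simpa using m.2 i hi)⟩
    rw [Finset.prod_empty]
    convert hasSum_single z (f := fun m : {m : Multiset ι // ∀ i ∈ m, i ∈ (∅ : Finset ι)} ↦
      (m.1.map x).prod) fun b hb ↦ absurd (Subsingleton.elim b z) hb using 1
    simp [z]
  | insert a S ha ih =>
    rw [Finset.prod_insert ha, ← (multisetInsertEquiv ha).symm.hasSum_iff]
    have hval : ∀ p : ℕ × {m : Multiset ι // ∀ i ∈ m, i ∈ S},
        ((((multisetInsertEquiv ha).symm p).1.map x).prod) = x a ^ p.1 * (p.2.1.map x).prod := by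
      intro p
      simp [multisetInsertEquiv]
    have hs : Summable fun p : ℕ × {m : Multiset ι // ∀ i ∈ m, i ∈ S} ↦
        x a ^ p.1 * (p.2.1.map x).prod := by
      refine (Summable.of_norm (hx.comp_injective (Subtype.val_injective.comp
        (multisetInsertEquiv ha).symm.injective))).congr fun p ↦ ?_
      exact hval p
    exact ((hasSum_geometric_of_norm_lt_one (hlt a)).mul ih hs).congr_fun fun p ↦ hval p

/-- **Abstract Euler product**, in exponential form. -/
theorem exp_tsum_neg_log_one_sub [Countable ι] {x : ι → ℂ}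
    (hx : Summable fun m : Multiset ι ↦ ‖(m.map x).prod‖) (hlt : ∀ i, ‖x i‖ < 1) :
    Complex.exp (∑' i, -Complex.log (1 - x i)) = ∑' m : Multiset ι, (m.map x).prod := by
  have hx1 : Summable x := Summable.of_norm <| by
    refine (hx.comp_injective (i := fun i ↦ ({i} : Multiset ι)) fun i j h ↦
      Multiset.singleton_inj.mp h).congr fun i ↦ ?_
    simp
  have hlog : Summable fun i ↦ -Complex.log (1 - x i) := hx1.clog_one_sub.neg
  have h1 : Tendsto (fun S : Finset ι ↦ ∏ i ∈ S, (1 - x i)⁻¹) atTop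
      (𝓝 (Complex.exp (∑' i, -Complex.log (1 - x i)))) := by
    refine ((Complex.continuous_exp.tendsto _).comp hlog.hasSum).congr fun S ↦ ?_
    rw [Function.comp_apply, Complex.exp_sum]
    refine Finset.prod_congr rfl fun i _ ↦ ?_
    rw [Complex.exp_neg, Complex.exp_log (sub_ne_zero.mpr fun h ↦ (hlt i).ne (by rw [← h, norm_one]))]
  have h2 : Tendsto (fun S : Finset ι ↦ ∏ i ∈ S, (1 - x i)⁻¹) atTop
      (𝓝 (∑' m : Multiset ι, (m.map x).prod)) := by
    have h3 : ∀ S : Finset ι, (∏ i ∈ S, (1 - x i)⁻¹) =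
        ∑' m : Multiset ι, {m : Multiset ι | ∀ i ∈ m, i ∈ S}.indicator
          (fun m ↦ (m.map x).prod) m := fun S ↦ by
      rw [← tsum_subtype, ← (hasSum_multiset_finset hx hlt S).tsum_eq]
      rfl
    simp_rw [h3]
    refine tendsto_tsum_of_dominated_convergence hx (fun m ↦ ?_) (Eventually.of_forall fun S m ↦ ?_)
    · refine tendsto_const_nhds.congr' ?_
      filter_upwards [eventually_ge_atTop m.toFinset] with S hS
      exact (Set.indicator_of_mem (show m ∈ {m : Multiset ι | ∀ i ∈ m, i ∈ S} from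
        fun i hi ↦ hS (Multiset.mem_toFinset.mpr hi)) (fun m ↦ (m.map x).prod)).symm
    · exact norm_indicator_le_norm_self _ _
  exact tendsto_nhds_unique h1 h2

end Euler

/-! ### Orthogonality of characters -/

section Characters

variable {Q : Type*} [CommGroup Q] [Finite Q]

instance : Finite (Q →* ℂˣ) :=
  Nat.finite_of_card_ne_zero (by
    rw [CommGroup.card_monoidHom_of_hasEnoughRootsOfUnity]
    exact Nat.card_pos.ne')

theorem sum_char_apply [Fintype (Q →* ℂˣ)] (a : Q) :
    ∑ η : Q →* ℂˣ, (η a : ℂ) = if a = 1 then (Nat.card Q : ℂ) else 0 := by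
  split_ifs with h
  · subst h
    simp [← CommGroup.card_monoidHom_of_hasEnoughRootsOfUnity Q ℂ]
  · obtain ⟨φ, hφ⟩ := CommGroup.exists_apply_ne_one_of_hasEnoughRootsOfUnity Q ℂ h
    have h1 : ∑ η : Q →* ℂˣ, (η a : ℂ) = (φ a : ℂ) * ∑ η : Q →* ℂˣ, (η a : ℂ) := by
      rw [Finset.mul_sum]
      refine (Fintype.sum_equiv (Equiv.mulLeft φ) _ _ fun η ↦ ?_).symm
      simp
    have h2 : ((φ a : ℂ) - 1) * ∑ η : Q →* ℂˣ, (η a : ℂ) = 0 := by
      rw [sub_mul, one_mul, ← h1, sub_self]
    exact (mul_eq_zero.mp h2).resolve_left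
      (sub_ne_zero.mpr fun h3 ↦ hφ (Units.val_eq_one.mp h3))

theorem norm_char_apply (η : Q →* ℂˣ) (a : Q) : ‖(η a : ℂ)‖ = 1 :=
  ((Units.coeHom ℂ).isOfFinOrder (η.isOfFinOrder (isOfFinOrder_of_finite a))).norm_eq_one

/-- `h * x ≤ Σ_η -Re log (1 - η a * x)` if `a = 1`, and the sum is nonnegative in any case. -/
theorem sum_char_neg_log_re [Fintype (Q →* ℂˣ)] (a : Q) {x : ℝ} (hx0 : 0 ≤ x) (hx1 : x < 1) :
    (if a = 1 then (Nat.card Q : ℝ) * x else 0) ≤
      ∑ η : Q →* ℂˣ, (-Complex.log (1 - (η a : ℂ) * x)).re := by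
  have hlt : ∀ η : Q →* ℂˣ, ‖(η a : ℂ) * x‖ < 1 := fun η ↦ by
    rwa [norm_mul, norm_char_apply, one_mul, Complex.norm_real, Real.norm_of_nonneg hx0]
  have h : HasSum (fun n : ℕ ↦ ∑ η : Q →* ℂˣ, (((η a : ℂ) * x) ^ n / n).re)
      (∑ η : Q →* ℂˣ, (-Complex.log (1 - (η a : ℂ) * x)).re) :=
    hasSum_sum fun η _ ↦ Complex.hasSum_re (Complex.hasSum_taylorSeries_neg_log (hlt η))
  have hterm : ∀ n : ℕ, ∑ η : Q →* ℂˣ, (((η a : ℂ) * x) ^ n / n).re =
      (x ^ n / n) * if a ^ n = 1 then (Nat.card Q : ℝ) else 0 := by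
    intro n
    have e : ∀ η : Q →* ℂˣ, ((η a : ℂ) * x) ^ n / n = ((x ^ n / n : ℝ) : ℂ) * (η (a ^ n) : ℂ) := by
      intro η
      rw [map_pow, Units.val_pow_eq_pow_val, mul_pow]
      push_cast
      ring
    simp_rw [e, Complex.re_ofReal_mul, ← Finset.mul_sum, ← Complex.re_sum, sum_char_apply]
    split_ifs <;> simp
  have hnn : ∀ n : ℕ, 0 ≤ ∑ η : Q →* ℂˣ, (((η a : ℂ) * x) ^ n / n).re := fun n ↦ by
    rw [hterm]
    exact mul_nonneg (div_nonneg (pow_nonneg hx0 _) (Nat.cast_nonneg _))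
      (by split_ifs <;> simp)
  refine le_trans ?_ (le_hasSum h 1 fun n _ ↦ hnn n)
  rw [hterm]
  simp only [pow_one, Nat.cast_one, div_one]
  split_ifs <;> simp [mul_comm]

end Characters

/-! ### Ideals as multisets of primes -/

variable (K : Type*) [Field K] [NumberField K]

/-- The ideal attached to a multiset of primes. -/
def idealOfMultiset (m : Multiset (HeightOneSpectrum (𝓞 K))) : (Ideal (𝓞 K))⁰ :=
  (m.map fun P ↦ (⟨P.asIdeal, mem_nonZeroDivisors_of_ne_zero P.ne_bot⟩ : (Ideal (𝓞 K))⁰)).prod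

omit [NumberField K] in
theorem coe_idealOfMultiset (m : Multiset (HeightOneSpectrum (𝓞 K))) :
    ((idealOfMultiset K m : (Ideal (𝓞 K))⁰) : Ideal (𝓞 K)) = (m.map (·.asIdeal)).prod := by
  rw [idealOfMultiset, Submonoid.coe_multiset_prod, Multiset.map_map]
  rfl

theorem idealOfMultiset_bijective : Function.Bijective (idealOfMultiset K) := by
  refine ⟨fun m m' h ↦ ?_, fun I ↦ ?_⟩
  · have hp : ∀ m : Multiset (HeightOneSpectrum (𝓞 K)),
        UniqueFactorizationMonoid.normalizedFactors (m.map (·.asIdeal)).prod =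
          m.map (·.asIdeal) := fun m ↦
      UniqueFactorizationMonoid.normalizedFactors_prod_of_prime fun I hI ↦ by
        obtain ⟨P, _, rfl⟩ := Multiset.mem_map.mp hI
        exact P.prime
    refine Multiset.map_injective (f := fun P : HeightOneSpectrum (𝓞 K) ↦ P.asIdeal)
      (fun P P' ↦ HeightOneSpectrum.ext) ?_
    rw [← hp m, ← hp m', ← coe_idealOfMultiset, ← coe_idealOfMultiset, h]
  · have hI : (I : Ideal (𝓞 K)) ≠ 0 := nonZeroDivisors.coe_ne_zero I
    refine ⟨(UniqueFactorizationMonoid.normalizedFactors (I : Ideal (𝓞 K))).attach.map fun P ↦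
      ⟨P.1, Ideal.isPrime_of_prime (UniqueFactorizationMonoid.prime_of_normalized_factor _ P.2),
        (UniqueFactorizationMonoid.prime_of_normalized_factor _ P.2).ne_zero⟩, Subtype.ext ?_⟩
    rw [coe_idealOfMultiset, Multiset.map_map]
    simp only [Function.comp_def, Multiset.attach_map_val]
    exact Ideal.prod_normalizedFactors_eq_self hI

theorem countable_ringOfIntegers_ideal : Countable (Ideal (𝓞 K)) := by
  rw [← Set.countable_univ_iff]
  refine (Set.countable_iUnion fun n : ℕ ↦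
    (Ideal.finite_setOfPred_absNorm_eq (S := 𝓞 K) n).countable).mono fun I _ ↦ ?_
  exact Set.mem_iUnion.mpr ⟨Ideal.absNorm I, rfl⟩

instance : Countable (HeightOneSpectrum (𝓞 K)) :=
  have := countable_ringOfIntegers_ideal K
  Function.Injective.countable (f := fun P : HeightOneSpectrum (𝓞 K) ↦ P.asIdeal)
    fun _ _ ↦ HeightOneSpectrum.ext

variable {K}

/-- `N P ^ (-s)`. -/
def primeTerm (s : ℝ) (P : HeightOneSpectrum (𝓞 K)) : ℝ :=
  (Ideal.absNorm P.asIdeal : ℝ) ^ (-s)

/-- `∑ N P ^ (-s)` over the primes in `S`. -/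
def primeSum (S : Set (HeightOneSpectrum (𝓞 K))) (s : ℝ) : ℝ :=
  ∑' P, S.indicator (primeTerm s) P

/-- The class of a prime. -/
def primeClass (P : HeightOneSpectrum (𝓞 K)) : ClassGroup (𝓞 K) :=
  ClassGroup.mk0 ⟨P.asIdeal, mem_nonZeroDivisors_of_ne_zero P.ne_bot⟩

theorem two_le_absNorm (P : HeightOneSpectrum (𝓞 K)) : 2 ≤ Ideal.absNorm P.asIdeal := by
  have h1 : Ideal.absNorm P.asIdeal ≠ 0 := fun h ↦ P.ne_bot (Ideal.absNorm_eq_zero_iff.mp h)
  have h2 : Ideal.absNorm P.asIdeal ≠ 1 := fun h ↦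
    P.isPrime.ne_top (Ideal.absNorm_eq_one_iff.mp h)
  omega

theorem primeTerm_pos (s : ℝ) (P : HeightOneSpectrum (𝓞 K)) : 0 < primeTerm s P :=
  Real.rpow_pos_of_pos (Nat.cast_pos.mpr (by have := two_le_absNorm P; omega)) _

theorem primeTerm_le_half {s : ℝ} (hs : 1 ≤ s) (P : HeightOneSpectrum (𝓞 K)) :
    primeTerm s P ≤ 1 / 2 := by
  have h : (2 : ℝ) ≤ (Ideal.absNorm P.asIdeal : ℕ) := by exact_mod_cast two_le_absNorm P
  calc primeTerm s P ≤ (Ideal.absNorm P.asIdeal : ℝ) ^ (-1 : ℝ) :=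
        Real.rpow_le_rpow_of_exponent_le (by linarith) (by linarith)
    _ ≤ 1 / 2 := by
        rw [Real.rpow_neg_one, one_div]
        exact inv_anti₀ two_pos h

theorem summable_primeTerm {s : ℝ} (hs : 1 < s) :
    Summable (primeTerm (K := K) s) :=
  (summable_absNorm_rpow (K := K) hs).comp_injective
    (i := fun P : HeightOneSpectrum (𝓞 K) ↦
      (⟨P.asIdeal, mem_nonZeroDivisors_of_ne_zero P.ne_bot⟩ : (Ideal (𝓞 K))⁰))
    fun _ _ h ↦ HeightOneSpectrum.ext congr(($h).1)

theorem map_mul_rpow_prod {Q : Type*} [CommGroup Q] (q : ClassGroup (𝓞 K) →* Q) (η : Q →* ℂˣ)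
    (s : ℝ) (m : Multiset (HeightOneSpectrum (𝓞 K))) :
    (m.map fun P ↦ (η (q (primeClass P)) : ℂ) * (primeTerm s P : ℂ)).prod =
      (η (q (ClassGroup.mk0 (idealOfMultiset K m))) : ℂ) *
        (((Ideal.absNorm (idealOfMultiset K m : Ideal (𝓞 K)) : ℝ) ^ (-s) : ℝ) : ℂ) := by
  induction m using Multiset.induction_on with
  | empty => simp [idealOfMultiset]
  | cons P m ih =>
    have h : idealOfMultiset K (P ::ₘ m) =
        ⟨P.asIdeal, mem_nonZeroDivisors_of_ne_zero P.ne_bot⟩ * idealOfMultiset K m := by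
      simp [idealOfMultiset]
    rw [Multiset.map_cons, Multiset.prod_cons, ih, h, Submonoid.coe_mul, map_mul, map_mul, map_mul,
      map_mul, Nat.cast_mul, Real.mul_rpow (Nat.cast_nonneg _) (Nat.cast_nonneg _)]
    simp only [primeClass, primeTerm, Units.val_mul, Complex.ofReal_mul]
    ring

/-- Euler product for the `L`-series of a character of the class group. -/
theorem exp_tsum_primes {Q : Type*} [CommGroup Q] [Finite Q] (q : ClassGroup (𝓞 K) →* Q)
    (η : Q →* ℂˣ) {s : ℝ} (hs : 1 < s) :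
    Summable (fun P ↦ -Complex.log (1 - (η (q (primeClass P)) : ℂ) * (primeTerm s P : ℂ))) ∧
    Complex.exp (∑' P, -Complex.log (1 - (η (q (primeClass P)) : ℂ) * (primeTerm s P : ℂ))) =
      ∑ C : ClassGroup (𝓞 K), (η (q C) : ℂ) * (classZeta C s : ℂ) := by
  let x : HeightOneSpectrum (𝓞 K) → ℂ := fun P ↦
    (η (q (primeClass P)) : ℂ) * (primeTerm s P : ℂ)
  obtain ⟨e, he⟩ : ∃ e : Multiset (HeightOneSpectrum (𝓞 K)) ≃ (Ideal (𝓞 K))⁰,
      ∀ m, e m = idealOfMultiset K m :=
    ⟨Equiv.ofBijective _ (idealOfMultiset_bijective K), fun _ ↦ rfl⟩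
  let f : (Ideal (𝓞 K))⁰ → ℂ := fun I ↦
    (η (q (ClassGroup.mk0 I)) : ℂ) * (((Ideal.absNorm (I : Ideal (𝓞 K)) : ℝ) ^ (-s) : ℝ) : ℂ)
  have hf : Summable fun I ↦ ‖f I‖ := by
    refine (summable_absNorm_rpow (K := K) hs).congr fun I ↦ ?_
    rw [norm_mul, norm_char_apply, one_mul, Complex.norm_real,
      Real.norm_of_nonneg (Real.rpow_nonneg (Nat.cast_nonneg _) _)]
  have hx : Summable fun m : Multiset (HeightOneSpectrum (𝓞 K)) ↦ ‖(m.map x).prod‖ := by
    refine (e.summable_iff.mpr hf).congr fun m ↦ ?_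
    rw [Function.comp_apply, he]
    exact congrArg _ (map_mul_rpow_prod q η s m).symm
  have hlt : ∀ P, ‖x P‖ < 1 := fun P ↦ by
    rw [norm_mul, norm_char_apply, one_mul, Complex.norm_real,
      Real.norm_of_nonneg (primeTerm_pos s P).le]
    linarith [primeTerm_le_half hs.le P]
  refine ⟨(Summable.of_norm ?_ : Summable x).clog_one_sub.neg, ?_⟩
  · refine (summable_primeTerm (K := K) hs).congr fun P ↦ ?_
    rw [norm_mul, norm_char_apply, one_mul, Complex.norm_real,
      Real.norm_of_nonneg (primeTerm_pos s P).le]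
  rw [exp_tsum_neg_log_one_sub hx hlt]
  rw [tsum_congr (fun m ↦ (map_mul_rpow_prod q η s m).trans (congrArg f (he m).symm) :
      ∀ m, (m.map x).prod = f (e m)), e.tsum_eq f,
    ← (Equiv.sigmaFiberEquiv ClassGroup.mk0).tsum_eq]
  have hσ : Summable fun p ↦ f (Equiv.sigmaFiberEquiv ClassGroup.mk0 p) :=
    (Equiv.sigmaFiberEquiv ClassGroup.mk0).summable_iff.mpr hf.of_norm
  rw [hσ.tsum_sigma, tsum_fintype]
  refine Finset.sum_congr rfl fun C _ ↦ ?_
  rw [classZeta, Complex.ofReal_tsum, ← tsum_mul_left]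
  refine tsum_congr fun I ↦ ?_
  simp only [f, Equiv.sigmaFiberEquiv_apply]
  rw [I.2]

/-- The primes in the kernel of a surjection from the class group onto a group of order `h` have
upper Dirichlet density at most `1 / h`. -/
theorem exists_primeSum_classGroup_bound {Q : Type*} [CommGroup Q] [Finite Q]
    (q : ClassGroup (𝓞 K) →* Q) (hq : Function.Surjective q) :
    ∃ B : ℝ, ∀ᶠ s in 𝓝[>] (1 : ℝ),
      (Nat.card Q : ℝ) * primeSum {P : HeightOneSpectrum (𝓞 K) | q (primeClass P) = 1} s ≤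
        -Real.log (s - 1) + B := by
  let _ : Fintype (Q →* ℂˣ) := Fintype.ofFinite _
  obtain ⟨B₀, hB₀⟩ := exists_classZeta_sub_bounded (K := K)
  let c := dedekindZeta_residue K + 1
  let B₁ : ℝ := max (Fintype.card (ClassGroup (𝓞 K)) * B₀) 1
  refine ⟨Real.log c + Fintype.card (Q →* ℂˣ) * Real.log B₁, ?_⟩
  filter_upwards [hB₀, self_mem_nhdsWithin,
    (tendsto_sub_one_mul_idealZeta (K := K)).eventually (Iic_mem_nhds (lt_add_one _)),
    (tendsto_sub_one_mul_idealZeta (K := K)).eventually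
      (Ioi_mem_nhds (dedekindZeta_residue_pos K))] with s hdiff hs hζ hζpos
  simp only [Set.mem_Ioi] at hs hζ hζpos
  let S : (Q →* ℂˣ) → ℂ := fun η ↦
    ∑' P, -Complex.log (1 - (η (q (primeClass P)) : ℂ) * (primeTerm s P : ℂ))
  have hc : 0 < c := by have := dedekindZeta_residue_pos K; positivity
  have hbound : ∀ η : Q →* ℂˣ,
      (S η).re ≤ (if η = 1 then -Real.log (s - 1) + Real.log c else 0) + Real.log B₁ := by
    intro η
    have hnorm : Real.exp (S η).re =
        ‖∑ C : ClassGroup (𝓞 K), (η (q C) : ℂ) * (classZeta C s : ℂ)‖ := by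
      rw [← (exp_tsum_primes q η hs).2, Complex.norm_exp]
    split_ifs with hη
    · subst hη
      have h1 : (S 1).re = Real.log (idealZeta K s) := by
        rw [← Real.log_exp (S 1).re, hnorm]
        congr 1
        simp only [MonoidHom.one_apply, Units.val_one, one_mul, ← Complex.ofReal_sum,
          Complex.norm_real]
        rw [Real.norm_of_nonneg (Finset.sum_nonneg fun C _ ↦ classZeta_nonneg C s),
          sum_classZeta hs]
      have hζ0 : 0 < idealZeta K s := pos_of_mul_pos_right hζpos (by linarith)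
      rw [h1]
      have : Real.log ((s - 1) * idealZeta K s) ≤ Real.log c := Real.log_le_log hζpos hζ
      rw [Real.log_mul (by linarith) hζ0.ne'] at this
      linarith [Real.log_nonneg (le_max_right (Fintype.card (ClassGroup (𝓞 K)) * B₀ : ℝ) 1)]
    · rw [zero_add, ← Real.log_exp (S η).re]
      refine Real.log_le_log (Real.exp_pos _) ?_
      rw [hnorm]
      have hsum : ∑ C : ClassGroup (𝓞 K), (η (q C) : ℂ) = 0 := by
        refine sum_hom_units_eq_zero ((Units.coeHom ℂ).comp (η.comp q)) fun h ↦ hη ?_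
        refine MonoidHom.ext fun a ↦ Units.ext ?_
        obtain ⟨C, rfl⟩ := hq a
        exact DFunLike.congr_fun h C
      have hsplit : ∑ C : ClassGroup (𝓞 K), (η (q C) : ℂ) * (classZeta C s : ℂ) =
          ∑ C : ClassGroup (𝓞 K),
            (η (q C) : ℂ) * ((classZeta C s - classZeta (1 : ClassGroup (𝓞 K)) s : ℝ) : ℂ) := by
        simp_rw [Complex.ofReal_sub, mul_sub, Finset.sum_sub_distrib, ← Finset.sum_mul, hsum,
          zero_mul, sub_zero]
      rw [hsplit]
      refine (norm_sum_le _ _).trans (le_max_of_le_left ?_)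
      refine (Finset.sum_le_sum (g := fun _ ↦ B₀) fun C _ ↦ ?_).trans_eq (by simp)
      rw [norm_mul, norm_char_apply, one_mul, Complex.norm_real, Real.norm_eq_abs]
      exact hdiff C
  have hlow : (Nat.card Q : ℝ) * primeSum {P : HeightOneSpectrum (𝓞 K) | q (primeClass P) = 1} s ≤
      ∑ η, (S η).re := by
    have hS : HasSum (fun P ↦ ∑ η : Q →* ℂˣ,
        (-Complex.log (1 - (η (q (primeClass P)) : ℂ) * (primeTerm s P : ℂ))).re)
        (∑ η, (S η).re) :=
      hasSum_sum fun η _ ↦ Complex.hasSum_re (exp_tsum_primes q η hs).1.hasSum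
    rw [primeSum, ← tsum_mul_left, ← hS.tsum_eq]
    refine Summable.tsum_le_tsum (fun P ↦ ?_) (((summable_primeTerm hs).indicator _).mul_left _)
      hS.summable
    refine le_trans (le_of_eq ?_) (sum_char_neg_log_re (q (primeClass P)) (primeTerm_pos s P).le
      (by linarith [primeTerm_le_half hs.le P]))
    simp [Set.indicator_apply, mul_ite]
  refine hlow.trans ((Finset.sum_le_sum fun η _ ↦ hbound η).trans (le_of_eq ?_))
  rw [Finset.sum_add_distrib, Finset.sum_ite_eq', if_pos (Finset.mem_univ _), Finset.sum_const,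
    Finset.card_univ, nsmul_eq_mul]
  ring

/-- Lower bound for the sum over all primes. -/
theorem exists_le_primeSum_univ :
    ∃ B : ℝ, ∀ᶠ s in 𝓝[>] (1 : ℝ),
      -Real.log (s - 1) - B ≤ primeSum (Set.univ : Set (HeightOneSpectrum (𝓞 K))) s := by
  let c := dedekindZeta_residue K / 2
  have hc : 0 < c := by have := dedekindZeta_residue_pos K; positivity
  refine ⟨-Real.log c + 2 * ∑' P : HeightOneSpectrum (𝓞 K), primeTerm 2 P, ?_⟩
  filter_upwards [self_mem_nhdsWithin, (tendsto_sub_one_mul_idealZeta (K := K)).eventually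
    (Ici_mem_nhds (show c < dedekindZeta_residue K by
      have := dedekindZeta_residue_pos K; simp only [c]; linarith))] with s hs hζ
  simp only [Set.mem_Ioi] at hs hζ
  have hζ0 : 0 < idealZeta K s := pos_of_mul_pos_right (hc.trans_le hζ) (by linarith)
  obtain ⟨hsum, hexp⟩ := exp_tsum_primes (MonoidHom.id (ClassGroup (𝓞 K))) 1 hs
  simp only [MonoidHom.one_apply, Units.val_one, one_mul] at hsum hexp
  have hlog : HasSum (fun P : HeightOneSpectrum (𝓞 K) ↦ -Real.log (1 - primeTerm s P))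
      (Real.log (idealZeta K s)) := by
    have h1 := Complex.hasSum_re hsum.hasSum
    have h2 : (∑' P : HeightOneSpectrum (𝓞 K), -Complex.log (1 - (primeTerm s P : ℂ))).re =
        Real.log (idealZeta K s) := by
      rw [← Real.log_exp (Complex.re _), ← Complex.norm_exp, hexp, ← Complex.ofReal_sum,
        Complex.norm_real, sum_classZeta hs, Real.norm_of_nonneg hζ0.le]
    rw [h2] at h1
    refine h1.congr_fun fun P ↦ ?_
    rw [← Complex.ofReal_one, ← Complex.ofReal_sub, Complex.neg_re, Complex.log_ofReal_re]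
  have hb : ∀ P : HeightOneSpectrum (𝓞 K),
      -Real.log (1 - primeTerm s P) ≤ primeTerm s P + 2 * primeTerm 2 P := by
    intro P
    have h0 := primeTerm_pos s P
    have h1 := primeTerm_le_half hs.le P
    have h2 : primeTerm s P * primeTerm s P ≤ primeTerm 2 P := by
      rw [primeTerm, primeTerm, ← Real.rpow_add
        (Nat.cast_pos.mpr (by have := two_le_absNorm P; omega))]
      exact Real.rpow_le_rpow_of_exponent_le
        (Nat.one_le_cast.mpr (by have := two_le_absNorm P; omega)) (by linarith)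
    have h3 := Real.add_one_le_exp (primeTerm s P + 2 * (primeTerm s P * primeTerm s P))
    rw [← Real.log_inv, Real.log_le_iff_le_exp (inv_pos.mpr (by linarith))]
    refine le_trans ?_ (h3.trans (Real.exp_le_exp.mpr (by linarith)))
    rw [inv_le_iff_one_le_mul₀ (by linarith)]
    nlinarith [mul_nonneg (mul_nonneg h0.le h0.le) (by linarith : (0 : ℝ) ≤ 1 / 2 - primeTerm s P)]
  have hle : Real.log (idealZeta K s) ≤ primeSum (Set.univ : Set (HeightOneSpectrum (𝓞 K))) s +
      2 * ∑' P : HeightOneSpectrum (𝓞 K), primeTerm 2 P := by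
    rw [primeSum, Set.indicator_univ, ← tsum_mul_left, ← hlog.tsum_eq,
      ← (summable_primeTerm hs).tsum_add ((summable_primeTerm (by norm_num)).mul_left 2)]
    exact hlog.summable.tsum_le_tsum hb
      ((summable_primeTerm hs).add ((summable_primeTerm (by norm_num)).mul_left 2))
  have : Real.log c ≤ Real.log ((s - 1) * idealZeta K s) := Real.log_le_log hc hζ
  rw [Real.log_mul (by linarith) hζ0.ne'] at this
  linarith

end FermatAgent.CFT
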