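import Mathlib
import Fermat.Agent.CFT.Euler

/-!
# Density estimates for sets of primes

`UpperDens S c` and `LowerDens S c` say that `∑_{P ∈ S} N P ^ (-s)` is at most, respectively at
least, `c * (-log (s - 1))` up to a bounded error as `s → 1⁺`.
-/

set_option autoImplicit false

noncomputable section

namespace FermatAgent.CFT

open Filter Topology NumberField IsDedekindDomain
open scoped nonZeroDivisors Classical

variable {K : Type*} [Field K] [NumberField K]

/-- `∑_{P ∈ S} N P ^ (-s) ≤ c * (-log (s - 1)) + O(1)`. -/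
def UpperDens (S : Set (HeightOneSpectrum (𝓞 K))) (c : ℝ) : Prop :=
  ∃ B : ℝ, ∀ᶠ s in 𝓝[>] (1 : ℝ), primeSum S s ≤ c * -Real.log (s - 1) + B

/-- `c * (-log (s - 1)) - O(1) ≤ ∑_{P ∈ S} N P ^ (-s)`. -/
def LowerDens (S : Set (HeightOneSpectrum (𝓞 K))) (c : ℝ) : Prop :=
  ∃ B : ℝ, ∀ᶠ s in 𝓝[>] (1 : ℝ), c * -Real.log (s - 1) - B ≤ primeSum S s

theorem summable_indicator_primeTerm {s : ℝ} (hs : 1 < s)
    (S : Set (HeightOneSpectrum (𝓞 K))) : Summable (S.indicator (primeTerm (K := K) s)) :=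
  (summable_primeTerm hs).indicator S

theorem primeSum_mono {s : ℝ} (hs : 1 < s) {S T : Set (HeightOneSpectrum (𝓞 K))} (h : S ⊆ T) :
    primeSum S s ≤ primeSum T s :=
  (summable_indicator_primeTerm hs S).tsum_le_tsum
    (fun P ↦ Set.indicator_le_indicator_of_subset h (fun P ↦ (primeTerm_pos s P).le) P)
    (summable_indicator_primeTerm hs T)

theorem primeSum_union_le {s : ℝ} (hs : 1 < s) (S T : Set (HeightOneSpectrum (𝓞 K))) :
    primeSum (S ∪ T) s ≤ primeSum S s + primeSum T s := by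
  rw [primeSum, primeSum, primeSum,
    ← (summable_indicator_primeTerm hs S).tsum_add (summable_indicator_primeTerm hs T)]
  refine (summable_indicator_primeTerm hs _).tsum_le_tsum (fun P ↦ ?_)
    ((summable_indicator_primeTerm hs S).add (summable_indicator_primeTerm hs T))
  have := primeTerm_pos s P
  by_cases h1 : P ∈ S <;> by_cases h2 : P ∈ T <;> simp [h1, h2, this.le]

theorem UpperDens.mono {S T : Set (HeightOneSpectrum (𝓞 K))} {c : ℝ} (h : UpperDens T c)
    (hST : S ⊆ T) : UpperDens S c := by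
  obtain ⟨B, hB⟩ := h
  refine ⟨B, ?_⟩
  filter_upwards [hB, self_mem_nhdsWithin] with s hs hs'
  exact (primeSum_mono hs' hST).trans hs

theorem UpperDens.union {S T : Set (HeightOneSpectrum (𝓞 K))} {a b : ℝ} (hS : UpperDens S a)
    (hT : UpperDens T b) : UpperDens (S ∪ T) (a + b) := by
  obtain ⟨A, hA⟩ := hS
  obtain ⟨B, hB⟩ := hT
  refine ⟨A + B, ?_⟩
  filter_upwards [hA, hB, self_mem_nhdsWithin] with s hs ht hs'
  refine (primeSum_union_le hs' S T).trans ?_
  linarith

theorem tendsto_neg_log_sub_one :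
    Tendsto (fun s : ℝ ↦ -Real.log (s - 1)) (𝓝[>] 1) atTop := by
  refine tendsto_neg_atBot_atTop.comp (Real.tendsto_log_nhdsGT_zero.comp ?_)
  refine tendsto_nhdsWithin_iff.mpr ⟨?_, ?_⟩
  · simpa using ((continuous_sub_right (1 : ℝ)).tendsto 1).mono_left nhdsWithin_le_nhds
  · filter_upwards [self_mem_nhdsWithin] with s (hs : 1 < s)
    exact sub_pos.mpr hs

theorem le_of_lowerDens_upperDens {S : Set (HeightOneSpectrum (𝓞 K))} {a b : ℝ}
    (h₁ : LowerDens S a) (h₂ : UpperDens S b) : a ≤ b := by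
  obtain ⟨A, hA⟩ := h₁
  obtain ⟨B, hB⟩ := h₂
  by_contra! hab
  obtain ⟨s, hs, hs', hs''⟩ := (hA.and (hB.and
    (tendsto_neg_log_sub_one.eventually_gt_atTop ((A + B) / (a - b))))).exists
  rw [div_lt_iff₀ (by linarith)] at hs''
  linarith [hs.trans hs']

/-- A set of larger density is not contained in a set of smaller density. -/
theorem exists_mem_diff {S T : Set (HeightOneSpectrum (𝓞 K))} {a b : ℝ} (h₁ : LowerDens S a)
    (h₂ : UpperDens T b) (hab : b < a) : ∃ P ∈ S, P ∉ T := by
  by_contra! h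
  exact absurd (le_of_lowerDens_upperDens h₁ (h₂.mono h)) (not_le.mpr hab)

theorem upperDens_univ : UpperDens (Set.univ : Set (HeightOneSpectrum (𝓞 K))) 1 := by
  obtain ⟨B, hB⟩ := exists_primeSum_classGroup_bound (1 : ClassGroup (𝓞 K) →* Unit)
    fun _ ↦ ⟨1, Subsingleton.elim _ _⟩
  refine ⟨B, ?_⟩
  filter_upwards [hB] with s hs
  simpa using hs

theorem lowerDens_univ : LowerDens (Set.univ : Set (HeightOneSpectrum (𝓞 K))) 1 := by
  obtain ⟨B, hB⟩ := exists_le_primeSum_univ (K := K)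
  exact ⟨B, by simpa using hB⟩

theorem upperDens_finite {S : Set (HeightOneSpectrum (𝓞 K))} (hS : S.Finite) :
    UpperDens S 0 := by
  refine ⟨hS.toFinset.card, ?_⟩
  filter_upwards [self_mem_nhdsWithin] with s (hs : 1 < s)
  rw [zero_mul, zero_add, primeSum, tsum_eq_sum (s := hS.toFinset) fun P hP ↦
    Set.indicator_of_notMem (fun h ↦ hP (hS.mem_toFinset.mpr h)) _,
    Finset.card_eq_sum_ones, Nat.cast_sum, Nat.cast_one]
  refine Finset.sum_le_sum fun P hP ↦ ?_
  rw [Set.indicator_of_mem (hS.mem_toFinset.mp hP)]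
  linarith [primeTerm_le_half hs.le P]

theorem LowerDens.diff {S T : Set (HeightOneSpectrum (𝓞 K))} {a b : ℝ} (hS : LowerDens S a)
    (hT : UpperDens T b) : LowerDens (S \ T) (a - b) := by
  obtain ⟨A, hA⟩ := hS
  obtain ⟨B, hB⟩ := hT
  refine ⟨A + B, ?_⟩
  filter_upwards [hA, hB, self_mem_nhdsWithin] with s hs ht (hs' : 1 < s)
  have : primeSum S s ≤ primeSum (S \ T) s + primeSum T s :=
    (primeSum_mono hs' (by rw [Set.sdiff_union_self]; exact Set.subset_union_left)).trans
      (primeSum_union_le hs' _ _)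
  linarith

/-! ### Primes of prime norm -/

omit [NumberField K] in
theorem exists_prime_mem (P : HeightOneSpectrum (𝓞 K)) :
    ∃ q : ℕ, q.Prime ∧ P.asIdeal.LiesOver (Ideal.span {(q : ℤ)}) := by
  have hne : (P.asIdeal.under ℤ) ≠ ⊥ := Ideal.IsIntegral.comap_ne_bot ℤ P.ne_bot
  have hp : (P.asIdeal.under ℤ).IsPrime := Ideal.IsPrime.under ℤ P.asIdeal
  have : NeZero P.asIdeal := ⟨P.ne_bot⟩
  refine ⟨Ideal.absNorm (P.asIdeal.under ℤ), Nat.absNorm_under_prime P.asIdeal, ⟨?_⟩⟩
  exact Int.ideal_span_absNorm_eq_self _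

/-- The primes above a given prime number are finite in number, at most `[K : ℚ]`. -/
theorem card_primesOver_le {R : Type*} [CommRing R] [IsDedekindDomain R] (p : Ideal R) [p.IsPrime]
    [Algebra R (𝓞 K)] [Module.Finite R (𝓞 K)] [Module.Flat R (𝓞 K)] (hp : p ≠ ⊥)
    [Module.IsTorsionFree R (𝓞 K)] :
    (p.primesOver (𝓞 K)).Finite ∧ (p.primesOver (𝓞 K)).ncard ≤ Module.finrank R (𝓞 K) := by
  have : p.IsMaximal := ‹p.IsPrime›.isMaximal hp
  have hfin : (p.primesOver (𝓞 K)).Finite := IsDedekindDomain.primesOver_finite p _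
  let _ : Fintype (p.primesOver (𝓞 K)) := hfin.fintype
  refine ⟨hfin, ?_⟩
  rw [← Ideal.sum_ramification_inertia_eq_finrank p (𝓞 K), ← Nat.card_coe_set_eq,
    Nat.card_eq_fintype_card, ← Finset.card_univ, Finset.card_eq_sum_ones]
  refine Finset.sum_le_sum fun Q _ ↦ ?_
  have := Q.2.1
  exact Nat.one_le_iff_ne_zero.mpr (mul_pos (Ideal.ramificationIdx_pos _ R)
    (Ideal.inertiaDeg_pos _ R)).ne'

theorem primesOver_rat_finite (q : ℕ) (hq : q.Prime) :
    ((Ideal.span {(q : ℤ)}).primesOver (𝓞 K)).Finite ∧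
      ((Ideal.span {(q : ℤ)}).primesOver (𝓞 K)).ncard ≤ Module.finrank ℚ K := by
  have : (Ideal.span {(q : ℤ)}).IsPrime :=
    (Ideal.span_singleton_prime (by exact_mod_cast hq.ne_zero)).mpr (Nat.prime_iff_prime_int.mp hq)
  rw [← RingOfIntegers.rank]
  exact card_primesOver_le _ (by simpa using hq.ne_zero)

/-- The primes whose norm is not a prime number have bounded prime sum. -/
theorem upperDens_nonprime_norm :
    UpperDens {P : HeightOneSpectrum (𝓞 K) | ¬ (Ideal.absNorm P.asIdeal).Prime} 0 := by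
  let S := {P : HeightOneSpectrum (𝓞 K) | ¬ (Ideal.absNorm P.asIdeal).Prime}
  choose q hq hlo using exists_prime_mem (K := K)
  have hle : ∀ P ∈ S, primeTerm 1 P ≤ ((q P : ℝ) ^ 2)⁻¹ := by
    intro P hP
    have := hlo P
    have hf := Ideal.absNorm_eq_pow_inertiaDeg' P.asIdeal (hq P)
    have hf2 : 2 ≤ (Ideal.span {(q P : ℤ)}).inertiaDeg' P.asIdeal := by
      have h2 := two_le_absNorm P
      by_contra! h
      rcases Nat.le_one_iff_eq_zero_or_eq_one.mp (Nat.lt_succ_iff.mp h) with h' | h' <;>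
        rw [h'] at hf
      · simp [hf] at h2
      · exact hP (by rw [hf, pow_one]; exact hq P)
    rw [primeTerm, Real.rpow_neg_one, hf, Nat.cast_pow]
    exact inv_anti₀ (pow_pos (Nat.cast_pos.mpr (hq P).pos) 2)
      (pow_le_pow_right₀ (Nat.one_le_cast.mpr (hq P).pos) hf2)
  have hfib : ∀ n : ℕ, n.Prime → {P : HeightOneSpectrum (𝓞 K) | q P = n}.Finite ∧
      {P : HeightOneSpectrum (𝓞 K) | q P = n}.ncard ≤ Module.finrank ℚ K := by
    intro n hn
    obtain ⟨h1, h2⟩ := primesOver_rat_finite (K := K) n hn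
    have hmaps : Set.MapsTo (fun P : HeightOneSpectrum (𝓞 K) ↦ P.asIdeal) {P | q P = n}
        ((Ideal.span {(n : ℤ)}).primesOver (𝓞 K)) := fun P (hP : q P = n) ↦
      ⟨P.isPrime, hP ▸ hlo P⟩
    have hinj : Set.InjOn (fun P : HeightOneSpectrum (𝓞 K) ↦ P.asIdeal) {P | q P = n} :=
      fun P _ P' _ h ↦ HeightOneSpectrum.ext h
    exact ⟨h1.of_injOn hmaps hinj,
      (Set.ncard_le_ncard_of_injOn _ hmaps hinj h1).trans h2⟩
  have hsum : Summable (S.indicator (primeTerm (K := K) 1)) := by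
    refine Summable.of_nonneg_of_le
      (fun P ↦ Set.indicator_nonneg (fun P _ ↦ (primeTerm_pos 1 P).le) P) (fun P ↦ ?_)
      (?_ : Summable fun P : HeightOneSpectrum (𝓞 K) ↦ ((q P : ℝ) ^ 2)⁻¹)
    · by_cases hP : P ∈ S
      · rw [Set.indicator_of_mem hP]; exact hle P hP
      · rw [Set.indicator_of_notMem hP]; positivity
    rw [← (Equiv.sigmaFiberEquiv q).summable_iff]
    refine (summable_sigma_of_nonneg fun _ ↦ inv_nonneg.mpr (sq_nonneg _)).mpr ⟨fun n ↦ ?_, ?_⟩
    · by_cases hn : n.Prime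
      · have : Finite {P // q P = n} := (hfib n hn).1.to_subtype
        exact Summable.of_finite
      · have : IsEmpty {P // q P = n} := ⟨fun P ↦ hn (P.2 ▸ hq P.1)⟩
        exact summable_empty
    · refine Summable.of_nonneg_of_le (fun n ↦ tsum_nonneg fun _ ↦ inv_nonneg.mpr (sq_nonneg _)) (fun n ↦ ?_)
        ((Real.summable_nat_pow_inv.mpr one_lt_two).mul_left (Module.finrank ℚ K : ℝ))
      by_cases hn : n.Prime
      · have : Finite {P // q P = n} := (hfib n hn).1.to_subtype
        have hc : ∀ P : {P // q P = n},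
            ((q (Equiv.sigmaFiberEquiv q ⟨n, P⟩) : ℝ) ^ 2)⁻¹ = ((n : ℝ) ^ 2)⁻¹ := fun P ↦ by
          rw [Equiv.sigmaFiberEquiv_apply, P.2]
        rw [tsum_congr hc, tsum_const, nsmul_eq_mul]
        gcongr
        exact (Nat.card_coe_set_eq {P | q P = n}).le.trans (hfib n hn).2
      · have : IsEmpty {P // q P = n} := ⟨fun P ↦ hn (P.2 ▸ hq P.1)⟩
        rw [tsum_empty]; positivity
  refine ⟨∑' P, S.indicator (primeTerm 1) P, ?_⟩
  filter_upwards [self_mem_nhdsWithin] with s (hs : 1 < s)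
  rw [zero_mul, zero_add]
  refine (summable_indicator_primeTerm hs _).tsum_le_tsum (fun P ↦ ?_) hsum
  refine Set.indicator_le_indicator ?_
  exact Real.rpow_le_rpow_of_exponent_le
    (Nat.one_le_cast.mpr (by have := two_le_absNorm P; omega)) (by linarith)

/-- The primes of prime norm have density at least `1`. -/
theorem lowerDens_prime_norm :
    LowerDens {P : HeightOneSpectrum (𝓞 K) | (Ideal.absNorm P.asIdeal).Prime} 1 := by
  simpa [Set.sdiff_eq, Set.compl_ofPred] using
    (lowerDens_univ (K := K)).diff upperDens_nonprime_norm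

/-! ### Extensions -/

variable (E F : Type*) [Field E] [NumberField E] [Field F] [NumberField F] [Algebra E F]

/-- The prime below a prime. -/
def underPrime (Q : HeightOneSpectrum (𝓞 F)) : HeightOneSpectrum (𝓞 E) :=
  ⟨Q.asIdeal.under (𝓞 E), Ideal.IsPrime.under _ _, Ideal.IsIntegral.comap_ne_bot _ Q.ne_bot⟩

variable {E F}

theorem finrank_ringOfIntegers_eq : Module.finrank (𝓞 E) (𝓞 F) = Module.finrank E F :=
  (IsFractionRing.finrank_eq (𝓞 E) E (𝓞 F) F).symm

theorem underPrime_fiber (P : HeightOneSpectrum (𝓞 E)) :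
    {Q : HeightOneSpectrum (𝓞 F) | underPrime E F Q = P}.Finite ∧
    {Q : HeightOneSpectrum (𝓞 F) | underPrime E F Q = P}.ncard ≤ Module.finrank E F := by
  obtain ⟨h1, h2⟩ := card_primesOver_le (K := F) P.asIdeal P.ne_bot
  rw [finrank_ringOfIntegers_eq] at h2
  have hmaps : Set.MapsTo (fun Q : HeightOneSpectrum (𝓞 F) ↦ Q.asIdeal)
      {Q | underPrime E F Q = P} (P.asIdeal.primesOver (𝓞 F)) := fun Q hQ ↦
    ⟨Q.isPrime, ⟨by rw [← (hQ : underPrime E F Q = P)]; rfl⟩⟩
  have hinj : Set.InjOn (fun Q : HeightOneSpectrum (𝓞 F) ↦ Q.asIdeal)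
      {Q | underPrime E F Q = P} := fun Q _ Q' _ h ↦ HeightOneSpectrum.ext h
  exact ⟨h1.of_injOn hmaps hinj, (Set.ncard_le_ncard_of_injOn _ hmaps hinj h1).trans h2⟩

/-- If the primes of `T` lie over primes of `S` of the same norm, then `δ(T) ≤ [F : E] δ(S)`. -/
theorem primeSum_le_finrank_mul {T : Set (HeightOneSpectrum (𝓞 F))}
    {S : Set (HeightOneSpectrum (𝓞 E))} (h : ∀ Q ∈ T, underPrime E F Q ∈ S ∧
      Ideal.absNorm Q.asIdeal = Ideal.absNorm (underPrime E F Q).asIdeal) {s : ℝ} (hs : 1 < s) :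
    primeSum T s ≤ Module.finrank E F * primeSum S s := by
  have hT := summable_indicator_primeTerm hs T
  rw [primeSum, ← (Equiv.sigmaFiberEquiv (underPrime E F)).tsum_eq]
  have hσ : Summable fun x ↦ T.indicator (primeTerm s)
      (Equiv.sigmaFiberEquiv (underPrime E F) x) :=
    (Equiv.sigmaFiberEquiv (underPrime E F)).summable_iff.mpr hT
  rw [hσ.tsum_sigma, primeSum, ← tsum_mul_left]
  refine hσ.sigma.tsum_le_tsum (fun P ↦ ?_) ((summable_indicator_primeTerm hs S).mul_left _)
  have : Finite {Q // underPrime E F Q = P} := (underPrime_fiber P).1.to_subtype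
  let _ : Fintype {Q // underPrime E F Q = P} := Fintype.ofFinite _
  rw [tsum_fintype]
  refine (Finset.sum_le_card_nsmul _ _ (S.indicator (primeTerm s) P) fun Q _ ↦ ?_).trans ?_
  · rw [Equiv.sigmaFiberEquiv_apply]
    by_cases hQ : Q.1 ∈ T
    · obtain ⟨h1, h2⟩ := h _ hQ
      rw [Q.2] at h1 h2
      rw [Set.indicator_of_mem hQ, Set.indicator_of_mem h1, primeTerm, primeTerm, h2]
    · rw [Set.indicator_of_notMem hQ]
      exact Set.indicator_nonneg (fun P _ ↦ (primeTerm_pos s P).le) P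
  · rw [nsmul_eq_mul, Finset.card_univ, ← Nat.card_eq_fintype_card]
    refine mul_le_mul_of_nonneg_right (Nat.cast_le.mpr ?_)
      (Set.indicator_nonneg (fun P _ ↦ (primeTerm_pos s P).le) P)
    exact (Nat.card_coe_set_eq {Q | underPrime E F Q = P}).le.trans (underPrime_fiber P).2

theorem absNorm_eq_of_prime {Q : HeightOneSpectrum (𝓞 F)}
    (hQ : (Ideal.absNorm Q.asIdeal).Prime) :
    Ideal.absNorm Q.asIdeal = Ideal.absNorm (underPrime E F Q).asIdeal := by
  have : Q.asIdeal.LiesOver (underPrime E F Q).asIdeal := ⟨rfl⟩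
  have hf := Ideal.absNorm_eq_pow_inertiaDeg'_of_liesOver Q.asIdeal (underPrime E F Q).asIdeal
    (underPrime E F Q).isPrime (underPrime E F Q).ne_bot
  rw [hf] at hQ
  rcases eq_or_ne ((underPrime E F Q).asIdeal.inertiaDeg' Q.asIdeal) 1 with h | h
  · rw [hf, h, pow_one]
  · exact absurd hQ (Nat.Prime.not_prime_pow' h)

/-- If every prime of prime norm of `F` lies over `S` (up to a finite set), then
`δ(S) ≥ 1 / [F : E]`. -/
theorem lowerDens_of_extension {S : Set (HeightOneSpectrum (𝓞 E))}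
    {bad : Set (HeightOneSpectrum (𝓞 F))} (hbad : bad.Finite)
    (h : ∀ Q : HeightOneSpectrum (𝓞 F), (Ideal.absNorm Q.asIdeal).Prime → Q ∉ bad →
      underPrime E F Q ∈ S) :
    LowerDens S (1 / Module.finrank E F) := by
  obtain ⟨B, hB⟩ := (lowerDens_prime_norm (K := F)).diff (upperDens_finite hbad)
  have hn : (0 : ℝ) < Module.finrank E F := Nat.cast_pos.mpr Module.finrank_pos
  refine ⟨B / Module.finrank E F, ?_⟩
  filter_upwards [hB, self_mem_nhdsWithin] with s hs (hs' : 1 < s)
  have h1 := primeSum_le_finrank_mul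
    (T := {Q : HeightOneSpectrum (𝓞 F) | (Ideal.absNorm Q.asIdeal).Prime} \ bad) (S := S)
    (fun Q hQ ↦ ⟨h Q hQ.1 hQ.2, absNorm_eq_of_prime hQ.1⟩) hs'
  rw [one_div]
  calc (Module.finrank E F : ℝ)⁻¹ * -Real.log (s - 1) - B / Module.finrank E F
      = ((1 - 0) * -Real.log (s - 1) - B) / Module.finrank E F := by ring
    _ ≤ primeSum S s := by
        rw [div_le_iff₀' hn]
        exact hs.trans h1

/-- If every prime in `S` has `[F : E]` primes above it of the same norm, then
`δ(S) ≤ 1 / [F : E]`. -/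
theorem upperDens_of_splits {S : Set (HeightOneSpectrum (𝓞 E))}
    (h : ∀ P ∈ S, Module.finrank E F ≤ {Q : HeightOneSpectrum (𝓞 F) | underPrime E F Q = P ∧
      Ideal.absNorm Q.asIdeal = Ideal.absNorm P.asIdeal}.ncard) :
    UpperDens S (1 / Module.finrank E F) := by
  obtain ⟨B, hB⟩ := upperDens_univ (K := F)
  have hn : (0 : ℝ) < Module.finrank E F := Nat.cast_pos.mpr Module.finrank_pos
  refine ⟨B / Module.finrank E F, ?_⟩
  filter_upwards [hB, self_mem_nhdsWithin] with s hs (hs' : 1 < s)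
  have key : Module.finrank E F * primeSum S s ≤
      primeSum (Set.univ : Set (HeightOneSpectrum (𝓞 F))) s := by
    rw [primeSum, primeSum, Set.indicator_univ,
      ← (Equiv.sigmaFiberEquiv (underPrime E F)).tsum_eq]
    have hσ : Summable fun x ↦ primeTerm s (Equiv.sigmaFiberEquiv (underPrime E F) x) :=
      (Equiv.sigmaFiberEquiv (underPrime E F)).summable_iff.mpr (summable_primeTerm hs')
    rw [hσ.tsum_sigma, ← tsum_mul_left]
    refine ((summable_indicator_primeTerm hs' S).mul_left _).tsum_le_tsum (fun P ↦ ?_) hσ.sigma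
    have : Finite {Q // underPrime E F Q = P} := (underPrime_fiber P).1.to_subtype
    let _ : Fintype {Q // underPrime E F Q = P} := Fintype.ofFinite _
    by_cases hP : P ∈ S
    swap
    · rw [Set.indicator_of_notMem hP, mul_zero]
      exact tsum_nonneg fun Q ↦ (primeTerm_pos s _).le
    rw [Set.indicator_of_mem hP, tsum_fintype]
    let U : Finset {Q // underPrime E F Q = P} :=
      Finset.univ.filter fun Q ↦ Ideal.absNorm Q.1.asIdeal = Ideal.absNorm P.asIdeal
    have hU : (Module.finrank E F : ℝ) ≤ U.card := by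
      refine Nat.cast_le.mpr ((h P hP).trans_eq ?_)
      rw [← Finset.card_map (Function.Embedding.subtype _), ← Set.ncard_coe_finset]
      congr 1
      ext Q
      simp [U, and_comm]
    calc (Module.finrank E F : ℝ) * primeTerm s P ≤ (U.card : ℝ) * primeTerm s P :=
          mul_le_mul_of_nonneg_right hU (primeTerm_pos s P).le
      _ = ∑ Q ∈ U, primeTerm s (Equiv.sigmaFiberEquiv (underPrime E F) ⟨P, Q⟩) := by
          rw [← nsmul_eq_mul, ← Finset.sum_const]
          refine Finset.sum_congr rfl fun Q hQ ↦ ?_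
          rw [Equiv.sigmaFiberEquiv_apply, primeTerm, primeTerm, (Finset.mem_filter.mp hQ).2]
      _ ≤ _ := Finset.sum_le_univ_sum_of_nonneg fun Q ↦ (primeTerm_pos s _).le
  calc primeSum S s ≤ (1 * -Real.log (s - 1) + B) / Module.finrank E F := by
        rw [le_div_iff₀' hn]; exact key.trans hs
    _ = _ := by ring

/-- **Second inequality**: a quotient of the class group in which all primes having a degree one
prime above them in `F` are trivial has order at most `[F : E]`. -/
theorem card_quotient_le_finrank {Q : Type*} [CommGroup Q] [Finite Q]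
    (q : ClassGroup (𝓞 E) →* Q) (hq : Function.Surjective q)
    {bad : Set (HeightOneSpectrum (𝓞 F))} (hbad : bad.Finite)
    (h : ∀ P : HeightOneSpectrum (𝓞 F), (Ideal.absNorm P.asIdeal).Prime → P ∉ bad →
      q (primeClass (underPrime E F P)) = 1) :
    Nat.card Q ≤ Module.finrank E F := by
  have h1 := lowerDens_of_extension hbad
    (S := {P : HeightOneSpectrum (𝓞 E) | q (primeClass P) = 1}) h
  have hQ : (0 : ℝ) < Nat.card Q := Nat.cast_pos.mpr Nat.card_pos
  have h2 : UpperDens {P : HeightOneSpectrum (𝓞 E) | q (primeClass P) = 1} (1 / Nat.card Q) := by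
    obtain ⟨B, hB⟩ := exists_primeSum_classGroup_bound q hq
    refine ⟨B / Nat.card Q, ?_⟩
    filter_upwards [hB] with s hs
    rw [show 1 / (Nat.card Q : ℝ) * -Real.log (s - 1) + B / Nat.card Q =
      (-Real.log (s - 1) + B) / Nat.card Q by ring, le_div_iff₀' hQ]
    exact hs
  have h3 := le_of_lowerDens_upperDens h1 h2
  rw [div_le_div_iff₀ (Nat.cast_pos.mpr Module.finrank_pos) hQ, one_mul, one_mul] at h3
  exact_mod_cast h3

end FermatAgent.CFT
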