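import Mathlib
import Fermat.Agent.CFT.Density

/-!
# Primes, Frobenius elements and norms in Galois extensions of number fields
-/

set_option autoImplicit false

noncomputable section

namespace FermatAgent.CFT

open NumberField IsDedekindDomain
open scoped nonZeroDivisors Pointwise

variable {K L : Type*} [Field K] [NumberField K] [Field L] [NumberField L] [Algebra K L]

section Basic

theorem finite_quotient_prime (Q : HeightOneSpectrum (𝓞 L)) : Finite (𝓞 L ⧸ Q.asIdeal) :=
  Ideal.finiteQuotientOfFreeOfNeBot _ Q.ne_bot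

theorem natCard_quotient_eq_absNorm (P : Ideal (𝓞 K)) : Nat.card (𝓞 K ⧸ P) = Ideal.absNorm P := by
  rw [Ideal.absNorm_apply, Submodule.cardQuot_apply]

theorem pow_absNorm_sub_self_mem (Q : HeightOneSpectrum (𝓞 L)) (x : 𝓞 L) :
    x ^ Ideal.absNorm Q.asIdeal - x ∈ Q.asIdeal := by
  have := finite_quotient_prime Q
  have := Q.isMaximal
  let _ := Ideal.Quotient.field Q.asIdeal
  let _ : Fintype (𝓞 L ⧸ Q.asIdeal) := Fintype.ofFinite _
  rw [← Ideal.Quotient.eq, map_pow, ← natCard_quotient_eq_absNorm, Nat.card_eq_fintype_card]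
  exact FiniteField.pow_card _

/-- A finite residue field in which every element satisfies `x ^ n = x` has at most `n` elements. -/
theorem absNorm_le_of_forall_pow_sub_mem (Q : HeightOneSpectrum (𝓞 L)) {n : ℕ} (hn : 1 < n)
    (h : ∀ x : 𝓞 L, x ^ n - x ∈ Q.asIdeal) : Ideal.absNorm Q.asIdeal ≤ n := by
  classical
  have := finite_quotient_prime Q
  have := Q.isMaximal
  let _ := Ideal.Quotient.field Q.asIdeal
  let _ : Fintype (𝓞 L ⧸ Q.asIdeal) := Fintype.ofFinite _
  rw [← natCard_quotient_eq_absNorm, Nat.card_eq_fintype_card]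
  let f : Polynomial (𝓞 L ⧸ Q.asIdeal) := Polynomial.X ^ n - Polynomial.X
  have hf : f ≠ 0 := FiniteField.X_pow_card_sub_X_ne_zero _ hn
  have hdeg : f.natDegree = n := FiniteField.X_pow_card_sub_X_natDegree_eq _ hn
  rw [← Finset.card_univ, ← hdeg]
  refine le_trans (Finset.card_le_card fun y _ ↦ ?_)
    ((Multiset.toFinset_card_le _).trans (Polynomial.card_roots' f))
  obtain ⟨x, rfl⟩ := Ideal.Quotient.mk_surjective y
  simp only [Multiset.mem_toFinset, Polynomial.mem_roots hf, Polynomial.IsRoot, f,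
    Polynomial.eval_sub, Polynomial.eval_pow, Polynomial.eval_X]
  rw [← map_pow, ← map_sub]
  exact Ideal.Quotient.eq_zero_iff_mem.mpr (h x)

omit [NumberField K] [NumberField L] in
theorem underPrime_asIdeal (Q : HeightOneSpectrum (𝓞 L)) :
    (underPrime K L Q).asIdeal = Q.asIdeal.under (𝓞 K) := rfl

omit [NumberField L] in
theorem exists_underPrime_eq (P : HeightOneSpectrum (𝓞 K)) :
    ∃ Q : HeightOneSpectrum (𝓞 L), underPrime K L Q = P := by
  have := P.isMaximal
  obtain ⟨Q, hQ, hQP⟩ := Ideal.exists_maximal_ideal_liesOver_of_isIntegral (S := 𝓞 L) P.asIdeal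
  refine ⟨⟨Q, hQ.isPrime, fun h ↦ P.ne_bot ?_⟩, HeightOneSpectrum.ext hQP.over.symm⟩
  rw [hQP.over, h]
  exact Ideal.comap_bot_of_injective _ (FaithfulSMul.algebraMap_injective (𝓞 K) (𝓞 L))

theorem absNorm_le_absNorm_of_underPrime (Q : HeightOneSpectrum (𝓞 L)) :
    Ideal.absNorm (underPrime K L Q).asIdeal ≤ Ideal.absNorm Q.asIdeal := by
  have : Q.asIdeal.LiesOver (underPrime K L Q).asIdeal := ⟨rfl⟩
  have hf := Ideal.absNorm_eq_pow_inertiaDeg'_of_liesOver Q.asIdeal (underPrime K L Q).asIdeal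
    (underPrime K L Q).isPrime (underPrime K L Q).ne_bot
  rw [hf]
  refine Nat.le_self_pow (fun h ↦ ?_) _
  have h2 := two_le_absNorm Q
  rw [hf, h, pow_zero] at h2
  omega

/-- A prime of the same absolute norm as the prime below it has that prime as relative norm. -/
theorem relNorm_eq_underPrime (Q : HeightOneSpectrum (𝓞 L))
    (h : Ideal.absNorm Q.asIdeal = Ideal.absNorm (underPrime K L Q).asIdeal) :
    Ideal.relNorm (𝓞 K) Q.asIdeal = (underPrime K L Q).asIdeal := by
  have : Q.asIdeal.LiesOver (underPrime K L Q).asIdeal := ⟨rfl⟩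
  obtain ⟨s, hs⟩ := Ideal.exists_relNorm_eq_pow_of_isPrime Q.asIdeal (underPrime K L Q).asIdeal
  have h1 := Ideal.absNorm_relNorm (𝓞 K) (𝓞 L) Q.asIdeal
  rw [hs, map_pow, h] at h1
  have h2 : s = 1 := by
    have := two_le_absNorm (underPrime K L Q)
    exact (Nat.pow_eq_self_iff (by omega)).mp h1
  rw [hs, h2, pow_one]

/-- `(Q.asIdeal : (Ideal _)⁰)`. -/
def primeIdeal₀ (P : HeightOneSpectrum (𝓞 K)) : (Ideal (𝓞 K))⁰ :=
  ⟨P.asIdeal, mem_nonZeroDivisors_of_ne_zero P.ne_bot⟩

theorem primeClass_eq (P : HeightOneSpectrum (𝓞 K)) :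
    primeClass P = ClassGroup.mk0 (primeIdeal₀ P) := rfl

end Basic

/-! ### Frobenius elements -/

variable (G : Type*) [Group G] [MulSemiringAction G (𝓞 L)] [SMulCommClass G (𝓞 K) (𝓞 L)]

omit [NumberField L] in
theorem isArithFrobAt_iff {σ : G} (Q : HeightOneSpectrum (𝓞 L)) :
    IsArithFrobAt (𝓞 K) σ Q.asIdeal ↔
      ∀ x : 𝓞 L, σ • x - x ^ Ideal.absNorm (underPrime K L Q).asIdeal ∈ Q.asIdeal := by
  rw [← natCard_quotient_eq_absNorm]
  rfl

variable {G}

omit [NumberField K] [NumberField L] in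
theorem frobenius_unique {σ σ' : G} (Q : HeightOneSpectrum (𝓞 L))
    (hI : Q.asIdeal.inertia G = ⊥) (h : IsArithFrobAt (𝓞 K) σ Q.asIdeal)
    (h' : IsArithFrobAt (𝓞 K) σ' Q.asIdeal) : σ = σ' := by
  have := h.mul_inv_mem_inertia h'
  rw [hI, Subgroup.mem_bot, mul_inv_eq_one] at this
  exact this

/-- If the trivial element is a Frobenius at `Q` then `Q` has residue degree one. -/
theorem absNorm_eq_of_frobenius_one (Q : HeightOneSpectrum (𝓞 L))
    (h : IsArithFrobAt (𝓞 K) (1 : G) Q.asIdeal) :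
    Ideal.absNorm Q.asIdeal = Ideal.absNorm (underPrime K L Q).asIdeal := by
  rw [isArithFrobAt_iff] at h
  refine le_antisymm (absNorm_le_of_forall_pow_sub_mem Q (by
    have := two_le_absNorm (underPrime K L Q); omega) fun x ↦ ?_) ?_
  · have := h x
    rw [one_smul, ← neg_mem_iff, neg_sub] at this
    exact this
  · exact absNorm_le_absNorm_of_underPrime Q

/-- Residue degree one and trivial inertia give trivial decomposition group. -/
theorem stabilizer_eq_bot (Q : HeightOneSpectrum (𝓞 L)) (hI : Q.asIdeal.inertia G = ⊥)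
    (h : Ideal.absNorm Q.asIdeal = Ideal.absNorm (underPrime K L Q).asIdeal) :
    MulAction.stabilizer G Q.asIdeal = ⊥ := by
  have := finite_quotient_prime Q
  have := finite_quotient_prime (L := K) (underPrime K L Q)
  have : Q.asIdeal.LiesOver (underPrime K L Q).asIdeal := ⟨rfl⟩
  have hbij : Function.Bijective
      (algebraMap (𝓞 K ⧸ (underPrime K L Q).asIdeal) (𝓞 L ⧸ Q.asIdeal)) := by
    have := (underPrime K L Q).isMaximal
    let _ := Ideal.Quotient.field (underPrime K L Q).asIdeal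
    have := Q.isMaximal
    let _ := Ideal.Quotient.field Q.asIdeal
    refine Function.Injective.bijective_of_nat_card_le (RingHom.injective _) ?_
    rw [natCard_quotient_eq_absNorm, natCard_quotient_eq_absNorm, h]
  rw [Subgroup.eq_bot_iff_forall]
  intro g hg
  rw [← Subgroup.mem_bot, ← hI]
  intro x
  obtain ⟨y, hy⟩ := hbij.2 (Ideal.Quotient.mk Q.asIdeal x)
  obtain ⟨y, rfl⟩ := Ideal.Quotient.mk_surjective y
  rw [Ideal.Quotient.algebraMap_mk_of_liesOver, Ideal.Quotient.eq] at hy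
  have h1 : g • (algebraMap (𝓞 K) (𝓞 L) y - x) ∈ g • Q.asIdeal :=
    Ideal.smul_mem_pointwise_smul g _ _ hy
  rw [MulAction.mem_stabilizer_iff.mp hg, smul_sub, smul_algebraMap] at h1
  have := sub_mem hy h1
  have e : algebraMap (𝓞 K) (𝓞 L) y - x - (algebraMap (𝓞 K) (𝓞 L) y - g • x) = g • x - x := by ring
  rw [e] at this
  exact this

variable [IsGaloisGroup G (𝓞 K) (𝓞 L)] [Finite G]

omit [NumberField K] [NumberField L] [SMulCommClass G (𝓞 K) (𝓞 L)] in
theorem exists_smul_eq_of_underPrime_eq (Q Q' : HeightOneSpectrum (𝓞 L))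
    (h : underPrime K L Q = underPrime K L Q') : ∃ g : G, g • Q.asIdeal = Q'.asIdeal := by
  have : Q.asIdeal.LiesOver (underPrime K L Q).asIdeal := ⟨rfl⟩
  have : Q'.asIdeal.LiesOver (underPrime K L Q).asIdeal := ⟨by rw [h]; rfl⟩
  exact Ideal.exists_smul_eq_of_isGaloisGroup (underPrime K L Q).asIdeal Q.asIdeal Q'.asIdeal G

omit [NumberField K] in
theorem exists_frobenius (Q : HeightOneSpectrum (𝓞 L)) :
    ∃ σ : G, IsArithFrobAt (𝓞 K) σ Q.asIdeal :=
  have := finite_quotient_prime Q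
  IsArithFrobAt.exists_of_isInvariant (𝓞 K) G Q.asIdeal

omit [IsGaloisGroup G (𝓞 K) (𝓞 L)] [Finite G] in
/-- A split prime: there are `#G` primes above it with the same norm. -/
theorem card_le_ncard_of_frobenius_one (Q : HeightOneSpectrum (𝓞 L))
    (hI : Q.asIdeal.inertia G = ⊥) (h : IsArithFrobAt (𝓞 K) (1 : G) Q.asIdeal) :
    Nat.card G ≤ {Q' : HeightOneSpectrum (𝓞 L) | underPrime K L Q' = underPrime K L Q ∧
      Ideal.absNorm Q'.asIdeal = Ideal.absNorm (underPrime K L Q).asIdeal}.ncard := by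
  have hunder : ∀ g : G, (g • Q.asIdeal).under (𝓞 K) = Q.asIdeal.under (𝓞 K) := fun g ↦ by
    ext y
    rw [Ideal.under, Ideal.mem_comap, Ideal.mem_pointwise_smul_iff_inv_smul_mem, smul_algebraMap,
      Ideal.mem_comap]
  let f : G → HeightOneSpectrum (𝓞 L) := fun g ↦ ⟨g • Q.asIdeal, inferInstance, fun h0 ↦ Q.ne_bot (by
    rw [← inv_smul_smul g Q.asIdeal, h0, Ideal.pointwise_smul_def, Ideal.map_bot])⟩
  have hf : Function.Injective f := by
    intro g g' hgg
    have h1 : g • Q.asIdeal = g' • Q.asIdeal := congrArg HeightOneSpectrum.asIdeal hgg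
    have h2 : g'⁻¹ * g ∈ MulAction.stabilizer G Q.asIdeal := by
      rw [MulAction.mem_stabilizer_iff, mul_smul, h1, inv_smul_smul]
    rw [stabilizer_eq_bot Q hI (absNorm_eq_of_frobenius_one Q h), Subgroup.mem_bot,
      inv_mul_eq_one] at h2
    exact h2.symm
  have hfin : {Q' : HeightOneSpectrum (𝓞 L) | underPrime K L Q' = underPrime K L Q ∧
      Ideal.absNorm Q'.asIdeal = Ideal.absNorm (underPrime K L Q).asIdeal}.Finite :=
    (underPrime_fiber (F := L) (underPrime K L Q)).1.subset fun _ h ↦ h.1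
  rw [← Set.ncard_range_of_injective hf]
  refine Set.ncard_le_ncard ?_ hfin
  rintro _ ⟨g, rfl⟩
  have hu : underPrime K L (f g) = underPrime K L Q := HeightOneSpectrum.ext (hunder g)
  refine ⟨hu, ?_⟩
  have h1 : IsArithFrobAt (𝓞 K) (g * 1 * g⁻¹) (f g).asIdeal := h.conj g
  rw [mul_one, mul_inv_cancel] at h1
  rw [absNorm_eq_of_frobenius_one (f g) h1, hu]

/-! ### Unramified Galois extensions: invariant ideals and norms -/

omit [NumberField K] [NumberField L] in
theorem ideal_map_ne_bot {J : Ideal (𝓞 K)} (hJ : J ≠ ⊥) :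
    J.map (algebraMap (𝓞 K) (𝓞 L)) ≠ ⊥ := Ideal.map_ne_bot_of_ne_bot hJ

theorem exists_map_eq_of_invariant
    (hI : ∀ Q : HeightOneSpectrum (𝓞 L), Q.asIdeal.inertia G = ⊥) (I : Ideal (𝓞 L))
    (hI0 : I ≠ ⊥) (hinv : ∀ g : G, g • I = I) :
    ∃ J : Ideal (𝓞 K), I = J.map (algebraMap (𝓞 K) (𝓞 L)) := by
  classical
  induction I using WellFoundedGT.induction with
  | ind I ih =>
    by_cases htop : I = ⊤
    · exact ⟨⊤, by rw [htop, Ideal.map_top]⟩
    obtain ⟨M, hM, hIM⟩ := Ideal.exists_le_maximal I htop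
    let Q : HeightOneSpectrum (𝓞 L) :=
      ⟨M, hM.isPrime, fun h ↦ hI0 (le_bot_iff.mp (hIM.trans h.le))⟩
    let P := underPrime K L Q
    have := P.isMaximal
    have hfac : P.asIdeal.map (algebraMap (𝓞 K) (𝓞 L)) ∣ I := by
      rw [Ideal.map_algebraMap_eq_finsetProd_pow P.ne_bot]
      refine Finset.prod_dvd_of_coprime ?_ fun Q' hQ' ↦ ?_
      · intro Q₁ h₁ Q₂ h₂ hne
        simp only [Finset.mem_coe, Set.mem_toFinset] at h₁ h₂
        have := h₁.1.isMaximal (Ideal.ne_bot_of_mem_primesOver P.ne_bot h₁)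
        have := h₂.1.isMaximal (Ideal.ne_bot_of_mem_primesOver P.ne_bot h₂)
        exact (Ideal.isCoprime_iff_sup_eq.mpr
          (Ideal.IsMaximal.coprime_of_ne ‹_› ‹_› hne)).pow
      · simp only [Set.mem_toFinset] at hQ'
        let Q'' : HeightOneSpectrum (𝓞 L) :=
          ⟨Q', hQ'.1, Ideal.ne_bot_of_mem_primesOver P.ne_bot hQ'⟩
        have he : Q'.ramificationIdx (𝓞 K) = 1 := by
          have := hQ'.2
          have := hQ'.1
          have : Finite P.asIdeal.ResidueField :=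
            have := finite_quotient_prime P
            Finite.of_surjective _ (Ideal.bijective_algebraMap_quotient_residueField P.asIdeal).2
          rw [← Ideal.ramificationIdxIn_eq_ramificationIdx P.asIdeal Q' G,
            ← Ideal.card_inertia_eq_ramificationIdxIn (G := G) P.asIdeal Q', hI Q'']
          exact Subgroup.card_bot
        rw [he, pow_one, Ideal.dvd_iff_le]
        obtain ⟨g, hg⟩ := exists_smul_eq_of_underPrime_eq (G := G) Q Q''
          (HeightOneSpectrum.ext hQ'.2.over)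
        rw [show Q' = Q''.asIdeal from rfl, ← hg, ← hinv g]
        exact Ideal.pointwise_smul_le_pointwise_smul_iff.mpr hIM
    obtain ⟨I', hI'⟩ := hfac
    have hI'0 : I' ≠ ⊥ := fun h ↦ hI0 (by rw [hI', h, Ideal.mul_bot])
    have hlt : I < I' := by
      refine lt_of_le_of_ne (hI' ▸ Ideal.mul_le_right) fun he ↦ ?_
      rw [he] at hI'
      have h1 : P.asIdeal.map (algebraMap (𝓞 K) (𝓞 L)) * I' = 1 * I' := by rw [one_mul, ← hI']
      have h2 := mul_right_cancel₀ hI'0 h1
      have h3 : P.asIdeal.map (algebraMap (𝓞 K) (𝓞 L)) ≤ M := Ideal.map_comap_le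
      rw [h2, Ideal.one_eq_top] at h3
      exact hM.ne_top (top_le_iff.mp h3)
    have hinv' : ∀ g : G, g • I' = I' := by
      intro g
      have h1 := hinv g
      have hP : g • P.asIdeal.map (algebraMap (𝓞 K) (𝓞 L)) =
          P.asIdeal.map (algebraMap (𝓞 K) (𝓞 L)) := by
        rw [Ideal.pointwise_smul_def, Ideal.map_map]
        congr 1
        ext x
        simp
      rw [hI', smul_mul', hP] at h1
      exact mul_left_cancel₀ (ideal_map_ne_bot P.ne_bot) h1
    obtain ⟨J, hJ⟩ := ih I' hlt hI'0 hinv'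
    exact ⟨P.asIdeal * J, by rw [Ideal.map_mul, ← hJ, ← hI']⟩

/-- `N_{L/K} I` extended to `L` is the product of the conjugates of `I`. -/
theorem map_relNorm_eq_prod [Fintype G]
    (hI : ∀ Q : HeightOneSpectrum (𝓞 L), Q.asIdeal.inertia G = ⊥) (I : Ideal (𝓞 L))
    (hI0 : I ≠ ⊥) :
    (Ideal.relNorm (𝓞 K) I).map (algebraMap (𝓞 K) (𝓞 L)) = ∏ g : G, g • I := by
  have hne : ∀ g : G, g • I ≠ ⊥ := fun g h ↦ hI0 (by
    rw [← inv_smul_smul g I, h, Ideal.pointwise_smul_def, Ideal.map_bot])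
  have hinv : ∀ h : G, h • ∏ g : G, g • I = ∏ g : G, g • I := fun h ↦ by
    rw [Finset.smul_prod']
    refine Fintype.prod_equiv (Equiv.mulLeft h) _ _ fun g ↦ ?_
    rw [Equiv.coe_mulLeft, mul_smul]
  obtain ⟨J, hJ⟩ := exists_map_eq_of_invariant (K := K) hI (∏ g : G, g • I)
    (Finset.prod_ne_zero_iff.mpr fun g _ ↦ hne g) hinv
  have h1 := congrArg (Ideal.relNorm (𝓞 K)) hJ
  rw [map_prod, Ideal.relNorm_algebraMap] at h1
  simp only [Ideal.relNorm_smul, Finset.prod_const, Finset.card_univ] at h1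
  rw [← IsGaloisGroup.card_eq_finrank' G (𝓞 K) (𝓞 L), Nat.card_eq_fintype_card] at h1
  rw [(pow_left_inj Fintype.card_ne_zero).mp h1, hJ]

end FermatAgent.CFT
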