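import Mathlib
import Fermat.Agent.CFT.GaloisPrimes

/-!
# Homomorphisms out of class groups, norm and Galois action on class groups
-/

set_option autoImplicit false

noncomputable section

namespace FermatAgent.CFT

open NumberField
open scoped nonZeroDivisors Pointwise

/-- The principal ideal `(x)` as an element of `(Ideal R)⁰`. -/
def principal₀ {R : Type*} [CommRing R] [IsDomain R] (x : R) (hx : x ≠ 0) : (Ideal R)⁰ :=
  ⟨Ideal.span {x}, mem_nonZeroDivisors_of_ne_zero (by simpa using hx)⟩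

section Lift

variable {R : Type*} [CommRing R] [IsDedekindDomain R] {M : Type*} [CommGroup M]

/-- A monoid homomorphism on nonzero ideals which kills principal ideals factors through the class
group. -/
def liftClassHom (f : (Ideal R)⁰ →* M) (hf : ∀ (x : R) (hx : x ≠ 0), f (principal₀ x hx) = 1) :
    ClassGroup R →* M :=
  have key : ∀ I J : (Ideal R)⁰, ClassGroup.mk0 I = ClassGroup.mk0 J → f I = f J := fun I J h ↦ by
    obtain ⟨x, y, hx, hy, hxy⟩ := ClassGroup.mk0_eq_mk0_iff.mp h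
    have h1 : principal₀ x hx * I = principal₀ y hy * J := Subtype.ext hxy
    simpa [map_mul, hf] using congrArg f h1
  { toFun := fun C ↦ f (Function.surjInv ClassGroup.mk0_surjective C)
    map_one' := by
      rw [key _ 1 (by rw [Function.surjInv_eq ClassGroup.mk0_surjective, map_one]), map_one]
    map_mul' := fun C D ↦ by
      rw [← map_mul]
      refine key _ _ ?_
      rw [map_mul, Function.surjInv_eq ClassGroup.mk0_surjective,
        Function.surjInv_eq ClassGroup.mk0_surjective, Function.surjInv_eq ClassGroup.mk0_surjective] }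

@[simp]
theorem liftClassHom_mk0 (f : (Ideal R)⁰ →* M)
    (hf : ∀ (x : R) (hx : x ≠ 0), f (principal₀ x hx) = 1) (I : (Ideal R)⁰) :
    liftClassHom f hf (ClassGroup.mk0 I) = f I := by
  obtain ⟨x, y, hx, hy, hxy⟩ := ClassGroup.mk0_eq_mk0_iff.mp
    (Function.surjInv_eq ClassGroup.mk0_surjective (ClassGroup.mk0 I))
  have h1 : principal₀ x hx * Function.surjInv ClassGroup.mk0_surjective (ClassGroup.mk0 I) =
      principal₀ y hy * I := Subtype.ext hxy
  have h2 := congrArg f h1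
  rw [map_mul, map_mul, hf, hf, one_mul, one_mul] at h2
  exact h2

theorem mk0_principal₀ (x : R) (hx : x ≠ 0) : ClassGroup.mk0 (principal₀ x hx) = 1 :=
  (ClassGroup.mk0_eq_one_iff _).mpr ⟨⟨x, rfl⟩⟩

end Lift

variable (K L : Type*) [Field K] [NumberField K] [Field L] [NumberField L] [Algebra K L]

/-- The relative norm on nonzero ideals. -/
def relNorm₀ : (Ideal (𝓞 L))⁰ →* (Ideal (𝓞 K))⁰ where
  toFun I := ⟨Ideal.relNorm (𝓞 K) (I : Ideal (𝓞 L)), mem_nonZeroDivisors_of_ne_zero fun h ↦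
    nonZeroDivisors.coe_ne_zero I (Ideal.relNorm_eq_bot_iff.mp h)⟩
  map_one' := Subtype.ext (map_one (Ideal.relNorm (𝓞 K)))
  map_mul' I J := Subtype.ext (map_mul (Ideal.relNorm (𝓞 K)) (I : Ideal (𝓞 L)) J)

theorem intNorm_eq_norm (x : 𝓞 L) :
    Algebra.intNorm (𝓞 K) (𝓞 L) x = RingOfIntegers.norm K x := by
  refine IsFractionRing.injective (𝓞 K) K ?_
  rw [Algebra.algebraMap_intNorm (K := K) (L := L)]
  rfl

theorem relNorm_span_singleton (x : 𝓞 L) :
    Ideal.relNorm (𝓞 K) (Ideal.span {x}) = Ideal.span {RingOfIntegers.norm K x} := by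
  rw [Ideal.relNorm_singleton, intNorm_eq_norm]

/-- The norm map on class groups. -/
def normClass : ClassGroup (𝓞 L) →* ClassGroup (𝓞 K) :=
  liftClassHom (ClassGroup.mk0.comp (relNorm₀ K L)) fun x hx ↦ by
    rw [MonoidHom.comp_apply, ClassGroup.mk0_eq_one_iff (SetLike.coe_mem _)]
    exact ⟨⟨RingOfIntegers.norm K x, relNorm_span_singleton K L x⟩⟩

theorem normClass_mk0 (I : (Ideal (𝓞 L))⁰) :
    normClass K L (ClassGroup.mk0 I) = ClassGroup.mk0 (relNorm₀ K L I) :=
  liftClassHom_mk0 _ _ I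

theorem primeClass_mem_range_normClass {P : IsDedekindDomain.HeightOneSpectrum (𝓞 K)}
    {Q : IsDedekindDomain.HeightOneSpectrum (𝓞 L)} (h : underPrime K L Q = P)
    (hN : Ideal.absNorm Q.asIdeal = Ideal.absNorm P.asIdeal) :
    primeClass P ∈ (normClass K L).range := by
  refine ⟨primeClass Q, ?_⟩
  rw [primeClass_eq, primeClass_eq, normClass_mk0]
  congr 1
  exact Subtype.ext (show Ideal.relNorm (𝓞 K) Q.asIdeal = P.asIdeal by
    rw [relNorm_eq_underPrime Q (by rw [h]; exact hN), h])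

/-- Extension of ideals on nonzero ideals. -/
def extend₀ : (Ideal (𝓞 K))⁰ →* (Ideal (𝓞 L))⁰ where
  toFun I := ⟨(I : Ideal (𝓞 K)).map (algebraMap (𝓞 K) (𝓞 L)), mem_nonZeroDivisors_of_ne_zero
    (ideal_map_ne_bot (nonZeroDivisors.coe_ne_zero I))⟩
  map_one' := Subtype.ext (by simp [Ideal.one_eq_top, Ideal.map_top])
  map_mul' I J := Subtype.ext (Ideal.map_mul _ (I : Ideal (𝓞 K)) J)

/-- The extension map on class groups. -/
def extClass : ClassGroup (𝓞 K) →* ClassGroup (𝓞 L) :=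
  liftClassHom (ClassGroup.mk0.comp (extend₀ K L)) fun x hx ↦ by
    rw [MonoidHom.comp_apply, ClassGroup.mk0_eq_one_iff (SetLike.coe_mem _)]
    exact ⟨⟨algebraMap (𝓞 K) (𝓞 L) x, by simp [extend₀, principal₀, Ideal.map_span]⟩⟩

theorem extClass_mk0 (I : (Ideal (𝓞 K))⁰) :
    extClass K L (ClassGroup.mk0 I) = ClassGroup.mk0 (extend₀ K L I) :=
  liftClassHom_mk0 _ _ I

variable {K L}

/-- The Galois action on nonzero ideals. -/
def gal₀ (σ : L ≃ₐ[K] L) : (Ideal (𝓞 L))⁰ →* (Ideal (𝓞 L))⁰ where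
  toFun I := ⟨σ • (I : Ideal (𝓞 L)), mem_nonZeroDivisors_of_ne_zero fun h ↦
    nonZeroDivisors.coe_ne_zero I (by simpa using congrArg (σ⁻¹ • ·) h)⟩
  map_one' := Subtype.ext (show σ • (1 : Ideal (𝓞 L)) = 1 by
    rw [Ideal.one_eq_top, Ideal.pointwise_smul_def, Ideal.map_top])
  map_mul' I J := Subtype.ext (smul_mul' σ (I : Ideal (𝓞 L)) J)

omit [NumberField K] [NumberField L] in
theorem smul_span_singleton (σ : L ≃ₐ[K] L) (x : 𝓞 L) :
    σ • Ideal.span {x} = Ideal.span {σ • x} := by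
  rw [Ideal.pointwise_smul_def, Ideal.map_span, Set.image_singleton]
  rfl

/-- The Galois action on the class group. -/
def galClass (σ : L ≃ₐ[K] L) : ClassGroup (𝓞 L) →* ClassGroup (𝓞 L) :=
  liftClassHom (ClassGroup.mk0.comp (gal₀ σ)) fun x hx ↦ by
    rw [MonoidHom.comp_apply, ClassGroup.mk0_eq_one_iff (SetLike.coe_mem _)]
    exact ⟨⟨σ • x, smul_span_singleton σ x⟩⟩

omit [NumberField K] in
theorem galClass_mk0 (σ : L ≃ₐ[K] L) (I : (Ideal (𝓞 L))⁰) :
    galClass σ (ClassGroup.mk0 I) = ClassGroup.mk0 (gal₀ σ I) :=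
  liftClassHom_mk0 _ _ I

theorem normClass_galClass [IsGalois K L] (σ : L ≃ₐ[K] L) (c : ClassGroup (𝓞 L)) :
    normClass K L (galClass σ c) = normClass K L c := by
  obtain ⟨I, rfl⟩ := ClassGroup.mk0_surjective c
  rw [galClass_mk0, normClass_mk0, normClass_mk0]
  congr 1
  exact Subtype.ext (Ideal.relNorm_smul (𝓞 K) σ (I : Ideal (𝓞 L)))

end FermatAgent.CFT
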