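import Mathlib
import Fermat.Agent.CFT.GaloisPrimes

/-!
# Auxiliary moduli

For distinct primes `q ≠ q'` and a prime `p` there is a prime `m` such that `q` is a `p`-th power
modulo `m` but `q'` is not (proved by comparing the densities of split primes in two Kummer
extensions of `ℚ(ζ_p)`).
-/

set_option autoImplicit false

noncomputable section

namespace FermatAgent.CFT

open NumberField IsDedekindDomain
open scoped Pointwise

section General

theorem eq_one_of_sub_one_mem {S : Type*} [CommRing S] [IsDomain S] {Q : Ideal S} {ξ : S} {n : ℕ}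
    (hξ : ξ ^ n = 1) (hn : (n : S) ∉ Q) (h : ξ - 1 ∈ Q) : ξ = 1 := by
  by_contra hne
  apply hn
  have h1 : (∑ i ∈ Finset.range n, ξ ^ i) * (ξ - 1) = 0 := by rw [geom_sum_mul, hξ, sub_self]
  have h2 : ∑ i ∈ Finset.range n, ξ ^ i = 0 :=
    (mul_eq_zero.mp h1).resolve_right (sub_ne_zero.mpr hne)
  have h3 : ∀ i, ξ ^ i - 1 ∈ Q := fun i ↦ by
    rw [← geom_sum_mul]; exact Ideal.mul_mem_left _ _ h
  have h4 : ∑ i ∈ Finset.range n, (ξ ^ i - 1) ∈ Q := sum_mem fun i _ ↦ h3 i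
  rw [Finset.sum_sub_distrib, h2, zero_sub, Finset.sum_const, Finset.card_range, nsmul_one,
    neg_mem_iff] at h4
  exact h4

theorem algEquiv_ext_of_eq_adjoin {F E : Type*} [Field F] [Field E] [Algebra F E]
    {S : IntermediateField F E} {s : Set E} (hS : S = IntermediateField.adjoin F s)
    {g h : S ≃ₐ[F] S}
    (he : ∀ (x : E) (hx : x ∈ s), g ⟨x, hS.ge (IntermediateField.subset_adjoin _ _ hx)⟩ =
      h ⟨x, hS.ge (IntermediateField.subset_adjoin _ _ hx)⟩) : g = h := by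
  have h1 := IntermediateField.algHom_ext_of_eq_adjoin F hS (φ₁ := (g : S →ₐ[F] S))
    (φ₂ := (h : S →ₐ[F] S)) he
  exact AlgEquiv.ext fun x ↦ DFunLike.congr_fun h1 x

variable {K : Type*} [Field K] [NumberField K]

theorem finite_primes_containing {x : 𝓞 K} (hx : x ≠ 0) :
    {P : HeightOneSpectrum (𝓞 K) | x ∈ P.asIdeal}.Finite := by
  have h := Ideal.finite_factors (I := Ideal.span {x}) (by simpa using hx)
  refine h.subset fun P hP ↦ ?_
  exact Ideal.dvd_iff_le.mpr ((Ideal.span_singleton_le_iff_mem _).mpr hP)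

theorem absNorm_natCast_mem (P : HeightOneSpectrum (𝓞 K)) :
    ((Ideal.absNorm P.asIdeal : ℕ) : 𝓞 K) ∈ P.asIdeal :=
  Ideal.absNorm_mem P.asIdeal

theorem exists_nat_sub_mem (P : HeightOneSpectrum (𝓞 K)) (hP : (Ideal.absNorm P.asIdeal).Prime)
    (x : 𝓞 K) : ∃ n : ℕ, x - n ∈ P.asIdeal := by
  have := finite_quotient_prime P
  have := P.isPrime
  have hcard : Nat.card (𝓞 K ⧸ P.asIdeal) = Ideal.absNorm P.asIdeal := natCard_quotient_eq_absNorm _
  have : Fact (Nat.card (𝓞 K ⧸ P.asIdeal)).Prime := ⟨hcard ▸ hP⟩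
  obtain ⟨k, hk⟩ := mem_zmultiples_of_prime_card (G := 𝓞 K ⧸ P.asIdeal) rfl one_ne_zero
    (g' := Ideal.Quotient.mk P.asIdeal x)
  simp only [zsmul_one] at hk
  set m := Ideal.absNorm P.asIdeal
  refine ⟨(k % (m : ℤ)).toNat, ?_⟩
  have hm : 0 < (m : ℤ) := by exact_mod_cast hP.pos
  have h1 : (((k % (m : ℤ)).toNat : ℕ) : 𝓞 K) = ((k % (m : ℤ) : ℤ) : 𝓞 K) := by
    conv_rhs => rw [← Int.toNat_of_nonneg (Int.emod_nonneg k hm.ne')]
    rw [Int.cast_natCast]
  rw [h1, ← Ideal.Quotient.eq, ← hk, map_intCast]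
  have h2 : ((m : ℤ) : 𝓞 K ⧸ P.asIdeal) = 0 := by
    rw [← map_intCast (Ideal.Quotient.mk P.asIdeal), Ideal.Quotient.eq_zero_iff_mem,
      Int.cast_natCast]
    exact absNorm_natCast_mem P
  conv_lhs => rw [← Int.emod_add_mul_ediv k (m : ℤ)]
  rw [Int.cast_add, Int.cast_mul, h2, zero_mul, add_zero]

theorem natCast_eq_of_sub_mem (P : HeightOneSpectrum (𝓞 K))
    (hP : (Ideal.absNorm P.asIdeal).Prime) {a b : ℕ}
    (h : ((a : 𝓞 K) - (b : 𝓞 K)) ∈ P.asIdeal) : (a : ZMod (Ideal.absNorm P.asIdeal)) = b := by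
  rw [← sub_eq_zero, ← Int.cast_natCast a, ← Int.cast_natCast b, ← Int.cast_sub,
    ZMod.intCast_zmod_eq_zero_iff_dvd]
  by_contra hd
  have hcop : IsCoprime (Ideal.absNorm P.asIdeal : ℤ) ((a : ℤ) - b) :=
    (Prime.coprime_iff_not_dvd (Nat.prime_iff_prime_int.mp hP)).mpr hd
  obtain ⟨u, v, huv⟩ := hcop.map (algebraMap ℤ (𝓞 K))
  refine P.isPrime.ne_top ((Ideal.eq_top_iff_one _).mpr (huv ▸ add_mem ?_ ?_))
  · exact Ideal.mul_mem_left _ _ (by simpa using absNorm_natCast_mem P)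
  · exact Ideal.mul_mem_left _ _ (by simpa using h)

end General

variable (p : ℕ) [Fact p.Prime]

local notation "K₀" => CyclotomicField p ℚ

instance : NeZero p := ⟨(Fact.out : p.Prime).ne_zero⟩

theorem not_pow_eq_of_prime_ratio {q q' : ℕ} (hq : q.Prime) (hq' : q'.Prime) (hne : q ≠ q')
    (j : ℕ) (x : K₀) : x ^ p * (q : K₀) ^ j ≠ (q' : K₀) := by
  intro h
  have hp : p.Prime := Fact.out
  have : IsCyclotomicExtension {p} ℚ K₀ := CyclotomicField.isCyclotomicExtension p ℚ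
  have hd : Module.finrank ℚ K₀ = p - 1 := by
    rw [IsCyclotomicExtension.finrank K₀ (Polynomial.cyclotomic.irreducible_rat hp.pos),
      Nat.totient_prime hp]
  have h1 := congrArg (Algebra.norm ℚ) h
  have e : ∀ n : ℕ, Algebra.norm ℚ (n : K₀) = (n : ℚ) ^ (p - 1) := fun n ↦ by
    rw [← map_natCast (algebraMap ℚ K₀), Algebra.norm_algebraMap, hd]
  rw [map_mul, map_pow, map_pow, e, e] at h1
  set y := Algebra.norm ℚ x
  have : Fact q'.Prime := ⟨hq'⟩
  have : Fact q.Prime := ⟨hq⟩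
  have hy : y ≠ 0 := by
    rintro hy
    rw [hy, zero_pow hp.ne_zero, zero_mul] at h1
    exact pow_ne_zero _ (Nat.cast_ne_zero.mpr hq'.ne_zero) h1.symm
  have hqne : (q : ℚ) ≠ 0 := Nat.cast_ne_zero.mpr hq.ne_zero
  have h2 := congrArg (padicValRat q') h1
  rw [padicValRat.mul (pow_ne_zero _ hy) (pow_ne_zero _ (pow_ne_zero _ hqne)), padicValRat.pow,
    padicValRat.pow, padicValRat.pow, padicValRat.pow, padicValRat.self hq'.one_lt, mul_one,
    padicValRat.of_nat, padicValNat_primes hne.symm, Nat.cast_zero, mul_zero, mul_zero,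
    add_zero] at h2
  have h3 : (p : ℤ) ∣ ((p - 1 : ℕ) : ℤ) := ⟨_, h2.symm⟩
  have h4 := Nat.le_of_dvd (by have := hp.two_le; omega) (Int.natCast_dvd_natCast.mp h3)
  have := hp.two_le
  omega

/-- The primes of `ℚ(ζ_p)` modulo which `q` is a `p`-th power. -/
def powerPrimes (q : ℕ) : Set (HeightOneSpectrum (𝓞 K₀)) :=
  {P | ∃ c : 𝓞 K₀, c ^ p - (q : 𝓞 K₀) ∈ P.asIdeal}

/-- **Auxiliary modulus**: `q` is a `p`-th power mod `m` and `q'` is not. -/
theorem exists_modulus {q q' : ℕ} (hq : q.Prime) (hq' : q'.Prime) (hne : q ≠ q') :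
    ∃ m : ℕ, m.Prime ∧ m ≠ q ∧ m ≠ q' ∧ (∃ c : ZMod m, c ^ p = (q : ZMod m)) ∧
      ¬ ∃ c : ZMod m, c ^ p = (q' : ZMod m) := by
  classical
  have hp : p.Prime := Fact.out
  have : IsCyclotomicExtension {p} ℚ K₀ := CyclotomicField.isCyclotomicExtension p ℚ
  have : NumberField K₀ := IsCyclotomicExtension.numberField {p} ℚ K₀
  have hζ := IsCyclotomicExtension.zeta_spec p ℚ K₀
  set ζ := IsCyclotomicExtension.zeta p ℚ K₀
  let A := AlgebraicClosure K₀
  obtain ⟨θ, hθ⟩ := IsAlgClosed.exists_pow_nat_eq (q : A) hp.pos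
  obtain ⟨θ', hθ'⟩ := IsAlgClosed.exists_pow_nat_eq (q' : A) hp.pos
  have hθ0 : θ ≠ 0 := by
    rintro rfl
    rw [zero_pow hp.ne_zero] at hθ
    exact (Nat.cast_ne_zero.mpr hq.ne_zero) hθ.symm
  have hθ'0 : θ' ≠ 0 := by
    rintro rfl
    rw [zero_pow hp.ne_zero] at hθ'
    exact (Nat.cast_ne_zero.mpr hq'.ne_zero) hθ'.symm
  have hζA : IsPrimitiveRoot (algebraMap K₀ A ζ) p := hζ.map_of_injective (algebraMap K₀ A).injective
  -- conjugates of `θ` differ by roots of unity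
  have hconj : ∀ (x : A) (r : ℕ) (τ : A →ₐ[K₀] A), x ^ p = (r : A) → x ≠ 0 →
      ∃ i : ℕ, τ x = algebraMap K₀ A ζ ^ i * x := by
    intro x r τ hx hx0
    have h1 : (τ x / x) ^ p = 1 := by
      rw [div_pow, ← map_pow, hx, map_natCast, div_self]
      exact hx ▸ pow_ne_zero _ hx0
    obtain ⟨i, -, hi⟩ := hζA.eq_pow_of_pow_eq_one h1
    exact ⟨i, by rw [hi, div_mul_cancel₀ _ hx0]⟩
  let F₁ : IntermediateField K₀ A := IntermediateField.adjoin K₀ {θ}
  let F₂ : IntermediateField K₀ A := IntermediateField.adjoin K₀ {θ, θ'}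
  have hint : ∀ x : A, IsIntegral K₀ x := fun x ↦ (AlgebraicClosure.isAlgebraic K₀).isAlgebraic x
    |>.isIntegral
  have : FiniteDimensional K₀ F₁ := IntermediateField.adjoin.finiteDimensional (hint θ)
  have : FiniteDimensional K₀ F₂ :=
    IntermediateField.finiteDimensional_adjoin fun x _ ↦ hint x
  have : NumberField F₁ := NumberField.of_module_finite K₀ F₁
  have : NumberField F₂ := NumberField.of_module_finite K₀ F₂
  have hnormal : ∀ (S : Set A), (∀ x ∈ S, x ≠ 0 ∧ ∃ r : ℕ, x ^ p = (r : A)) →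
      Normal K₀ (IntermediateField.adjoin K₀ S) := by
    intro S hS
    rw [IntermediateField.normal_iff_forall_map_le']
    intro τ
    rw [IntermediateField.adjoin_map, IntermediateField.adjoin_le_iff]
    rintro _ ⟨x, hx, rfl⟩
    obtain ⟨hx0, r, hr⟩ := hS x hx
    obtain ⟨i, hi⟩ := hconj x r (τ : A →ₐ[K₀] A) hr hx0
    change τ x ∈ IntermediateField.adjoin K₀ S
    rw [show τ x = algebraMap K₀ A ζ ^ i * x from hi, ← map_pow]
    exact mul_mem (IntermediateField.algebraMap_mem _ _) (IntermediateField.subset_adjoin _ _ hx)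
  have : Normal K₀ F₁ := hnormal _ (by rintro x rfl; exact ⟨hθ0, q, hθ⟩)
  have : Normal K₀ F₂ := hnormal _ (by
    rintro x (rfl | rfl)
    · exact ⟨hθ0, q, hθ⟩
    · exact ⟨hθ'0, q', hθ'⟩)
  have : IsGalois K₀ F₁ := ⟨⟩
  have : IsGalois K₀ F₂ := ⟨⟩
  -- `θ' ∉ F₁`
  have hnot : θ' ∉ F₁ := by
    intro hmem
    let t : F₁ := ⟨θ, IntermediateField.mem_adjoin_simple_self K₀ θ⟩
    let t' : F₁ := ⟨θ', hmem⟩
    have hext : ∀ g h : F₁ ≃ₐ[K₀] F₁, g t = h t → g = h := fun g h e ↦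
      algEquiv_ext_of_eq_adjoin (s := {θ}) rfl (by rintro _ rfl; exact e)
    have hrel : ∀ (g : F₁ ≃ₐ[K₀] F₁) (x : F₁) (r : ℕ), x ^ p = (r : F₁) → x ≠ 0 →
        ∃ i : ℕ, g x = algebraMap K₀ F₁ ζ ^ i * x := by
      intro g x r hx hx0
      have h1 : (g x / x) ^ p = 1 := by
        rw [div_pow, ← map_pow, hx, map_natCast, div_self]
        exact hx ▸ pow_ne_zero _ hx0
      obtain ⟨i, -, hi⟩ :=
        (hζ.map_of_injective (algebraMap K₀ F₁).injective).eq_pow_of_pow_eq_one h1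
      exact ⟨i, by rw [hi, div_mul_cancel₀ _ hx0]⟩
    have htp : t ^ p = (q : F₁) := Subtype.ext (by simpa using hθ)
    have ht'p : t' ^ p = (q' : F₁) := Subtype.ext (by simpa using hθ')
    have ht0 : t ≠ 0 := fun h ↦ hθ0 congr(($h).1)
    have ht'0 : t' ≠ 0 := fun h ↦ hθ'0 congr(($h).1)
    have hzp : algebraMap K₀ F₁ ζ ^ p = 1 := by rw [← map_pow, hζ.pow_eq_one, map_one]
    -- some automorphism moves `t`
    obtain ⟨g, hg⟩ : ∃ g : F₁ ≃ₐ[K₀] F₁, g t ≠ t := by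
      by_contra! hall
      obtain ⟨x, hx⟩ := (IsGalois.mem_range_algebraMap_iff_fixed t).mpr hall
      refine not_pow_eq_of_prime_ratio p hq' hq hne.symm 0 x
        ((algebraMap K₀ F₁).injective ?_)
      rw [pow_zero, mul_one, map_pow, hx, map_natCast, htp]
    obtain ⟨i, hi⟩ := hrel g t q htp ht0
    obtain ⟨k, hk⟩ := hrel g t' q' ht'p ht'0
    have hi0 : (i : ZMod p) ≠ 0 := fun h ↦ hg (by
      obtain ⟨c, rfl⟩ := (ZMod.natCast_eq_zero_iff i p).mp h
      rw [hi, pow_mul, hzp, one_pow, one_mul])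
    let j : ℕ := ((k : ZMod p) * (i : ZMod p)⁻¹).val
    have hpow : algebraMap K₀ F₁ ζ ^ k = algebraMap K₀ F₁ ζ ^ (i * j) := by
      refine pow_eq_pow_of_modEq ?_ hzp
      rw [← ZMod.natCast_eq_natCast_iff, Nat.cast_mul, ZMod.natCast_val, ZMod.cast_id,
        mul_comm (k : ZMod p), ← mul_assoc, mul_inv_cancel₀ hi0, one_mul]
    have hfix : g (t' / t ^ j) = t' / t ^ j := by
      rw [map_div₀, map_pow, hi, hk, mul_pow, ← pow_mul, hpow,
        mul_div_mul_left _ _ (pow_ne_zero _ ?_)]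
      exact (map_ne_zero _).mpr (hζ.ne_zero hp.ne_zero)
    -- `g` generates
    have hgen : ∀ τ : F₁ ≃ₐ[K₀] F₁, ∃ a : ℕ, τ = g ^ a := by
      intro τ
      obtain ⟨l, hl⟩ := hrel τ t q htp ht0
      refine ⟨((l : ZMod p) * (i : ZMod p)⁻¹).val, hext _ _ ?_⟩
      have hit : ∀ a : ℕ, (g ^ a) t = algebraMap K₀ F₁ ζ ^ (i * a) * t := by
        intro a
        induction a with
        | zero => simp
        | succ a ih =>
          rw [pow_succ', AlgEquiv.mul_apply, ih, map_mul, map_pow, AlgEquiv.commutes, hi, mul_add,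
            mul_one, pow_add, mul_assoc]
      rw [hit, hl]
      congr 1
      refine pow_eq_pow_of_modEq ?_ hzp
      rw [← ZMod.natCast_eq_natCast_iff, Nat.cast_mul, ZMod.natCast_val, ZMod.cast_id,
        mul_comm (l : ZMod p), ← mul_assoc, mul_inv_cancel₀ hi0, one_mul]
    obtain ⟨x, hx⟩ := (IsGalois.mem_range_algebraMap_iff_fixed (t' / t ^ j)).mpr fun τ ↦ by
      obtain ⟨a, rfl⟩ := hgen τ
      induction a with
      | zero => simp
      | succ a ih => rw [pow_succ', AlgEquiv.mul_apply, ih, hfix]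
    refine not_pow_eq_of_prime_ratio p hq hq' hne j x ((algebraMap K₀ F₁).injective ?_)
    rw [map_mul, map_pow, map_pow, hx, map_natCast, map_natCast, div_pow, ht'p, ← pow_mul,
      mul_comm j p, pow_mul, htp, div_mul_cancel₀]
    exact pow_ne_zero _ (Nat.cast_ne_zero.mpr hq.ne_zero)
  have hlt : F₁ < F₂ := by
    refine lt_of_le_of_ne (IntermediateField.adjoin.mono _ _ _ (by simp)) fun h ↦ hnot ?_
    rw [h]
    exact IntermediateField.subset_adjoin _ _ (by simp)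
  have hrank : Module.finrank K₀ F₁ < Module.finrank K₀ F₂ := by
    refine lt_of_le_of_ne (Submodule.finrank_mono (s := F₁.toSubmodule) (t := F₂.toSubmodule)
      hlt.le) fun h ↦ hlt.ne ?_
    exact IntermediateField.eq_of_le_of_finrank_eq hlt.le h
  -- the small set
  let bad : Set (HeightOneSpectrum (𝓞 K₀)) :=
    {P | ((p * q * q' : ℕ) : 𝓞 K₀) ∈ P.asIdeal}
  have hbad : bad.Finite := finite_primes_containing
    (Nat.cast_ne_zero.mpr (mul_ne_zero (mul_ne_zero hp.ne_zero hq.ne_zero) hq'.ne_zero))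
  -- lower bound
  have hlow : LowerDens (powerPrimes p q) (1 / Module.finrank K₀ F₁) := by
    refine lowerDens_of_extension (F := F₁) (bad := ∅) Set.finite_empty fun Q hQ _ ↦ ?_
    let t : 𝓞 F₁ := ⟨⟨θ, IntermediateField.mem_adjoin_simple_self K₀ θ⟩,
      IsIntegral.of_pow hp.pos (by
        rw [show (⟨θ, IntermediateField.mem_adjoin_simple_self K₀ θ⟩ : F₁) ^ p = (q : F₁) from
          Subtype.ext (by simpa using hθ)]
        exact isIntegral_natCast q)⟩
    obtain ⟨n, hn⟩ := exists_nat_sub_mem Q hQ t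
    refine ⟨(n : 𝓞 K₀), ?_⟩
    rw [underPrime_asIdeal, Ideal.mem_comap, map_sub, map_pow, map_natCast, map_natCast]
    have h1 : t ^ p = (q : 𝓞 F₁) :=
      RingOfIntegers.coe_injective (by rw [map_pow, map_natCast]; exact Subtype.ext (show θ ^ p = _ from hθ.trans (by simp)))
    rw [← h1]
    obtain ⟨r, hr⟩ := sub_dvd_pow_sub_pow t (n : 𝓞 F₁) p
    rw [← neg_mem_iff, neg_sub, hr]
    exact Ideal.mul_mem_right _ _ hn
  -- upper bound
  have hup : UpperDens (({P : HeightOneSpectrum (𝓞 K₀) | (Ideal.absNorm P.asIdeal).Prime} ∩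
      (powerPrimes p q ∩ powerPrimes p q')) \ bad) (1 / Module.finrank K₀ F₂) := by
    refine upperDens_of_splits (F := F₂) ?_
    rintro P ⟨⟨hPm, ⟨c, hc⟩, ⟨c', hc'⟩⟩, hPbad⟩
    obtain ⟨Q, rfl⟩ := exists_underPrime_eq (L := F₂) P
    have hmem : ∀ r : ℕ, ((r : ℕ) : 𝓞 F₂) ∈ Q.asIdeal ↔
        ((r : ℕ) : 𝓞 K₀) ∈ (underPrime K₀ F₂ Q).asIdeal := fun r ↦ by
      rw [underPrime_asIdeal, Ideal.mem_comap, map_natCast]
    have hQp : ((p : ℕ) : 𝓞 F₂) ∉ Q.asIdeal := fun h ↦ hPbad (by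
      simp only [bad, Set.mem_ofPred_eq, Nat.cast_mul]
      exact Ideal.mul_mem_right _ _ (Ideal.mul_mem_right _ _ ((hmem p).mp h)))
    have hQq : ∀ r : ℕ, r = q ∨ r = q' → ((r : ℕ) : 𝓞 F₂) ∉ Q.asIdeal := fun r hr h ↦ hPbad (by
      simp only [bad, Set.mem_ofPred_eq, Nat.cast_mul]
      rcases hr with rfl | rfl
      · exact Ideal.mul_mem_right _ _ (Ideal.mul_mem_left _ _ ((hmem _).mp h))
      · exact Ideal.mul_mem_left _ _ ((hmem _).mp h))
    -- an automorphism congruent to `x ↦ x` on the radicals is trivial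
    have hfix : ∀ (g : F₂ ≃ₐ[K₀] F₂) (x : 𝓞 F₂) (r : ℕ), r = q ∨ r = q' →
        x ^ p = (r : 𝓞 F₂) → g • x - x ∈ Q.asIdeal → g • x = x := by
      intro g x r hr hx hgx
      have hzint : IsIntegral ℤ (algebraMap K₀ F₂ ζ) :=
        (hζ.map_of_injective (algebraMap K₀ F₂).injective).isIntegral hp.pos
      have hx0 : x ≠ 0 := fun h ↦ by
        rw [h, zero_pow hp.ne_zero] at hx
        exact hQq r hr (hx ▸ zero_mem _)
      have hpr := (hζ.map_of_injective (algebraMap K₀ F₂).injective)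
      have h1 : (g (x : F₂) / (x : F₂)) ^ p = 1 := by
        rw [div_pow, ← map_pow, show (x : F₂) ^ p = ((r : ℕ) : F₂) from by
          rw [← map_natCast (algebraMap (𝓞 F₂) F₂), ← hx, map_pow], map_natCast, div_self]
        intro h
        exact hQq r hr (by
          rw [show ((r : ℕ) : 𝓞 F₂) = 0 from RingOfIntegers.coe_injective (by simpa using h)]
          exact zero_mem _)
      obtain ⟨i, -, hi⟩ := hpr.eq_pow_of_pow_eq_one h1
      let ξ : 𝓞 F₂ := ⟨algebraMap K₀ F₂ ζ, hzint⟩ ^ i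
      have hgx' : g • x = ξ * x := RingOfIntegers.coe_injective (by
        change g (x : F₂) = (algebraMap K₀ F₂ ζ) ^ i * (x : F₂)
        rw [hi, div_mul_cancel₀ _ (RingOfIntegers.coe_ne_zero_iff.mpr hx0)])
      have hξ : ξ ^ p = 1 := RingOfIntegers.coe_injective (by
        change ((algebraMap K₀ F₂ ζ) ^ i) ^ p = 1
        rw [← pow_mul, mul_comm, pow_mul, hpr.pow_eq_one, one_pow])
      rw [hgx', ← sub_one_mul] at hgx
      rcases Q.isPrime.mem_or_mem hgx with h2 | h2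
      · rw [hgx', eq_one_of_sub_one_mem hξ hQp h2, one_mul]
      · exact absurd (hx ▸ Ideal.pow_mem_of_mem _ h2 p hp.pos) (hQq r hr)
    have htriv : ∀ g : F₂ ≃ₐ[K₀] F₂, (∀ (x : 𝓞 F₂) (r : ℕ), r = q ∨ r = q' → x ^ p = (r : 𝓞 F₂) →
        g • x - x ∈ Q.asIdeal) → g = 1 := by
      intro g hg
      refine algEquiv_ext_of_eq_adjoin (s := {θ, θ'}) rfl (fun y hy ↦ ?_)
      obtain ⟨r, hr, hy'⟩ : ∃ r : ℕ, (r = q ∨ r = q') ∧ y ^ p = (r : A) := by
        rcases hy with rfl | rfl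
        · exact ⟨q, Or.inl rfl, hθ⟩
        · exact ⟨q', Or.inr rfl, hθ'⟩
      let Y : F₂ := ⟨y, IntermediateField.subset_adjoin _ _ hy⟩
      have hY : Y ^ p = (r : F₂) := Subtype.ext (by simpa [Y] using hy')
      let Y' : 𝓞 F₂ := ⟨Y, IsIntegral.of_pow hp.pos (hY ▸ isIntegral_natCast r)⟩
      have hY' : Y' ^ p = (r : 𝓞 F₂) := RingOfIntegers.coe_injective (by
        rw [map_pow, map_natCast]; exact hY)
      exact congrArg (fun z : 𝓞 F₂ ↦ (z : F₂)) (hfix g Y' r hr hY' (hg Y' r hr hY'))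
    have hpow : ∀ (x : 𝓞 F₂) (r : ℕ), r = q ∨ r = q' → x ^ p = (r : 𝓞 F₂) →
        x ^ Ideal.absNorm (underPrime K₀ F₂ Q).asIdeal - x ∈ Q.asIdeal := by
      intro x r hr hx
      obtain ⟨d, hd⟩ : ∃ d : 𝓞 K₀, d ^ p - (r : 𝓞 K₀) ∈ (underPrime K₀ F₂ Q).asIdeal := by
        rcases hr with rfl | rfl
        · exact ⟨c, hc⟩
        · exact ⟨c', hc'⟩
      -- `x ≡ ξ * d`, so it suffices to treat `d` and roots of unity
      have hxd : (x : 𝓞 F₂) ^ p - (algebraMap (𝓞 K₀) (𝓞 F₂) d) ^ p ∈ Q.asIdeal := by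
        rw [hx, ← map_pow, ← neg_mem_iff, neg_sub, ← map_natCast (algebraMap (𝓞 K₀) (𝓞 F₂)),
          ← map_sub]
        exact hd
      have := Q.isMaximal
      let _ := Ideal.Quotient.field Q.asIdeal
      rw [← Ideal.Quotient.eq, map_pow]
      rw [← Ideal.Quotient.eq, map_pow, map_pow] at hxd
      have hzint : IsIntegral ℤ ζ := hζ.isIntegral hp.pos
      let z : 𝓞 K₀ := ⟨ζ, hzint⟩
      let φ := (Ideal.Quotient.mk Q.asIdeal).comp (algebraMap (𝓞 K₀) (𝓞 F₂))
      -- every `p`-th root of `φ d ^ p` lies in the image of `φ`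
      have hz : IsPrimitiveRoot (φ z) p := by
        refine (IsPrimitiveRoot.iff_def _ _).mpr ⟨?_, fun l hl ↦ ?_⟩
        · rw [← map_pow, show z ^ p = 1 from RingOfIntegers.coe_injective hζ.pow_eq_one, map_one]
        · refine hζ.dvd_of_pow_eq_one l ?_
          have h2 : algebraMap (𝓞 K₀) (𝓞 F₂) (z ^ l) = 1 := by
            rw [← map_pow, ← map_one φ, RingHom.comp_apply, RingHom.comp_apply,
              Ideal.Quotient.eq, map_one] at hl
            refine eq_one_of_sub_one_mem (n := p) ?_ hQp hl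
            rw [← map_pow, ← pow_mul, mul_comm, pow_mul,
              show z ^ p = 1 from RingOfIntegers.coe_injective hζ.pow_eq_one, one_pow, map_one]
          have h3 : z ^ l = 1 :=
            FaithfulSMul.algebraMap_injective (𝓞 K₀) (𝓞 F₂) (h2.trans (map_one _).symm)
          exact congrArg (fun w : 𝓞 K₀ ↦ (w : K₀)) h3
      obtain ⟨w, hw⟩ : ∃ w : 𝓞 K₀, Ideal.Quotient.mk Q.asIdeal x = φ w := by
        by_cases hd0 : φ d = 0
        · refine ⟨0, ?_⟩
          rw [map_zero]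
          have h5 : Ideal.Quotient.mk Q.asIdeal x ^ p = 0 := by
            rw [hxd]
            change φ d ^ p = 0
            rw [hd0, zero_pow hp.ne_zero]
          exact pow_eq_zero_iff hp.ne_zero |>.mp h5
        · have h1 : (Ideal.Quotient.mk Q.asIdeal x / φ d) ^ p = 1 := by
            rw [div_pow, hxd]
            exact div_self (pow_ne_zero _ hd0)
          obtain ⟨l, -, hl⟩ := hz.eq_pow_of_pow_eq_one h1
          exact ⟨z ^ l * d, by rw [map_mul, map_pow, hl, div_mul_cancel₀ _ hd0]⟩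
      rw [hw, ← map_pow]
      exact Ideal.Quotient.eq.mpr (by
        rw [← map_sub]
        exact pow_absNorm_sub_self_mem (underPrime K₀ F₂ Q) w)
    have hI : Q.asIdeal.inertia (F₂ ≃ₐ[K₀] F₂) = ⊥ :=
      (Subgroup.eq_bot_iff_forall _).mpr fun g hg ↦ htriv g fun x _ _ _ ↦ hg x
    have hfrob : IsArithFrobAt (𝓞 K₀) (1 : F₂ ≃ₐ[K₀] F₂) Q.asIdeal := by
      obtain ⟨g, hg⟩ := exists_frobenius (K := K₀) (G := F₂ ≃ₐ[K₀] F₂) Q
      have h1 : g = 1 := htriv g fun x r hr hx ↦ by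
        have h2 := (isArithFrobAt_iff _ Q).mp hg x
        simpa using add_mem h2 (hpow x r hr hx)
      exact h1 ▸ hg
    rw [← IsGalois.card_aut_eq_finrank]
    exact card_le_ncard_of_frobenius_one Q hI hfrob
  -- choose the prime
  have hup' := (hup.union (upperDens_finite hbad)).union (upperDens_nonprime_norm (K := K₀))
  have hlt' : 1 / (Module.finrank K₀ F₂ : ℝ) + 0 + 0 < 1 / (Module.finrank K₀ F₁ : ℝ) := by
    rw [add_zero, add_zero]
    exact one_div_lt_one_div_of_lt (Nat.cast_pos.mpr Module.finrank_pos) (by exact_mod_cast hrank)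
  obtain ⟨P, hPq, hPn⟩ := exists_mem_diff hlow hup' hlt'
  simp only [Set.mem_union, Set.mem_sdiff, Set.mem_inter_iff, Set.mem_ofPred_eq] at hPn
  push Not at hPn
  obtain ⟨⟨hgood, hPb⟩, hPm⟩ := hPn
  set m := Ideal.absNorm P.asIdeal with hm
  have hPq' : P ∉ powerPrimes p q' := fun h ↦ hPb (hgood ⟨hPm, hPq, h⟩)
  have hne' : ∀ r : ℕ, r = q ∨ r = q' → m ≠ r := by
    intro r hr h
    apply hPb
    simp only [bad, Set.mem_ofPred_eq, Nat.cast_mul]
    rcases hr with rfl | rfl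
    · exact Ideal.mul_mem_right _ _ (Ideal.mul_mem_left _ _ (h ▸ absNorm_natCast_mem P))
    · exact Ideal.mul_mem_left _ _ (h ▸ absNorm_natCast_mem P)
  refine ⟨m, hPm, hne' q (Or.inl rfl), hne' q' (Or.inr rfl), ?_, ?_⟩
  · obtain ⟨c, hc⟩ := hPq
    obtain ⟨n, hn⟩ := exists_nat_sub_mem P hPm c
    refine ⟨(n : ZMod m), ?_⟩
    rw [← Nat.cast_pow]
    refine natCast_eq_of_sub_mem P hPm ?_
    push_cast
    obtain ⟨r, hr⟩ := sub_dvd_pow_sub_pow c (n : 𝓞 K₀) p
    have := sub_mem hc (show c ^ p - (n : 𝓞 K₀) ^ p ∈ P.asIdeal from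
      hr ▸ Ideal.mul_mem_right _ _ hn)
    simpa using this
  · rintro ⟨c, hc⟩
    have : NeZero m := ⟨hPm.ne_zero⟩
    refine hPq' ⟨(c.val : 𝓞 K₀), ?_⟩
    have h1 : ((c.val ^ p : ℕ) : ZMod m) = ((q' : ℕ) : ZMod m) := by
      rw [Nat.cast_pow, ZMod.natCast_val, ZMod.cast_id, hc]
    rw [← sub_eq_zero, ← Int.cast_natCast, ← Int.cast_natCast q', ← Int.cast_sub,
      ZMod.intCast_zmod_eq_zero_iff_dvd] at h1
    obtain ⟨k, hk⟩ := h1
    have h2 := congrArg (fun z : ℤ ↦ (z : 𝓞 K₀)) hk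
    push_cast at h2
    rw [h2]
    exact Ideal.mul_mem_right _ _ (absNorm_natCast_mem P)

end FermatAgent.CFT
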