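import Mathlib
import Fermat.Agent.CFT.Moduli

/-!
# Inertia in cyclotomic extensions and norms modulo a prime
-/

set_option autoImplicit false

noncomputable section

namespace FermatAgent.CFT

open NumberField IsDedekindDomain UniqueFactorizationMonoid
open scoped nonZeroDivisors

theorem natCast_zmod_eq_of_pow_eq {M : Type*} [CommMonoid M] {ζ : M} {n : ℕ} [NeZero n]
    (hζ : IsPrimitiveRoot ζ n) {a b : ℕ} (h : ζ ^ a = ζ ^ b) : (a : ZMod n) = (b : ZMod n) := by
  have h1 : ∀ c : ℕ, ζ ^ c = ζ ^ (c % n) := fun c ↦ by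
    conv_lhs => rw [← Nat.div_add_mod c n]
    rw [pow_add, pow_mul, hζ.pow_eq_one, one_pow, one_mul]
  rw [h1 a, h1 b] at h
  exact (ZMod.natCast_eq_natCast_iff' a b n).mpr
    (hζ.pow_inj (Nat.mod_lt _ (NeZero.pos n)) (Nat.mod_lt _ (NeZero.pos n)) h)

theorem associated_primitiveRoot_sub_one_pow {R : Type*} [CommRing R] [IsDomain R] {m : ℕ}
    [hm : Fact m.Prime] {ζ : R} (hζ : IsPrimitiveRoot ζ m) :
    Associated ((ζ - 1) ^ (m - 1)) (m : R) := by
  open Polynomial in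
  rw [← eval_one_cyclotomic_prime (R := R) (p := m),
    cyclotomic_eq_prod_X_sub_primitiveRoots hζ, eval_prod]
  simp only [Polynomial.eval_sub, Polynomial.eval_X, Polynomial.eval_C]
  rw [← Nat.totient_prime hm.out, ← hζ.card_primitiveRoots, ← Finset.prod_const]
  refine Associated.prod _ _ _ fun η hη ↦ ?_
  have : NeZero m := ⟨hm.out.ne_zero⟩
  obtain ⟨i, -, hi, hζη⟩ := hζ.isPrimitiveRoot_iff.mp (isPrimitiveRoot_of_mem_primitiveRoots hη)
  have h1 : Associated (ζ - 1) (η - 1) := hζη ▸ hζ.associated_sub_one_pow_sub_one_of_coprime hi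
  simpa using h1.neg_right

variable {F : Type*} [Field F] [NumberField F]

omit [NumberField F] in
theorem under_int_eq_span (P : HeightOneSpectrum (𝓞 F)) {m : ℕ} (hm : m.Prime)
    (h : (m : 𝓞 F) ∈ P.asIdeal) : P.asIdeal.under ℤ = Ideal.span {(m : ℤ)} := by
  have h1 : Ideal.span {(m : ℤ)} ≤ P.asIdeal.under ℤ := by
    rw [Ideal.span_singleton_le_iff_mem, Ideal.under, Ideal.mem_comap, map_natCast]
    exact h
  have : (Ideal.span {(m : ℤ)}).IsMaximal :=
    ((Ideal.span_singleton_prime (by exact_mod_cast hm.ne_zero)).mpr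
      (Nat.prime_iff_prime_int.mp hm)).isMaximal (by simpa using hm.ne_zero)
  exact (this.eq_of_le (Ideal.IsPrime.under ℤ P.asIdeal).ne_top h1).symm

/-- The absolute ramification index is at most the degree. -/
theorem ramificationIdx_int_le (P : HeightOneSpectrum (𝓞 F)) :
    P.asIdeal.ramificationIdx ℤ ≤ Module.finrank ℚ F := by
  classical
  let p₀ := P.asIdeal.under ℤ
  have hp0 : p₀ ≠ ⊥ := Ideal.IsIntegral.comap_ne_bot ℤ P.ne_bot
  have : p₀.IsPrime := Ideal.IsPrime.under ℤ P.asIdeal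
  obtain ⟨hfin, -⟩ := card_primesOver_le (K := F) p₀ hp0
  let _ : Fintype (p₀.primesOver (𝓞 F)) := hfin.fintype
  rw [← RingOfIntegers.rank, ← Ideal.sum_ramification_inertia_eq_finrank p₀ (𝓞 F)]
  let Q : p₀.primesOver (𝓞 F) := ⟨P.asIdeal, P.isPrime, ⟨rfl⟩⟩
  refine le_trans ?_ (Finset.single_le_sum (f := fun q : p₀.primesOver (𝓞 F) ↦
    q.1.ramificationIdx ℤ * q.1.inertiaDeg ℤ) (fun _ _ ↦ Nat.zero_le _) (Finset.mem_univ Q))
  have := P.isPrime
  exact Nat.le_mul_of_pos_right _ (Ideal.inertiaDeg_pos _ ℤ)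

theorem ramificationIdx_int_pos (P : HeightOneSpectrum (𝓞 F)) :
    0 < P.asIdeal.ramificationIdx ℤ :=
  have := P.isPrime
  Ideal.ramificationIdx_pos _ ℤ

/-- A primitive `m`-th root of unity forces `m - 1 ∣ e` above `m`. -/
theorem sub_one_dvd_ramificationIdx {m : ℕ} [hm : Fact m.Prime] {ζ : 𝓞 F}
    (hζ : IsPrimitiveRoot ζ m) (P : HeightOneSpectrum (𝓞 F)) (h : (m : 𝓞 F) ∈ P.asIdeal) :
    (m - 1) ∣ P.asIdeal.ramificationIdx ℤ := by
  classical
  have hu := under_int_eq_span P hm.out h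
  have : P.asIdeal.LiesOver (Ideal.span {(m : ℤ)}) := ⟨hu.symm⟩
  have hmap : (Ideal.span {(m : ℤ)}).map (algebraMap ℤ (𝓞 F)) =
      Ideal.span {ζ - 1} ^ (m - 1) := by
    rw [Ideal.map_span, Set.image_singleton, map_natCast, Ideal.span_singleton_pow,
      Ideal.span_singleton_eq_span_singleton]
    exact (associated_primitiveRoot_sub_one_pow hζ).symm
  have h0 : (Ideal.span {(m : ℤ)}).map (algebraMap ℤ (𝓞 F)) ≠ ⊥ :=
    Ideal.map_ne_bot_of_ne_bot (by simpa using hm.out.ne_zero)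
  rw [Ideal.IsDedekindDomain.ramificationIdx_eq_normalizedFactors_count (Ideal.span {(m : ℤ)}) P.asIdeal h0, hmap,
    normalizedFactors_pow, Multiset.count_nsmul]
  exact dvd_mul_right _ _

variable {K Ω : Type*} [Field K] [NumberField K] [Field Ω] [NumberField Ω] [Algebra K Ω]
  [IsGalois K Ω]

/-- `(m - 1) ∣ e(𝔪 / m) * #I`. -/
theorem sub_one_dvd_mul_card_inertia {m : ℕ} [hm : Fact m.Prime] {ζ : 𝓞 Ω}
    (hζ : IsPrimitiveRoot ζ m) (Q : HeightOneSpectrum (𝓞 Ω)) (h : (m : 𝓞 Ω) ∈ Q.asIdeal) :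
    (m - 1) ∣ (underPrime K Ω Q).asIdeal.ramificationIdx ℤ *
      Nat.card (Q.asIdeal.inertia (Ω ≃ₐ[K] Ω)) := by
  have := Q.isPrime
  have := (underPrime K Ω Q).isMaximal
  have : Q.asIdeal.LiesOver (underPrime K Ω Q).asIdeal := ⟨rfl⟩
  have : Finite (underPrime K Ω Q).asIdeal.ResidueField :=
    have := finite_quotient_prime (underPrime K Ω Q)
    Finite.of_surjective _
      (Ideal.bijective_algebraMap_quotient_residueField (underPrime K Ω Q).asIdeal).2
  rw [Ideal.card_inertia_eq_ramificationIdxIn (G := Ω ≃ₐ[K] Ω) (underPrime K Ω Q).asIdeal Q.asIdeal,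
    Ideal.ramificationIdxIn_eq_ramificationIdx (underPrime K Ω Q).asIdeal Q.asIdeal (Ω ≃ₐ[K] Ω),
    ← Ideal.ramificationIdx_tower (R := ℤ) (S := 𝓞 K)]
  exact sub_one_dvd_ramificationIdx hζ Q h

omit [IsGalois K Ω] in
theorem exists_sub_mem_of_pow_sub_mem (Q : HeightOneSpectrum (𝓞 Ω)) (x : 𝓞 Ω)
    (h : x ^ Ideal.absNorm (underPrime K Ω Q).asIdeal - x ∈ Q.asIdeal) :
    ∃ d : 𝓞 K, x - algebraMap (𝓞 K) (𝓞 Ω) d ∈ Q.asIdeal := by
  classical
  set P := underPrime K Ω Q with hP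
  have := finite_quotient_prime Q
  have := finite_quotient_prime P
  have := Q.isMaximal
  have := P.isMaximal
  have : Q.asIdeal.LiesOver P.asIdeal := ⟨rfl⟩
  let _ := Ideal.Quotient.field Q.asIdeal
  let _ := Ideal.Quotient.field P.asIdeal
  let _ : Fintype (𝓞 K ⧸ P.asIdeal) := Fintype.ofFinite _
  set q := Ideal.absNorm P.asIdeal with hq
  have hq1 : 1 < q := two_le_absNorm P
  let f : Polynomial (𝓞 Ω ⧸ Q.asIdeal) := Polynomial.X ^ q - Polynomial.X
  have hf : f ≠ 0 := FiniteField.X_pow_card_sub_X_ne_zero _ hq1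
  let S := Finset.univ.image (algebraMap (𝓞 K ⧸ P.asIdeal) (𝓞 Ω ⧸ Q.asIdeal))
  have hsub : S ⊆ f.roots.toFinset := by
    intro y hy
    obtain ⟨z, -, rfl⟩ := Finset.mem_image.mp hy
    simp only [Multiset.mem_toFinset, Polynomial.mem_roots hf, Polynomial.IsRoot, f,
      Polynomial.eval_sub, Polynomial.eval_pow, Polynomial.eval_X, sub_eq_zero]
    rw [← map_pow, hq, ← natCard_quotient_eq_absNorm, Nat.card_eq_fintype_card,
      FiniteField.pow_card]
  have hcard : f.roots.toFinset.card ≤ S.card := by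
    rw [Finset.card_image_of_injective _ (RingHom.injective _), Finset.card_univ,
      ← Nat.card_eq_fintype_card, natCard_quotient_eq_absNorm, ← hq]
    exact ((Multiset.toFinset_card_le _).trans (Polynomial.card_roots' f)).trans
      (le_of_eq (FiniteField.X_pow_card_sub_X_natDegree_eq _ hq1))
  have hx : Ideal.Quotient.mk Q.asIdeal x ∈ S := by
    rw [Finset.eq_of_subset_of_card_le hsub hcard]
    simp only [Multiset.mem_toFinset, Polynomial.mem_roots hf, Polynomial.IsRoot, f,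
      Polynomial.eval_sub, Polynomial.eval_pow, Polynomial.eval_X]
    rw [← map_pow, ← map_sub]
    exact Ideal.Quotient.eq_zero_iff_mem.mpr h
  obtain ⟨z, -, hz⟩ := Finset.mem_image.mp hx
  obtain ⟨d, rfl⟩ := Ideal.Quotient.mk_surjective z
  rw [Ideal.Quotient.algebraMap_mk_of_liesOver, Ideal.Quotient.eq] at hz
  exact ⟨d, by rw [← neg_mem_iff, neg_sub]; exact hz⟩

/-! ### Norms modulo a prime number -/

theorem norm_cast_eq_of_dvd_sub {m : ℕ} {x y : 𝓞 F} (h : (m : 𝓞 F) ∣ x - y) :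
    ((Algebra.norm ℤ x : ℤ) : ZMod m) = ((Algebra.norm ℤ y : ℤ) : ZMod m) := by
  classical
  obtain ⟨z, hz⟩ := h
  let b := RingOfIntegers.basis F
  have h1 : x = y + (m : ℤ) • z := by
    rw [zsmul_eq_mul, Int.cast_natCast, ← hz]; ring
  change (Int.castRingHom (ZMod m)) _ = (Int.castRingHom (ZMod m)) _
  rw [Algebra.norm_eq_matrix_det b, Algebra.norm_eq_matrix_det b,
    RingHom.map_det, RingHom.map_det, h1, map_add, map_zsmul]
  congr 1
  ext i j
  simp [RingHom.mapMatrix_apply, Matrix.map_apply, Matrix.add_apply, ← Matrix.diagonal_natCast,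
    Matrix.diagonal_mul]

/-- If `y` is congruent to a `p`-th power modulo every prime above `m` then its norm is a `p`-th
power modulo `m`. -/
theorem exists_pow_eq_norm_cast {m : ℕ} [hm : Fact m.Prime] {p : ℕ} {y β : 𝓞 F}
    (h : ∀ P : HeightOneSpectrum (𝓞 F), (m : 𝓞 F) ∈ P.asIdeal → y - β ^ p ∈ P.asIdeal) :
    ∃ c : ZMod m, c ^ p = ((Algebra.norm ℤ y : ℤ) : ZMod m) := by
  let I := Ideal.span {(m : 𝓞 F)}
  have hrad : y - β ^ p ∈ I.radical := by
    rw [Ideal.radical_eq_sInf, Submodule.mem_sInf]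
    rintro J ⟨hIJ, hJ⟩
    have hmJ : (m : 𝓞 F) ∈ J := hIJ (Ideal.mem_span_singleton_self _)
    have hJ0 : J ≠ ⊥ := fun h0 ↦ (Nat.cast_ne_zero.mpr hm.out.ne_zero : (m : 𝓞 F) ≠ 0)
      (by simpa [h0] using hmJ)
    exact h ⟨J, hJ, hJ0⟩ hmJ
  obtain ⟨k, hk⟩ := hrad
  have hk' : (y - β ^ p) ^ m ^ k ∈ I :=
    Ideal.pow_mem_of_pow_mem _ hk (Nat.lt_pow_self hm.out.one_lt).le
  by_cases htop : I = ⊤
  · obtain ⟨u, hu⟩ := (Ideal.span_singleton_eq_top.mp htop).map (Algebra.norm ℤ)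
    exfalso
    have h1 : IsUnit ((m : ℤ) ^ Module.finrank ℤ (𝓞 F)) := by
      rw [← Algebra.norm_algebraMap, map_natCast]; exact ⟨u, hu⟩
    rw [isUnit_pow_iff Module.finrank_pos.ne', Int.isUnit_iff] at h1
    have := hm.out.two_le
    omega
  have : CharP (𝓞 F ⧸ I) m := CharP.quotient (𝓞 F) m (by
    rw [mem_nonunits_iff]
    exact fun hu ↦ htop (Ideal.span_singleton_eq_top.mpr hu))
  have h2 : Ideal.Quotient.mk I (y ^ m ^ k) = Ideal.Quotient.mk I ((β ^ p) ^ m ^ k) := by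
    rw [← sub_eq_zero, map_pow, map_pow, ← sub_pow_char_pow, ← map_sub, ← map_pow,
      Ideal.Quotient.eq_zero_iff_mem]
    exact hk'
  rw [Ideal.Quotient.eq, Ideal.mem_span_singleton] at h2
  have h3 := norm_cast_eq_of_dvd_sub h2
  simp only [map_pow, Int.cast_pow, ZMod.pow_card_pow] at h3
  exact ⟨_, h3.symm⟩

end FermatAgent.CFT
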