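import Mathlib
import Fermat.Agent.CFT.Inertia
import Fermat.Agent.CFT.ClassHom

/-!
# Preparations for Artin's crossing argument
-/

set_option autoImplicit false

noncomputable section

namespace FermatAgent.CFT

open NumberField IsDedekindDomain
open scoped nonZeroDivisors Pointwise

section Groups

/-- A group of prime order is commutative. -/
theorem mul_comm_of_card_prime {G : Type*} [Group G] {p : ℕ} [Fact p.Prime]
    (h : Nat.card G = p) (a b : G) : a * b = b * a :=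
  have : IsCyclic G := isCyclic_of_prime_card h
  (IsCyclic.commGroup (α := G)).mul_comm a b

/-- A character of order `p` with a prescribed value at a non-`p`-th power. -/
theorem exists_char_of_not_pow {G : Type*} [Group G] {p : ℕ} [hp : Fact p.Prime]
    (hG : Nat.card G = p) {m : ℕ} [Fact m.Prime] (u : (ZMod m)ˣ)
    (hu : ¬ ∃ c : (ZMod m)ˣ, c ^ p = u) {f : ℕ} (hf : f.Coprime p) (t : G) :
    ∃ φ : (ZMod m)ˣ →* G, φ (u ^ f) = t := by
  obtain ⟨s, hs⟩ := (powCoprime (n := f) (G := G) (by rw [hG]; exact hf.symm)).surjective t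
  rw [powCoprime_apply] at hs
  let S : Subgroup (ZMod m)ˣ := (powMonoidHom p).range
  let w : (ZMod m)ˣ ⧸ S := QuotientGroup.mk u
  have hw : w ≠ 1 := fun h ↦ hu ((QuotientGroup.eq_one_iff u).mp h)
  have hcyc : IsCyclic ((ZMod m)ˣ ⧸ S) :=
    isCyclic_of_surjective (QuotientGroup.mk' S) (QuotientGroup.mk'_surjective S)
  have hexp : Monoid.exponent ((ZMod m)ˣ ⧸ S) ∣ p := by
    refine Monoid.exponent_dvd_of_forall_pow_eq_one fun x ↦ ?_
    induction x using QuotientGroup.induction_on with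
    | H x => rw [← QuotientGroup.mk_pow, QuotientGroup.eq_one_iff]; exact ⟨x, rfl⟩
  rw [IsCyclic.exponent_eq_card] at hexp
  have hcard : Nat.card ((ZMod m)ˣ ⧸ S) = p := by
    refine ((Nat.dvd_prime hp.out).mp hexp).resolve_left fun h ↦ hw ?_
    have := (Nat.card_eq_one_iff_unique.mp h).1
    exact Subsingleton.elim _ _
  have hgen : ∀ x : (ZMod m)ˣ ⧸ S, x ∈ Subgroup.zpowers w := fun x ↦
    mem_zpowers_of_prime_card hcard hw
  have hord : orderOf s ∣ orderOf w := by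
    rw [orderOf_eq_card_of_forall_mem_zpowers hgen, hcard, ← hG]
    exact orderOf_dvd_natCard s
  refine ⟨(monoidHomOfForallMemZpowers hgen hord).comp (QuotientGroup.mk' S), ?_⟩
  rw [MonoidHom.comp_apply, map_pow, map_pow]
  rw [show QuotientGroup.mk' S u = w from rfl, monoidHomOfForallMemZpowers_apply_gen, hs]

/-- `(ZMod n)ˣ` injects in the product for coprime factors. -/
theorem eq_one_of_unitsMap_eq_one {n m b : ℕ} [NeZero n] (hn : n = m * b) (hc : m.Coprime b)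
    (u : (ZMod n)ˣ) (hm : ZMod.unitsMap (hn ▸ dvd_mul_right m b : m ∣ n) u = 1)
    (hb : ZMod.unitsMap (hn ▸ dvd_mul_left b m : b ∣ n) u = 1) : u = 1 := by
  subst hn
  have : NeZero m := ⟨(mul_ne_zero_iff.mp (NeZero.ne (m * b))).1⟩
  have : NeZero b := ⟨(mul_ne_zero_iff.mp (NeZero.ne (m * b))).2⟩
  have h1 := congrArg Units.val hm
  have h2 := congrArg Units.val hb
  simp only [ZMod.unitsMap_val, Units.val_one] at h1 h2
  rw [← ZMod.natCast_zmod_val (u : ZMod (m * b)), ZMod.cast_natCast (dvd_mul_right m b)] at h1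
  rw [← ZMod.natCast_zmod_val (u : ZMod (m * b)), ZMod.cast_natCast (dvd_mul_left b m)] at h2
  rw [← Nat.cast_one, ZMod.natCast_eq_natCast_iff] at h1 h2
  ext
  rw [Units.val_one, ← ZMod.natCast_zmod_val (u : ZMod (m * b)), ← Nat.cast_one,
    ZMod.natCast_eq_natCast_iff]
  exact (Nat.modEq_and_modEq_iff_modEq_mul hc).mp ⟨h1, h2⟩

end Groups

section Moving

variable {E : Type*} [Field E] [NumberField E]

/-- Every ideal class contains an ideal prime to `n`. -/
theorem exists_coprime_rep {n : ℕ} (hn : 1 < n) (c : ClassGroup (𝓞 E)) :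
    ∃ B : (Ideal (𝓞 E))⁰, ClassGroup.mk0 B = c ∧ (B : Ideal (𝓞 E)) ⊔ Ideal.span {(n : 𝓞 E)} = ⊤ := by
  obtain ⟨A, hA⟩ := ClassGroup.mk0_surjective c⁻¹
  have hA0 : (A : Ideal (𝓞 E)) ≠ ⊥ := nonZeroDivisors.ne_zero A.2
  have hn0 : Ideal.span {(n : 𝓞 E)} ≠ ⊥ := by
    simp only [ne_eq, Ideal.span_singleton_eq_bot, Nat.cast_eq_zero]; omega
  obtain ⟨a, ha⟩ := IsDedekindDomain.exists_sup_span_eq
    (I := (A : Ideal (𝓞 E)) * Ideal.span {(n : 𝓞 E)}) (J := A) Ideal.mul_le_left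
    (mul_ne_zero hA0 hn0)
  have haA : a ∈ (A : Ideal (𝓞 E)) := by
    rw [← ha]
    exact Ideal.mem_sup_right (Ideal.mem_span_singleton_self a)
  have ha0 : a ≠ 0 := by
    rintro rfl
    rw [Set.singleton_zero, Ideal.span_zero, sup_bot_eq] at ha
    have h1 := congrArg Ideal.absNorm ha
    rw [map_mul, Ideal.absNorm_span_singleton] at h1
    have h2 : (Algebra.norm ℤ (n : 𝓞 E)).natAbs = n ^ Module.finrank ℤ (𝓞 E) := by
      rw [← map_natCast (algebraMap ℤ (𝓞 E)), Algebra.norm_algebraMap, Int.natAbs_pow]; rfl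
    rw [h2] at h1
    have h3 : Ideal.absNorm (A : Ideal (𝓞 E)) ≠ 0 := fun h ↦ hA0 (Ideal.absNorm_eq_zero_iff.mp h)
    have h4 := (mul_eq_left₀ h3).mp h1
    have := Nat.one_lt_pow (Module.finrank_pos (R := ℤ) (M := 𝓞 E)).ne' hn
    omega
  obtain ⟨B, hB⟩ := Ideal.dvd_iff_le.mpr ((Ideal.span_singleton_le_iff_mem _).mpr haA)
  have hB0 : B ≠ ⊥ := fun h ↦ ha0 (by rw [h, Ideal.mul_bot] at hB; simpa using hB)
  refine ⟨⟨B, mem_nonZeroDivisors_of_ne_zero hB0⟩, ?_, ?_⟩
  · have h1 : ClassGroup.mk0 (A * ⟨B, mem_nonZeroDivisors_of_ne_zero hB0⟩) = 1 := by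
      rw [ClassGroup.mk0_eq_one_iff]
      exact ⟨⟨a, show (A : Ideal (𝓞 E)) * B = _ from hB.symm⟩⟩
    rw [map_mul, hA, inv_mul_eq_one] at h1
    exact h1.symm
  · rw [hB, ← Ideal.mul_sup] at ha
    have := mul_left_cancel₀ hA0 (ha.trans (mul_one _).symm)
    rw [sup_comm]
    simpa [Ideal.one_eq_top] using this

/-- An ideal prime to `n` has norm prime to `n`. -/
theorem isUnit_absNorm_of_coprime {n : ℕ} {B : Ideal (𝓞 E)}
    (h : B ⊔ Ideal.span {(n : 𝓞 E)} = ⊤) : IsUnit ((Ideal.absNorm B : ℕ) : ZMod n) := by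
  obtain ⟨b, hb, z, hz, hbz⟩ := Submodule.mem_sup.mp ((Ideal.eq_top_iff_one _).mp h)
  obtain ⟨x, rfl⟩ := Ideal.mem_span_singleton.mp hz
  have h1 := norm_cast_eq_of_dvd_sub (m := n) (x := b) (y := 1) ⟨-x, by rw [← hbz]; ring⟩
  rw [map_one, Int.cast_one] at h1
  obtain ⟨k, hk⟩ := Ideal.absNorm_dvd_norm_of_mem hb
  rw [hk, Int.cast_mul, Int.cast_natCast] at h1
  exact IsUnit.of_mul_eq_one _ h1

/-- A prime ideal not containing `n` is prime to `n`. -/
theorem sup_span_natCast_eq_top {n : ℕ} (P : HeightOneSpectrum (𝓞 E))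
    (h : (n : 𝓞 E) ∉ P.asIdeal) : P.asIdeal ⊔ Ideal.span {(n : 𝓞 E)} = ⊤ :=
  P.isMaximal.out.2 _ (lt_of_le_of_ne le_sup_left fun he ↦ h (by
    rw [he]; exact Ideal.mem_sup_right (Ideal.mem_span_singleton_self _)))

end Moving

variable {K L : Type*} [Field K] [NumberField K] [Field L] [NumberField L] [Algebra K L]
  [IsGalois K L]

/-- The Frobenius at a chosen prime above `P`. -/
def artinSymbol (P : HeightOneSpectrum (𝓞 K)) : L ≃ₐ[K] L :=
  Classical.choose (exists_frobenius (G := L ≃ₐ[K] L) (K := K)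
    (Classical.choose (exists_underPrime_eq (L := L) P)))

variable {p : ℕ} [Fact p.Prime]

theorem isArithFrobAt_artinSymbol (hdeg : Module.finrank K L = p)
    (Q : HeightOneSpectrum (𝓞 L)) :
    IsArithFrobAt (𝓞 K) (artinSymbol (L := L) (underPrime K L Q)) Q.asIdeal := by
  set P := underPrime K L Q with hP
  set Q₀ := Classical.choose (exists_underPrime_eq (L := L) P) with hQ₀
  have h0 : underPrime K L Q₀ = P := Classical.choose_spec (exists_underPrime_eq (L := L) P)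
  have h1 : IsArithFrobAt (𝓞 K) (artinSymbol (L := L) P) Q₀.asIdeal :=
    Classical.choose_spec (exists_frobenius (G := L ≃ₐ[K] L) (K := K) Q₀)
  obtain ⟨g, hg⟩ := exists_smul_eq_of_underPrime_eq (G := L ≃ₐ[K] L) Q₀ Q h0
  have h2 := h1.conj g
  rw [mul_comm_of_card_prime (p := p) ((IsGalois.card_aut_eq_finrank K L).trans hdeg) g,
    mul_inv_cancel_right, hg] at h2
  exact h2

theorem eq_artinSymbol (hdeg : Module.finrank K L = p)
    (hunr : ∀ Q : HeightOneSpectrum (𝓞 L), Q.asIdeal.inertia (L ≃ₐ[K] L) = ⊥)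
    (Q : HeightOneSpectrum (𝓞 L)) {σ : L ≃ₐ[K] L} (h : IsArithFrobAt (𝓞 K) σ Q.asIdeal) :
    σ = artinSymbol (underPrime K L Q) :=
  frobenius_unique Q (hunr Q) h (isArithFrobAt_artinSymbol hdeg Q)

variable (K L) in
/-- `Cl K → Cl K / N(Cl L)`. -/
def normQuot : ClassGroup (𝓞 K) →* ClassGroup (𝓞 K) ⧸ (normClass K L).range :=
  QuotientGroup.mk' _

theorem normQuot_eq_one_of_artinSymbol (hdeg : Module.finrank K L = p)
    (P : HeightOneSpectrum (𝓞 K)) (h : artinSymbol (L := L) P = 1) :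
    normQuot K L (primeClass P) = 1 := by
  obtain ⟨Q, rfl⟩ := exists_underPrime_eq (L := L) P
  exact (QuotientGroup.eq_one_iff _).mpr (primeClass_mem_range_normClass K L rfl
    (absNorm_eq_of_frobenius_one (G := L ≃ₐ[K] L) Q
      (h ▸ isArithFrobAt_artinSymbol hdeg Q)))

/-! ### An auxiliary extension containing roots of unity -/

variable {Ω : Type*} [Field Ω] [NumberField Ω] [Algebra L Ω] [Algebra K Ω] [IsScalarTower K L Ω]
  [IsGalois K Ω]

omit [NumberField Ω] [NumberField L] [NumberField K] [IsGalois K Ω] in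
theorem restrict_commutes (g : Ω ≃ₐ[K] Ω) (x : L) :
    algebraMap L Ω (AlgEquiv.restrictNormalHom L g x) = g (algebraMap L Ω x) :=
  AlgEquiv.restrictNormal_commutes g L x

omit [IsGalois K Ω] in
omit [NumberField K] [NumberField L] [NumberField Ω] in
theorem restrict_smul_commutes (g : Ω ≃ₐ[K] Ω) (x : 𝓞 L) :
    algebraMap (𝓞 L) (𝓞 Ω) (AlgEquiv.restrictNormalHom L g • x) =
      g • algebraMap (𝓞 L) (𝓞 Ω) x :=
  RingOfIntegers.coe_injective (restrict_commutes g (x : L))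

omit [IsGalois K L] [IsGalois K Ω] in
omit [NumberField K] [NumberField L] [NumberField Ω] in
theorem underPrime_underPrime (Q : HeightOneSpectrum (𝓞 Ω)) :
    underPrime K L (underPrime L Ω Q) = underPrime K Ω Q :=
  HeightOneSpectrum.ext (Ideal.under_under (B := 𝓞 L) Q.asIdeal)

theorem restrict_frobenius (hdeg : Module.finrank K L = p)
    (hunr : ∀ Q : HeightOneSpectrum (𝓞 L), Q.asIdeal.inertia (L ≃ₐ[K] L) = ⊥)
    (Q : HeightOneSpectrum (𝓞 Ω)) (g : Ω ≃ₐ[K] Ω) (h : IsArithFrobAt (𝓞 K) g Q.asIdeal) :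
    AlgEquiv.restrictNormalHom L g = artinSymbol (underPrime K Ω Q) := by
  rw [← underPrime_underPrime (L := L) Q]
  refine eq_artinSymbol hdeg hunr _ ((isArithFrobAt_iff _ _).mpr fun x ↦ ?_)
  rw [underPrime_underPrime, underPrime_asIdeal, Ideal.mem_comap, map_sub, map_pow,
    restrict_smul_commutes]
  exact (isArithFrobAt_iff (Ω ≃ₐ[K] Ω) Q).mp h _

omit [NumberField K] [IsGalois K Ω] [NumberField L] [NumberField Ω] in
theorem restrict_eq_one_of_mem_inertia
    (hunr : ∀ Q : HeightOneSpectrum (𝓞 L), Q.asIdeal.inertia (L ≃ₐ[K] L) = ⊥)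
    (Q : HeightOneSpectrum (𝓞 Ω)) (g : Ω ≃ₐ[K] Ω) (h : g ∈ Q.asIdeal.inertia (Ω ≃ₐ[K] Ω)) :
    AlgEquiv.restrictNormalHom L g = (1 : L ≃ₐ[K] L) := by
  rw [← Subgroup.mem_bot, ← hunr (underPrime L Ω Q)]
  intro x
  change _ ∈ (underPrime L Ω Q).asIdeal
  rw [underPrime_asIdeal, Ideal.mem_comap, map_sub, restrict_smul_commutes]
  exact h _

variable {n : ℕ} [NeZero n] {ζ : Ω}

omit [NumberField L] [NumberField K] [IsGalois K Ω] [NumberField Ω] in
theorem eq_one_of_restrict_eq_one [IsCyclotomicExtension {n} L Ω] (hζ : IsPrimitiveRoot ζ n)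
    (g : Ω ≃ₐ[K] Ω) (h1 : AlgEquiv.restrictNormalHom L g = (1 : L ≃ₐ[K] L))
    (h2 : hζ.autToPow K g = 1) : g = 1 := by
  refine AlgEquiv.ext fun x ↦ ?_
  have hx : x ∈ Algebra.adjoin L ({ζ} : Set Ω) := by
    rw [IsCyclotomicExtension.adjoin_primitive_root_eq_top hζ]; exact Algebra.mem_top
  change g x = x
  induction hx using Algebra.adjoin_induction with
  | mem y hy =>
    rw [Set.mem_singleton_iff] at hy
    subst hy
    rw [← hζ.autToPow_spec K g, h2, Units.val_one]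
    rcases eq_or_ne n 1 with rfl | hn
    · simp [IsPrimitiveRoot.one_right_iff.mp hζ]
    · have : Fact (1 < n) := ⟨by have := NeZero.ne n; omega⟩
      rw [ZMod.val_one, pow_one]
  | algebraMap r => rw [← restrict_commutes, h1]; rfl
  | add a b _ _ ha hb => rw [map_add, ha, hb]
  | mul a b _ _ ha hb => rw [map_mul, ha, hb]

theorem autToPow_frobenius (hζ : IsPrimitiveRoot ζ n) (Q : HeightOneSpectrum (𝓞 Ω))
    (g : Ω ≃ₐ[K] Ω) (h : IsArithFrobAt (𝓞 K) g Q.asIdeal) (hn : (n : 𝓞 Ω) ∉ Q.asIdeal) :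
    (hζ.autToPow K g : ZMod n) =
      ((Ideal.absNorm (underPrime K Ω Q).asIdeal : ℕ) : ZMod n) := by
  let z : 𝓞 Ω := hζ.toInteger
  have hz : z ^ n = 1 := hζ.toInteger_isPrimitiveRoot.pow_eq_one
  have h1 : MulSemiringAction.toAlgHom (𝓞 K) (𝓞 Ω) g z =
      z ^ Nat.card (𝓞 K ⧸ Q.asIdeal.under (𝓞 K)) :=
    AlgHom.IsArithFrobAt.apply_of_pow_eq_one h hz hn
  rw [natCard_quotient_eq_absNorm] at h1
  have h2 := congrArg (fun w : 𝓞 Ω ↦ (w : Ω)) h1
  simp only [map_pow] at h2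
  change g ζ = ζ ^ Ideal.absNorm (underPrime K Ω Q).asIdeal at h2
  rw [← hζ.autToPow_spec K g] at h2
  rw [← natCast_zmod_eq_of_pow_eq hζ h2, ZMod.natCast_zmod_val]

omit [Fact p.Prime] [NumberField L] in
/-- The key inertia element. -/
theorem exists_inertia_element [IsCyclotomicExtension {n} L Ω] (hζ : IsPrimitiveRoot ζ n)
    {G : Type*} [Group G] (hG : Nat.card G = p) (hK : Module.finrank ℚ K < p)
    (hunr : ∀ Q : HeightOneSpectrum (𝓞 L), Q.asIdeal.inertia (L ≃ₐ[K] L) = ⊥)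
    {m b : ℕ} [hm : Fact m.Prime] (hn : n = m * b) (hc : m.Coprime b)
    (φ : (ZMod m)ˣ →* G) (hφ : Function.Surjective φ)
    (Q : HeightOneSpectrum (𝓞 Ω)) (hQ : (m : 𝓞 Ω) ∈ Q.asIdeal) :
    ∃ g ∈ Q.asIdeal.inertia (Ω ≃ₐ[K] Ω), AlgEquiv.restrictNormalHom L g = (1 : L ≃ₐ[K] L) ∧
      ZMod.unitsMap (hn ▸ dvd_mul_left b m : b ∣ n) (hζ.autToPow K g) = 1 ∧
      φ (ZMod.unitsMap (hn ▸ dvd_mul_right m b : m ∣ n) (hζ.autToPow K g)) ≠ 1 := by
  subst hn
  have : NeZero b := ⟨(mul_ne_zero_iff.mp (NeZero.ne (m * b))).2⟩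
  let I := Q.asIdeal.inertia (Ω ≃ₐ[K] Ω)
  let χ := hζ.autToPow K
  have hb : ∀ g ∈ I, ZMod.unitsMap (dvd_mul_left b m) (χ g) = 1 := by
    intro g hg
    have hbQ : ((b : ℕ) : 𝓞 Ω) ∉ Q.asIdeal := fun h ↦ Q.isPrime.ne_top
      ((Ideal.eq_top_iff_one _).mpr (by
        obtain ⟨u, v, huv⟩ := (Nat.isCoprime_iff_coprime.mpr hc).map (algebraMap ℤ (𝓞 Ω))
        rw [← huv]
        exact add_mem (Ideal.mul_mem_left _ _ (by simpa using hQ))
          (Ideal.mul_mem_left _ _ (by simpa using h))))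
    let η : 𝓞 Ω := hζ.toInteger ^ m
    have hη : IsPrimitiveRoot η b :=
      hζ.toInteger_isPrimitiveRoot.pow (Nat.pos_of_ne_zero (NeZero.ne _)) rfl
    have hgη : g • η = η ^ (χ g : ZMod (m * b)).val := RingOfIntegers.coe_injective (by
      change g (ζ ^ m) = (ζ ^ m) ^ (χ g : ZMod (m * b)).val
      rw [map_pow, ← hζ.autToPow_spec K g, ← pow_mul, ← pow_mul, mul_comm])
    set a := (χ g : ZMod (m * b)).val
    have h1 : η * (η ^ (a + (b - 1)) - 1) ∈ Q.asIdeal := by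
      have : η * (η ^ (a + (b - 1)) - 1) = g • η - η := by
        rw [hgη, mul_sub, mul_one, ← pow_succ', show a + (b - 1) + 1 = a + b by
          have := NeZero.pos b; omega, pow_add, hη.pow_eq_one, mul_one]
      rw [this]
      exact hg η
    have hηQ : η ∉ Q.asIdeal := fun h ↦ Q.isPrime.ne_top
      (Ideal.eq_top_of_isUnit_mem _ h (hη.isUnit (NeZero.ne b)))
    have h2 := eq_one_of_sub_one_mem (n := b) (by rw [← pow_mul, mul_comm, pow_mul, hη.pow_eq_one,
      one_pow]) hbQ ((Q.isPrime.mem_or_mem h1).resolve_left hηQ)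
    have h3 := natCast_zmod_eq_of_pow_eq hη
      (show η ^ (a + (b - 1)) = η ^ 0 by rw [h2, pow_zero])
    have h4 : (a : ZMod b) = 1 := by
      have hb1 : ((b - 1 : ℕ) : ZMod b) = -1 := by
        rw [Nat.cast_sub (NeZero.pos b), ZMod.natCast_self, zero_sub, Nat.cast_one]
      rw [Nat.cast_add, hb1, Nat.cast_zero, ← sub_eq_add_neg, sub_eq_zero] at h3
      exact h3
    ext
    rw [ZMod.unitsMap_val, Units.val_one, ← ZMod.natCast_zmod_val (χ g : ZMod (m * b)),
      ZMod.cast_natCast (dvd_mul_left b m)]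
    exact h4
  by_contra hcon
  push Not at hcon
  let f : I →* φ.ker :=
    (((ZMod.unitsMap (dvd_mul_right m b)).comp χ).comp I.subtype).codRestrict _ fun g ↦
      hcon g g.2 (restrict_eq_one_of_mem_inertia hunr Q g g.2) (hb g g.2)
  have hf : Function.Injective f := by
    rw [injective_iff_map_eq_one]
    intro g hg
    have h1 : ZMod.unitsMap (dvd_mul_right m b) (χ g) = 1 := congrArg Subtype.val hg
    exact Subtype.ext (eq_one_of_restrict_eq_one hζ _
      (restrict_eq_one_of_mem_inertia hunr Q g g.2)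
      (eq_one_of_unitsMap_eq_one rfl hc _ h1 (hb g g.2)))
  have hdvd : Nat.card I ∣ Nat.card φ.ker := Subgroup.card_dvd_of_injective f hf
  have hker : Nat.card φ.ker * p = m - 1 := by
    rw [← hG, ← Subgroup.card_top (G := G), ← MonoidHom.range_eq_top.mpr hφ,
      ← Subgroup.index_ker φ, Subgroup.card_mul_index, Nat.card_units, Nat.card_zmod]
  have hζm : IsPrimitiveRoot (hζ.toInteger ^ b) m :=
    hζ.toInteger_isPrimitiveRoot.pow (Nat.pos_of_ne_zero (NeZero.ne _)) (mul_comm m b)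
  have h1 := (sub_one_dvd_mul_card_inertia (K := K) hζm Q hQ).trans (mul_dvd_mul_left _ hdvd)
  rw [← hker, mul_comm (Nat.card φ.ker) p, Nat.mul_dvd_mul_iff_right Nat.card_pos] at h1
  have := Nat.le_of_dvd (ramificationIdx_int_pos (underPrime K Ω Q)) h1
  have := ramificationIdx_int_le (underPrime K Ω Q)
  omega

end FermatAgent.CFT
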