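import Mathlib
import Fermat.Agent.CFT.CrossingBase

/-!
# Artin's crossing argument
-/

set_option autoImplicit false

noncomputable section

namespace FermatAgent.CFT

open NumberField IsDedekindDomain
open scoped nonZeroDivisors Pointwise

section Generic

variable {E : Type*} [Field E] [NumberField E]

/-- A character of norms prime to `n` that kills principal ideals descends to the class group. -/
theorem exists_classHom_of_norm {n : ℕ} (hn : 1 < n) {G : Type*} [Group G]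
    (Φ : (ZMod n)ˣ →* G)
    (hprin : ∀ (α : 𝓞 E) (h : Ideal.span {α} ⊔ Ideal.span {(n : 𝓞 E)} = ⊤),
      Φ (isUnit_absNorm_of_coprime h).unit = 1) :
    ∃ Λ : ClassGroup (𝓞 E) →* G, ∀ (B : (Ideal (𝓞 E))⁰)
      (h : (B : Ideal (𝓞 E)) ⊔ Ideal.span {(n : 𝓞 E)} = ⊤),
      Λ (ClassGroup.mk0 B) = Φ (isUnit_absNorm_of_coprime h).unit := by
  have hmul : ∀ (B C : Ideal (𝓞 E)) (hB : B ⊔ Ideal.span {(n : 𝓞 E)} = ⊤)
      (hC : C ⊔ Ideal.span {(n : 𝓞 E)} = ⊤),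
      ∃ h : B * C ⊔ Ideal.span {(n : 𝓞 E)} = ⊤, Φ (isUnit_absNorm_of_coprime h).unit =
        Φ (isUnit_absNorm_of_coprime hB).unit * Φ (isUnit_absNorm_of_coprime hC).unit := by
    intro B C hB hC
    have h : B * C ⊔ Ideal.span {(n : 𝓞 E)} = ⊤ := by
      rw [sup_comm] at hB hC ⊢
      rw [Ideal.sup_mul_eq_of_coprime_left hB, hC]
    refine ⟨h, ?_⟩
    rw [← map_mul]
    congr 1
    ext
    simp
  have hsame : ∀ (B B' : (Ideal (𝓞 E))⁰) (hB : (B : Ideal (𝓞 E)) ⊔ Ideal.span {(n : 𝓞 E)} = ⊤)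
      (hB' : (B' : Ideal (𝓞 E)) ⊔ Ideal.span {(n : 𝓞 E)} = ⊤),
      ClassGroup.mk0 B = ClassGroup.mk0 B' →
        Φ (isUnit_absNorm_of_coprime hB).unit = Φ (isUnit_absNorm_of_coprime hB').unit := by
    intro B B' hB hB' heq
    obtain ⟨D, hD, hDn⟩ := exists_coprime_rep hn (ClassGroup.mk0 B)⁻¹
    have key : ∀ (C : (Ideal (𝓞 E))⁰) (hC : (C : Ideal (𝓞 E)) ⊔ Ideal.span {(n : 𝓞 E)} = ⊤),
        ClassGroup.mk0 C = ClassGroup.mk0 B →
          Φ (isUnit_absNorm_of_coprime hC).unit * Φ (isUnit_absNorm_of_coprime hDn).unit = 1 := by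
      intro C hC hCB
      obtain ⟨h, he⟩ := hmul _ _ hC hDn
      have h1 : ClassGroup.mk0 (C * D) = 1 := by rw [map_mul, hD, hCB, mul_inv_cancel]
      obtain ⟨α, hα⟩ := (ClassGroup.mk0_eq_one_iff (C * D).2).mp h1
      have hα' : (C : Ideal (𝓞 E)) * D = Ideal.span {α} := hα
      have h' : Ideal.span {α} ⊔ Ideal.span {(n : 𝓞 E)} = ⊤ := hα' ▸ h
      rw [← he]
      refine (congrArg Φ (Units.ext ?_)).trans (hprin α h')
      simp only [IsUnit.unit_spec, hα']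
    exact mul_right_cancel ((key B hB rfl).trans (key B' hB' heq.symm).symm)
  choose rep hrep hrepn using fun c : ClassGroup (𝓞 E) ↦ exists_coprime_rep hn c
  refine ⟨MonoidHom.mk' (fun c ↦ Φ (isUnit_absNorm_of_coprime (hrepn c)).unit) (fun c d ↦ ?_),
    fun B h ↦ hsame _ B (hrepn _) h (hrep _)⟩
  obtain ⟨h, he⟩ := hmul _ _ (hrepn c) (hrepn d)
  rw [← he]
  exact hsame (rep (c * d)) (rep c * rep d) (hrepn _) h (by rw [map_mul, hrep, hrep, hrep])

end Generic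

section NormMod

variable {K Ω : Type*} [Field K] [NumberField K] [Field Ω] [NumberField Ω] [Algebra K Ω]
  [IsGalois K Ω]

/-- If Galois acts trivially on `E` modulo the primes above `m` then norms from `E` are `p`-th
powers modulo `m`. -/
theorem exists_pow_eq_absNorm_span {p : ℕ} [Fact p.Prime] (hp : p ≠ 2)
    (E : IntermediateField K Ω) [IsGalois K E] (hE : Module.finrank K E = p)
    {m : ℕ} [hm : Fact m.Prime]
    (hfix : ∀ Q : HeightOneSpectrum (𝓞 Ω), (m : 𝓞 Ω) ∈ Q.asIdeal → ∀ (g : Ω ≃ₐ[K] Ω) (x : 𝓞 E),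
      g • algebraMap (𝓞 E) (𝓞 Ω) x - algebraMap (𝓞 E) (𝓞 Ω) x ∈ Q.asIdeal)
    (α : 𝓞 E) :
    ∃ c : ZMod m, c ^ p = ((Ideal.absNorm (Ideal.span {α}) : ℕ) : ZMod m) := by
  classical
  let y : 𝓞 K := RingOfIntegers.norm K α
  have hy : algebraMap (𝓞 K) (𝓞 E) y = ∏ σ : E ≃ₐ[K] E, σ • α := by
    refine RingOfIntegers.coe_injective ?_
    rw [map_prod]
    change algebraMap K E (y : K) = ∏ σ : E ≃ₐ[K] E, σ (α : E)
    rw [show (y : K) = Algebra.norm K (α : E) from rfl, Algebra.norm_eq_prod_automorphisms]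
  have key : ∀ P : HeightOneSpectrum (𝓞 K), (m : 𝓞 K) ∈ P.asIdeal →
      ∃ d : 𝓞 K, y - d ^ p ∈ P.asIdeal ∧ ∃ Q : HeightOneSpectrum (𝓞 Ω),
        underPrime K Ω Q = P ∧
          algebraMap (𝓞 E) (𝓞 Ω) α - algebraMap (𝓞 K) (𝓞 Ω) d ∈ Q.asIdeal := by
    intro P hP
    obtain ⟨Q, rfl⟩ := exists_underPrime_eq (L := Ω) P
    have hQ : (m : 𝓞 Ω) ∈ Q.asIdeal := by
      rw [← map_natCast (algebraMap (𝓞 K) (𝓞 Ω))]; exact hP
    set a := algebraMap (𝓞 E) (𝓞 Ω) α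
    obtain ⟨g, hg⟩ := exists_frobenius (G := Ω ≃ₐ[K] Ω) (K := K) Q
    obtain ⟨d, hd⟩ := exists_sub_mem_of_pow_sub_mem (K := K) Q a (by
      have h1 := sub_mem (hfix Q hQ g α) ((isArithFrobAt_iff (Ω ≃ₐ[K] Ω) Q).mp hg a)
      rwa [sub_sub_sub_cancel_left] at h1)
    refine ⟨d, ?_, Q, rfl, hd⟩
    rw [underPrime_asIdeal, Ideal.mem_comap, map_sub, ← Ideal.Quotient.eq, map_pow, map_pow,
      IsScalarTower.algebraMap_apply (𝓞 K) (𝓞 E) (𝓞 Ω), hy, map_prod, map_prod,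
      ← Ideal.Quotient.eq.mpr hd]
    have h2 : ∀ σ : E ≃ₐ[K] E, Ideal.Quotient.mk Q.asIdeal (algebraMap (𝓞 E) (𝓞 Ω) (σ • α)) =
        Ideal.Quotient.mk Q.asIdeal a := by
      intro σ
      rw [Ideal.Quotient.eq]
      have h3 : algebraMap (𝓞 E) (𝓞 Ω) (σ • α) = σ.liftNormal Ω • a :=
        RingOfIntegers.coe_injective (AlgEquiv.liftNormal_commutes σ Ω (α : E)).symm
      rw [h3]
      exact hfix Q hQ _ α
    rw [Finset.prod_congr rfl fun σ _ ↦ h2 σ, Finset.prod_const, Finset.card_univ,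
      ← Nat.card_eq_fintype_card, IsGalois.card_aut_eq_finrank, hE]
  choose d hd using fun P : {P : HeightOneSpectrum (𝓞 K) // (m : 𝓞 K) ∈ P.asIdeal} ↦ key P.1 P.2
  have hfin := finite_primes_containing (K := K) (x := (m : 𝓞 K))
    (Nat.cast_ne_zero.mpr hm.out.ne_zero)
  let _ : Fintype {P : HeightOneSpectrum (𝓞 K) // (m : 𝓞 K) ∈ P.asIdeal} := hfin.fintype
  obtain ⟨β, hβ⟩ := Ideal.exists_forall_sub_mem_ideal
    (I := fun P : {P : HeightOneSpectrum (𝓞 K) // (m : 𝓞 K) ∈ P.asIdeal} ↦ P.1.asIdeal)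
    (fun P P' hne ↦ Ideal.isCoprime_iff_sup_eq.mpr (Ideal.IsMaximal.coprime_of_ne P.1.isMaximal
      P'.1.isMaximal fun h ↦ hne (Subtype.ext (HeightOneSpectrum.ext h)))) d
  obtain ⟨c, hc⟩ := exists_pow_eq_norm_cast (m := m) (p := p) (y := y) (β := β) fun P hP ↦ by
    have h1 := (hd ⟨P, hP⟩).1
    obtain ⟨r, hr⟩ := sub_dvd_pow_sub_pow β (d ⟨P, hP⟩) p
    have h2 : β ^ p - d ⟨P, hP⟩ ^ p ∈ P.asIdeal := hr ▸ Ideal.mul_mem_right _ _ (hβ ⟨P, hP⟩)
    have := sub_mem h1 h2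
    rwa [sub_sub_sub_cancel_right] at this
  have hnorm : Algebra.norm ℤ y = Algebra.norm ℤ α := by
    apply Int.cast_injective (α := ℚ)
    rw [Algebra.coe_norm_int, Algebra.coe_norm_int]
    exact Algebra.norm_norm
  rw [hnorm] at hc
  have hodd : Odd p := (Fact.out : p.Prime).odd_of_ne_two hp
  rw [Ideal.absNorm_span_singleton]
  rcases Int.natAbs_eq (Algebra.norm ℤ α) with h | h
  · exact ⟨c, by rw [hc, h, Int.natAbs_natCast, Int.cast_natCast]⟩
  · exact ⟨-c, by rw [hodd.neg_pow, hc, h, Int.natAbs_neg, Int.natAbs_natCast, Int.cast_neg,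
      neg_neg, Int.cast_natCast]⟩

end NormMod

variable {K L : Type} [Field K] [NumberField K] [Field L] [NumberField L] [Algebra K L]
  [IsGalois K L] {p : ℕ} [Fact p.Prime]
  {Ω : Type} [Field Ω] [NumberField Ω] [Algebra L Ω] [Algebra K Ω] [IsScalarTower K L Ω]
  [IsGalois K Ω]

theorem exists_crossing_aux (hp : p ≠ 2) (hK : Module.finrank ℚ K < p)
    (hdeg : Module.finrank K L = p)
    (hunr : ∀ Q : HeightOneSpectrum (𝓞 L), Q.asIdeal.inertia (L ≃ₐ[K] L) = ⊥)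
    {n m₁ m₂ : ℕ} [NeZero n] [Fact m₁.Prime] [Fact m₂.Prime] (hn : n = m₁ * m₂) (hm : m₁ ≠ m₂)
    [IsCyclotomicExtension {n} L Ω]
    (φ₁ : (ZMod m₁)ˣ →* (L ≃ₐ[K] L)) (φ₂ : (ZMod m₂)ˣ →* (L ≃ₐ[K] L))
    (h₁ : Function.Surjective φ₁) (h₂ : Function.Surjective φ₂)
    (Φ : (ZMod n)ˣ →* (L ≃ₐ[K] L))
    (hΦ : ∀ u, Φ u = φ₁ (ZMod.unitsMap (hn ▸ dvd_mul_right m₁ m₂ : m₁ ∣ n) u) *
      φ₂ (ZMod.unitsMap (hn ▸ dvd_mul_left m₂ m₁ : m₂ ∣ n) u))
    (S : Set (HeightOneSpectrum (𝓞 K)))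
    (hS : ∀ P ∈ S, (n : 𝓞 K) ∉ P.asIdeal ∧ ∃ u : (ZMod n)ˣ,
      (u : ZMod n) = (Ideal.absNorm P.asIdeal : ℕ) ∧ Φ u = artinSymbol (L := L) P)
    (hne : ∃ P ∈ S, artinSymbol (L := L) P ≠ 1) :
    ∃ c : (L ≃ₐ[K] L) →* ClassGroup (𝓞 K) ⧸ (normClass K L).range,
      ∀ P ∈ S, c (artinSymbol P) = normQuot K L (primeClass P) := by
  classical
  have hG : Nat.card (L ≃ₐ[K] L) = p := (IsGalois.card_aut_eq_finrank K L).trans hdeg
  let _ : CommGroup (L ≃ₐ[K] L) :=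
    { (inferInstance : Group (L ≃ₐ[K] L)) with mul_comm := mul_comm_of_card_prime hG }
  have hn1 : 1 < n := by
    rw [hn]; exact Nat.one_lt_mul_iff.mpr ⟨Fact.out (p := m₁.Prime) |>.pos,
      Fact.out (p := m₂.Prime) |>.pos, Or.inl (Fact.out (p := m₁.Prime)).one_lt⟩
  have hc : m₁.Coprime m₂ := (Nat.coprime_primes Fact.out Fact.out).mpr hm
  have hζ := IsCyclotomicExtension.zeta_spec n L Ω
  let χ := hζ.autToPow K
  let r : (Ω ≃ₐ[K] Ω) →* (L ≃ₐ[K] L) := AlgEquiv.restrictNormalHom L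
  let ψ : (Ω ≃ₐ[K] Ω) →* (L ≃ₐ[K] L) := r / Φ.comp χ
  have hψ : ∀ g, ψ g = 1 ↔ r g = Φ (χ g) := fun g ↦ div_eq_one
  -- inertia elements moved by `ψ`
  have hin : ∀ Q : HeightOneSpectrum (𝓞 Ω), (m₁ : 𝓞 Ω) ∈ Q.asIdeal ∨ (m₂ : 𝓞 Ω) ∈ Q.asIdeal →
      ∃ g ∈ Q.asIdeal.inertia (Ω ≃ₐ[K] Ω), ψ g ≠ 1 := by
    rintro Q (hQ | hQ)
    · obtain ⟨g, hg, hr, hb, ha⟩ :=
        exists_inertia_element hζ hG hK hunr hn hc φ₁ h₁ Q hQ
      refine ⟨g, hg, fun h ↦ ha ?_⟩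
      rw [hψ, hΦ, hb, map_one, mul_one] at h
      exact h.symm.trans hr
    · obtain ⟨g, hg, hr, hb, ha⟩ :=
        exists_inertia_element hζ hG hK hunr (hn.trans (mul_comm _ _)) hc.symm φ₂ h₂ Q hQ
      refine ⟨g, hg, fun h ↦ ha ?_⟩
      rw [hψ, hΦ, hb, map_one, one_mul] at h
      exact h.symm.trans hr
  have hψsurj : Function.Surjective ψ := by
    rw [← MonoidHom.range_eq_top]
    have hmax : (Ideal.span {(m₁ : ℤ)}).IsMaximal :=
      ((Ideal.span_singleton_prime (by exact_mod_cast NeZero.ne m₁)).mpr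
        (Nat.prime_iff_prime_int.mp Fact.out)).isMaximal (by simpa using NeZero.ne m₁)
    obtain ⟨P, hP, hP'⟩ := Ideal.exists_maximal_ideal_liesOver_of_isIntegral (S := 𝓞 Ω)
      (Ideal.span {(m₁ : ℤ)})
    have hPm : (m₁ : 𝓞 Ω) ∈ P := by
      have : (m₁ : ℤ) ∈ Ideal.span {(m₁ : ℤ)} := Ideal.mem_span_singleton_self _
      rw [hP'.over, Ideal.under, Ideal.mem_comap, map_natCast] at this
      exact this
    have hP0 : P ≠ ⊥ := fun h ↦ NeZero.ne m₁ (by simpa [h] using hPm)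
    have : Fact (Nat.card (L ≃ₐ[K] L)).Prime := ⟨hG ▸ Fact.out⟩
    refine (ψ.range.eq_bot_or_eq_top_of_prime_card).resolve_left fun h ↦ ?_
    obtain ⟨g, -, hg⟩ := hin ⟨P, hP.isPrime, hP0⟩ (Or.inl hPm)
    exact hg (MonoidHom.range_eq_bot_iff.mp h ▸ rfl)
  let E : IntermediateField K Ω := IntermediateField.fixedField ψ.ker
  have : NumberField E := NumberField.of_module_finite K E
  have hΩE : Module.finrank E Ω = Nat.card ψ.ker :=
    IntermediateField.finrank_fixedField_eq_card ψ.ker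
  have hE : Module.finrank K E = p := by
    have h1 := Module.finrank_mul_finrank K E Ω
    rw [hΩE, ← IsGalois.card_aut_eq_finrank K Ω, ← Subgroup.card_mul_index ψ.ker,
      mul_comm (Nat.card ψ.ker), Subgroup.index_ker, MonoidHom.range_eq_top.mpr hψsurj,
      Subgroup.card_top, hG] at h1
    exact Nat.eq_of_mul_eq_mul_right Nat.card_pos h1
  have hfixE : ∀ g ∈ ψ.ker, ∀ x : 𝓞 E, g • algebraMap (𝓞 E) (𝓞 Ω) x =
      algebraMap (𝓞 E) (𝓞 Ω) x := fun g hg x ↦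
    RingOfIntegers.coe_injective ((x : E).2 ⟨g, hg⟩)
  -- Galois acts trivially modulo the primes above `m₁ m₂`
  have hfix : ∀ Q : HeightOneSpectrum (𝓞 Ω), (m₁ : 𝓞 Ω) ∈ Q.asIdeal ∨ (m₂ : 𝓞 Ω) ∈ Q.asIdeal →
      ∀ (g : Ω ≃ₐ[K] Ω) (x : 𝓞 E),
        g • algebraMap (𝓞 E) (𝓞 Ω) x - algebraMap (𝓞 E) (𝓞 Ω) x ∈ Q.asIdeal := by
    intro Q hQ g x
    obtain ⟨τ, hτ, hτ1⟩ := hin Q hQ
    obtain ⟨i, hi⟩ := Subgroup.mem_zpowers_iff.mp
      (mem_zpowers_of_prime_card (g' := ψ g) hG hτ1)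
    have hk : (τ ^ i)⁻¹ * g ∈ ψ.ker := by
      rw [MonoidHom.mem_ker, map_mul, map_inv, map_zpow, hi, inv_mul_cancel]
    have h1 := hfixE _ hk x
    rw [mul_smul, inv_smul_eq_iff] at h1
    rw [h1]
    exact Subgroup.zpow_mem _ hτ i _
  have hpow : ∀ (m : ℕ) [Fact m.Prime] (φ : (ZMod m)ˣ →* (L ≃ₐ[K] L)) (hdvd : m ∣ n)
      (_ : m = m₁ ∨ m = m₂) (α : 𝓞 E) (h : Ideal.span {α} ⊔ Ideal.span {(n : 𝓞 E)} = ⊤),
      φ (ZMod.unitsMap hdvd (isUnit_absNorm_of_coprime h).unit) = 1 := by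
    intro m _ φ hdvd hmi α h
    obtain ⟨c, hc⟩ := exists_pow_eq_absNorm_span hp E hE (m := m)
      (fun Q hQ ↦ hfix Q (by rcases hmi with rfl | rfl <;> [exact Or.inl hQ; exact Or.inr hQ])) α
    set u := ZMod.unitsMap hdvd (isUnit_absNorm_of_coprime h).unit
    have hu : (u : ZMod m) = c ^ p := by
      rw [hc, ZMod.unitsMap_val, IsUnit.unit_spec, ZMod.cast_natCast hdvd]
    have hcu : IsUnit c := (isUnit_pow_iff (Fact.out : p.Prime).ne_zero).mp (hu ▸ u.isUnit)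
    rw [show u = hcu.unit ^ p from Units.ext (by rw [hu, Units.val_pow_eq_pow_val, IsUnit.unit_spec]),
      map_pow, ← hG, pow_card_eq_one']
  obtain ⟨Λ, hΛ⟩ := exists_classHom_of_norm (E := E) hn1 Φ fun α h ↦ by
    rw [hΦ, hpow m₁ φ₁ _ (Or.inl rfl) α h, hpow m₂ φ₂ _ (Or.inr rfl) α h, one_mul]
  let η : ClassGroup (𝓞 E) →* ClassGroup (𝓞 K) ⧸ (normClass K L).range :=
    (normQuot K L).comp (normClass K E)
  -- values at degree one primes of `E`
  have hval : ∀ (QE : HeightOneSpectrum (𝓞 E)) (P : HeightOneSpectrum (𝓞 K)),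
      underPrime K E QE = P → Ideal.absNorm QE.asIdeal = Ideal.absNorm P.asIdeal →
      (n : 𝓞 K) ∉ P.asIdeal →
      η (primeClass QE) = normQuot K L (primeClass P) ∧ ∃ u : (ZMod n)ˣ,
        (u : ZMod n) = (Ideal.absNorm P.asIdeal : ℕ) ∧ Λ (primeClass QE) = Φ u := by
    rintro QE _ rfl hN hnP
    refine ⟨?_, ?_⟩
    · rw [MonoidHom.comp_apply, primeClass_eq, primeClass_eq, normClass_mk0]
      congr 2
      exact Subtype.ext (relNorm_eq_underPrime QE hN)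
    · have hcop := sup_span_natCast_eq_top (n := n) QE (fun h ↦ hnP (by
        rw [underPrime_asIdeal, Ideal.mem_comap, map_natCast]; exact h))
      exact ⟨(isUnit_absNorm_of_coprime hcop).unit, by rw [IsUnit.unit_spec, hN],
        hΛ (primeIdeal₀ QE) hcop⟩
  -- the auxiliary field `F`
  let res : (Ω ≃ₐ[E] Ω) →* (Ω ≃ₐ[K] Ω) :=
    MonoidHom.mk' (AlgEquiv.restrictScalars K) fun _ _ ↦ rfl
  let H : Subgroup (Ω ≃ₐ[E] Ω) := (r.comp res).ker
  let F : IntermediateField E Ω := IntermediateField.fixedField H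
  have : NumberField F := NumberField.of_module_finite E F
  have hF : Module.finrank E F ≤ p := by
    have h1 := Module.finrank_mul_finrank E F Ω
    rw [IntermediateField.finrank_fixedField_eq_card H, ← IsGalois.card_aut_eq_finrank E Ω,
      ← Subgroup.card_mul_index H, mul_comm (Nat.card H)] at h1
    rw [Nat.eq_of_mul_eq_mul_right Nat.card_pos h1, Subgroup.index_ker, ← hG]
    exact Subgroup.card_le_card_group _
  let j : ClassGroup (𝓞 E) →* ((L ≃ₐ[K] L) × (ClassGroup (𝓞 K) ⧸ (normClass K L).range)) :=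
    Λ.prod η
  have hcard : Nat.card j.range ≤ p := by
    refine le_trans ?_ hF
    refine card_quotient_le_finrank (F := F) j.rangeRestrict j.rangeRestrict_surjective
      (bad := {Q | (n : 𝓞 F) ∈ Q.asIdeal})
      (finite_primes_containing (Nat.cast_ne_zero.mpr (NeZero.ne n))) fun QF hQF hbad ↦ ?_
    obtain ⟨Q, hQ⟩ := exists_underPrime_eq (L := Ω) QF
    obtain ⟨g, hg⟩ := exists_frobenius (G := Ω ≃ₐ[F] Ω) (K := F) Q
    set QE := underPrime E F QF with hQE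
    set P := underPrime K E QE with hPdef
    have hN1 : Ideal.absNorm QF.asIdeal = Ideal.absNorm QE.asIdeal :=
      absNorm_eq_of_prime hQF
    have hN2 : Ideal.absNorm QE.asIdeal = Ideal.absNorm P.asIdeal :=
      absNorm_eq_of_prime (hN1 ▸ hQF)
    have hQP : underPrime K Ω Q = P := by
      rw [hPdef, hQE, ← hQ, underPrime_underPrime (K := E), underPrime_underPrime (K := K)]
    let gE : Ω ≃ₐ[E] Ω := g.restrictScalars E
    let gK : Ω ≃ₐ[K] Ω := res gE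
    have hgK : IsArithFrobAt (𝓞 K) gK Q.asIdeal := by
      rw [isArithFrobAt_iff]
      intro x
      have h := (isArithFrobAt_iff (Ω ≃ₐ[F] Ω) Q).mp hg x
      rw [hQ, hN1, hN2, ← hQP] at h
      exact h
    have hH : gE ∈ H := by
      rw [← IntermediateField.fixingSubgroup_fixedField H]
      intro y
      exact g.commutes y
    have hrg : r gK = 1 := hH
    have hker : gK ∈ ψ.ker := by
      rw [← IntermediateField.fixingSubgroup_fixedField ψ.ker]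
      intro y
      exact gE.commutes y
    have hnΩ : (n : 𝓞 Ω) ∉ Q.asIdeal := fun h ↦ hbad (by
      rw [Set.mem_ofPred_eq, ← hQ, underPrime_asIdeal, Ideal.mem_comap, map_natCast]; exact h)
    have hart : artinSymbol (L := L) P = 1 := by
      rw [← hQP, ← restrict_frobenius hdeg hunr Q gK hgK]; exact hrg
    have hΦ1 : Φ (χ gK) = 1 := ((hψ gK).mp hker).symm.trans hrg
    obtain ⟨hη, u, hu, hΛu⟩ := hval QE P rfl hN2 (fun h ↦ hnΩ (by
      rw [← hQP, underPrime_asIdeal, Ideal.mem_comap, map_natCast] at h; exact h))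
    have huχ : u = χ gK := Units.ext (by rw [hu, autToPow_frobenius hζ Q gK hgK hnΩ, hQP])
    refine Subtype.ext (Prod.ext ?_ ?_)
    · exact hΛu.trans (huχ ▸ hΦ1)
    · exact hη.trans (normQuot_eq_one_of_artinSymbol hdeg P hart)
  -- values at the given primes
  have hSval : ∀ P ∈ S, ∃ x, Λ x = artinSymbol P ∧ η x = normQuot K L (primeClass P) := by
    intro P hP
    obtain ⟨hnP, u, hu, hΦu⟩ := hS P hP
    obtain ⟨Q, hQP⟩ := exists_underPrime_eq (L := Ω) P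
    obtain ⟨g, hg⟩ := exists_frobenius (G := Ω ≃ₐ[K] Ω) (K := K) Q
    have hnΩ : (n : 𝓞 Ω) ∉ Q.asIdeal := fun h ↦ hnP (by
      rw [← hQP, underPrime_asIdeal, Ideal.mem_comap, map_natCast]; exact h)
    have huχ : u = χ g := Units.ext (by rw [hu, autToPow_frobenius hζ Q g hg hnΩ, hQP])
    have hker : g ∈ ψ.ker := by
      rw [MonoidHom.mem_ker, hψ, ← huχ, hΦu, ← hQP]
      exact restrict_frobenius hdeg hunr Q g hg
    set QE := underPrime E Ω Q
    have hQEP : underPrime K E QE = P := by rw [underPrime_underPrime, hQP]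
    have hN : Ideal.absNorm QE.asIdeal = Ideal.absNorm P.asIdeal := by
      refine le_antisymm (absNorm_le_of_forall_pow_sub_mem QE
        (by have := two_le_absNorm P; omega) fun x ↦ ?_)
        (hQEP ▸ absNorm_le_absNorm_of_underPrime QE)
      rw [underPrime_asIdeal, Ideal.mem_comap, map_sub, map_pow, ← neg_mem_iff, neg_sub]
      have h := (isArithFrobAt_iff (Ω ≃ₐ[K] Ω) Q).mp hg (algebraMap (𝓞 E) (𝓞 Ω) x)
      rwa [hfixE g hker, hQP] at h
    obtain ⟨hη, u', hu', hΛu'⟩ := hval QE P hQEP hN hnP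
    exact ⟨primeClass QE, by rw [hΛu', Units.ext (hu'.trans hu.symm), hΦu], hη⟩
  obtain ⟨P₀, hP₀, hP₀1⟩ := hne
  let π : j.range →* (L ≃ₐ[K] L) := (MonoidHom.fst _ _).comp j.range.subtype
  have hπ : Function.Bijective π := by
    have hsurj : Function.Surjective π := by
      intro a
      obtain ⟨i, rfl⟩ := Subgroup.mem_zpowers_iff.mp
        (mem_zpowers_of_prime_card (g' := a) hG hP₀1)
      obtain ⟨x, hx, -⟩ := hSval P₀ hP₀
      exact ⟨⟨j (x ^ i), ⟨_, rfl⟩⟩, by change Λ (x ^ i) = _; rw [map_zpow, hx]⟩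
    exact Function.Surjective.bijective_of_nat_card_le hsurj (hcard.trans hG.ge)
  let e := MulEquiv.ofBijective π hπ
  refine ⟨((MonoidHom.snd _ _).comp j.range.subtype).comp e.symm.toMonoidHom, fun P hP ↦ ?_⟩
  obtain ⟨x, hx, hx'⟩ := hSval P hP
  have h1 : e.symm (artinSymbol P) = ⟨j x, ⟨x, rfl⟩⟩ := by
    rw [MulEquiv.symm_apply_eq]; exact hx.symm
  simp only [MonoidHom.comp_apply, MulEquiv.coe_toMonoidHom, h1]
  exact hx'

end FermatAgent.CFT
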