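import Mathlib

/-!
# Indices of endomorphisms of finitely generated abelian groups, and cyclotomic operators

* `index_range_pow_eq`: if `φ ^ k = n • ν` with `ν` bijective then
  `[A : φ A] ^ k = #(ker φ) ^ k * n ^ rank A`.
* `exists_bijective_nu`: an endomorphism `T` with `1 + T + ⋯ + T ^ (p-1) = 0` satisfies
  `(T - 1) ^ (p - 1) = p • ν` with `ν` bijective.
-/

set_option autoImplicit false

namespace FermatAgent.CFT

section Index

variable {A : Type*} [AddCommGroup A] [Module.Finite ℤ A]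

theorem finite_addTorsion : Finite (AddCommGroup.torsion A) := by
  have h : Finite (Submodule.torsion ℤ A) := by
    have : Module.Finite ℤ (Submodule.torsion ℤ A) := Module.Finite.of_injective
      (Submodule.torsion ℤ A).subtype Subtype.val_injective
    exact Module.finite_of_fg_torsion _ (Submodule.torsion_isTorsion (R := ℤ) (M := A))
  rw [← Submodule.torsion_int]
  exact h

theorem finrank_eq_of_ker_torsion {B : Type*} [AddCommGroup B] (f : A →ₗ[ℤ] B)
    (h : ∀ x, f x = 0 → IsOfFinAddOrder x) :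
    Module.finrank ℤ (LinearMap.range f) = Module.finrank ℤ A := by
  have hk : Module.finrank ℤ (LinearMap.ker f) = 0 := by
    rw [Module.finrank_eq_zero_iff_isTorsion]
    intro x
    obtain ⟨n, hn, hx⟩ := (isOfFinAddOrder_iff_nsmul_eq_zero).mp (h x.1 x.2)
    refine ⟨⟨(n : ℤ), mem_nonZeroDivisors_of_ne_zero (by exact_mod_cast hn.ne')⟩, Subtype.ext ?_⟩
    simpa using hx
  rw [← (LinearMap.quotKerEquivRange f).finrank_eq,
    ← Submodule.finrank_quotient_add_finrank (LinearMap.ker f), hk, add_zero]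

omit [Module.Finite ℤ A] in
theorem isOfFinAddOrder_of_nsmul {x : A} {n : ℕ} (hn : n ≠ 0) (h : IsOfFinAddOrder (n • x)) :
    IsOfFinAddOrder x := by
  obtain ⟨m, hm, hx⟩ := isOfFinAddOrder_iff_nsmul_eq_zero.mp h
  exact isOfFinAddOrder_iff_nsmul_eq_zero.mpr ⟨m * n, Nat.mul_pos hm hn.bot_lt, by
    rw [mul_smul, hx]⟩

/-- Index of an injective endomorphism of a lattice via iteration. -/
theorem index_range_pow {B : Type*} [AddCommGroup B] (φ : B →+ B) (hφ : Function.Injective φ)
    (k : ℕ) : φ.range.index ^ k = ((fun H : AddSubgroup B ↦ H.map φ)^[k] ⊤).index := by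
  induction k with
  | zero => simp
  | succ k ih =>
    rw [Function.iterate_succ_apply', AddSubgroup.index_map, pow_succ, ih,
      (AddMonoidHom.ker_eq_bot_iff φ).mpr hφ, sup_bot_eq]

theorem mem_iterate_map {B : Type*} [AddCommGroup B] (φ : B →+ B) (k : ℕ) {z : B} :
    z ∈ (fun H : AddSubgroup B ↦ H.map φ)^[k] ⊤ ↔ ∃ x, φ^[k] x = z := by
  induction k generalizing z with
  | zero => simp
  | succ k ih =>
    simp only [Function.iterate_succ_apply', AddSubgroup.mem_map, ih]
    exact ⟨fun ⟨_, ⟨x, hx⟩, h⟩ ↦ ⟨x, by rw [hx, h]⟩, fun ⟨x, h⟩ ↦ ⟨_, ⟨x, rfl⟩, h⟩⟩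

/-- If `φ ^ k = n • ν` with `ν` bijective then `[A : φ A] ^ k = #(ker φ) ^ k * n ^ rank A`. -/
theorem index_range_pow_eq (φ ν : A →+ A) {k n : ℕ} (hk : k ≠ 0) (hn : n ≠ 0)
    (hν : Function.Bijective ν) (h : ∀ x, φ^[k] x = n • ν x) :
    φ.range.index ^ k = Nat.card φ.ker ^ k * n ^ Module.finrank ℤ A := by
  have := finite_addTorsion (A := A)
  let m := Nat.card (AddCommGroup.torsion A)
  have hm : m ≠ 0 := Nat.card_pos.ne'
  have hmtor : ∀ x : A, IsOfFinAddOrder x → m • x = 0 := fun x hx ↦ by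
    have := card_nsmul_eq_zero' (x := (⟨x, hx⟩ : AddCommGroup.torsion A))
    exact congr(($this).1)
  let A' : AddSubgroup A := (nsmulAddMonoidHom m).range
  have hA'tf : ∀ x ∈ A', IsOfFinAddOrder x → x = 0 := by
    rintro _ ⟨y, rfl⟩ hy
    exact hmtor y (isOfFinAddOrder_of_nsmul hm hy)
  -- the kernel is torsion
  have hker : ∀ x, φ x = 0 → IsOfFinAddOrder x := by
    intro x hx
    obtain ⟨k, rfl⟩ := Nat.exists_eq_succ_of_ne_zero hk
    have h1 := h x
    rw [Function.iterate_succ_apply, hx, iterate_map_zero, ← map_nsmul,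
      eq_comm, map_eq_zero_iff ν hν.1] at h1
    exact isOfFinAddOrder_iff_nsmul_eq_zero.mpr ⟨n, hn.bot_lt, h1⟩
  have hmem : ∀ x ∈ A', φ x ∈ A' := by
    rintro _ ⟨y, rfl⟩
    exact ⟨φ y, by simp [map_nsmul]⟩
  let φ' : A' →+ A' := (φ.comp A'.subtype).codRestrict A' fun x ↦ hmem _ x.2
  have hφ' : Function.Injective φ' := by
    rw [injective_iff_map_eq_zero]
    intro x hx
    exact Subtype.ext (hA'tf x x.2 (hker _ congr(($hx).1)))
  have hφ'k : ∀ (j : ℕ) (x : A'), ((φ'^[j] x : A') : A) = φ^[j] x := by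
    intro j
    induction j with
    | zero => intro x; rfl
    | succ j ih =>
      intro x
      rw [Function.iterate_succ_apply', Function.iterate_succ_apply', ← ih]
      rfl
  have hrange : (fun H : AddSubgroup A' ↦ H.map φ')^[k] ⊤ =
      (nsmulAddMonoidHom (α := A') n).range := by
    ext z
    rw [mem_iterate_map]
    constructor
    · rintro ⟨x, rfl⟩
      obtain ⟨y, hy⟩ := x.2
      refine ⟨⟨ν x, ⟨ν y, ?_⟩⟩, Subtype.ext ?_⟩
      · rw [← hy]; simp [map_nsmul]
      · rw [hφ'k, h]; rfl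
    · rintro ⟨x, rfl⟩
      obtain ⟨y, hy⟩ := x.2
      obtain ⟨y', rfl⟩ := hν.2 y
      refine ⟨⟨m • y', ⟨y', rfl⟩⟩, Subtype.ext ?_⟩
      rw [hφ'k, h, map_nsmul]
      simp only [nsmulAddMonoidHom_apply] at hy
      rw [hy]
      rfl
  have : Module.Finite ℤ A' := Module.Finite.of_injective
    (A'.subtype.toIntLinearMap) Subtype.val_injective
  have : Module.IsTorsionFree ℤ A' := by
    rw [Module.isTorsionFree_iff_smul_eq_zero]
    intro r x hx
    by_cases hr : r = 0
    · exact Or.inl hr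
    · refine Or.inr (Subtype.ext (hA'tf x x.2 ?_))
      exact isOfFinAddOrder_iff_zsmul_eq_zero.mpr ⟨r, hr, by simpa using congr(($hx).1)⟩
  have : Module.Free ℤ A' := Module.free_of_finite_type_torsion_free'
  have hrank : Module.finrank ℤ A' = Module.finrank ℤ A := by
    have := finrank_eq_of_ker_torsion (nsmulAddMonoidHom (α := A) m).toIntLinearMap fun x hx ↦
      isOfFinAddOrder_iff_nsmul_eq_zero.mpr ⟨m, hm.bot_lt, hx⟩
    exact this
  have h2 : φ'.range.index ^ k = n ^ Module.finrank ℤ A := by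
    rw [index_range_pow φ' hφ' k, hrange, ← hrank]
    exact AddSubgroup.index_range_nsmul A' n
  have hsub : φ'.range.index = (A'.map φ).relIndex A' := by
    rw [AddSubgroup.relIndex]
    congr 1
    ext z
    rw [AddSubgroup.mem_addSubgroupOf, AddSubgroup.mem_map]
    exact ⟨fun ⟨x, hx⟩ ↦ ⟨x, x.2, congr(($hx).1)⟩, fun ⟨x, hx, hx'⟩ ↦ ⟨⟨x, hx⟩, Subtype.ext hx'⟩⟩
  -- index bookkeeping
  have hA'fin : A'.index ≠ 0 := by
    have : Finite (A ⧸ A') := by
      have : Module.Finite ℤ (A ⧸ A') := Module.Finite.of_surjective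
        (QuotientAddGroup.mk' A').toIntLinearMap (QuotientAddGroup.mk'_surjective A')
      refine Module.finite_of_fg_torsion _ fun x ↦ ?_
      obtain ⟨y, rfl⟩ := QuotientAddGroup.mk'_surjective A' x
      refine ⟨⟨(m : ℤ), mem_nonZeroDivisors_of_ne_zero (by exact_mod_cast hm)⟩, ?_⟩
      simp only [Submonoid.mk_smul, natCast_zsmul, ← map_nsmul]
      exact (QuotientAddGroup.eq_zero_iff _).mpr ⟨y, rfl⟩
    exact AddSubgroup.index_ne_zero_of_finite
  have hinf : A' ⊓ φ.ker = ⊥ := by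
    rw [AddSubgroup.eq_bot_iff_forall]
    rintro x ⟨h1, h2⟩
    exact hA'tf x h1 (hker x h2)
  have e1 : (A'.map φ).index = (A'.map φ).relIndex φ.range * φ.range.index :=
    (AddSubgroup.relIndex_mul_index (AddSubgroup.map_le_range _ _)).symm
  have e2 : (A'.map φ).relIndex φ.range = (A' ⊔ φ.ker).index := by
    rw [AddMonoidHom.range_eq_map, AddSubgroup.relIndex_map_map, top_sup_eq,
      AddSubgroup.relIndex_top_right]
  have e3 : (A'.map φ).index = (A'.map φ).relIndex A' * A'.index :=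
    (AddSubgroup.relIndex_mul_index (by
      rintro _ ⟨x, hx, rfl⟩
      exact hmem x hx)).symm
  have e4 : A'.index = A'.relIndex (A' ⊔ φ.ker) * (A' ⊔ φ.ker).index :=
    (AddSubgroup.relIndex_mul_index le_sup_left).symm
  have e5 : A'.relIndex (A' ⊔ φ.ker) = Nat.card φ.ker := by
    rw [AddSubgroup.relIndex_sup_left, ← AddSubgroup.inf_relIndex_right, hinf,
      AddSubgroup.relIndex_bot_left]
  have e6 : φ.range.index = Nat.card φ.ker * φ'.range.index := by
    have hne : (A' ⊔ φ.ker).index ≠ 0 := fun h0 ↦ hA'fin (by rw [e4, h0, mul_zero])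
    apply mul_left_cancel₀ hne
    have := e1.symm.trans e3
    rw [e2, ← hsub, e4, e5] at this
    rw [this]
    ring
  rw [e6, mul_pow, h2]

end Index

section Cyclotomic

variable {A : Type*} [AddCommGroup A]

/-- If `1 + T + ⋯ + T ^ (p-1) = 0` then `(T - 1) ^ (p - 1)` is `p` times an automorphism. -/
theorem exists_bijective_nu {p : ℕ} [hp : Fact p.Prime] (T : AddMonoid.End A)
    (hT : ∑ i ∈ Finset.range p, T ^ i = 0) :
    ∃ ν : AddMonoid.End A, Function.Bijective ν ∧ ∀ x, (⇑(T - 1))^[p - 1] x = p • ν x := by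
  have : NeZero p := ⟨hp.out.ne_zero⟩
  have : NeZero ((p : ℕ) : ℚ) := ⟨Nat.cast_ne_zero.mpr hp.out.ne_zero⟩
  have : IsCyclotomicExtension {p} ℚ (CyclotomicField p ℚ) :=
    CyclotomicField.isCyclotomicExtension p ℚ
  have : NumberField (CyclotomicField p ℚ) := IsCyclotomicExtension.numberField {p} ℚ (CyclotomicField p ℚ)
  have hζ := IsCyclotomicExtension.zeta_spec p ℚ (CyclotomicField p ℚ)
  have hmin : Polynomial.aeval T (minpoly ℤ hζ.integralPowerBasis.gen) = 0 := by
    have e : minpoly ℤ hζ.toInteger = Polynomial.cyclotomic p ℤ := by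
      rw [← minpoly.algebraMap_eq (B' := CyclotomicField p ℚ)
        (FaithfulSMul.algebraMap_injective _ _) hζ.toInteger]
      exact (Polynomial.cyclotomic_eq_minpoly hζ hp.out.pos).symm
    rw [hζ.integralPowerBasis_gen, e, Polynomial.cyclotomic_prime, map_sum]
    simpa using hT
  let Ψ := hζ.integralPowerBasis.lift T hmin
  have hΨ : Ψ hζ.toInteger = T := by
    rw [← hζ.integralPowerBasis_gen]; exact PowerBasis.lift_gen _ _ _
  obtain ⟨u, hu⟩ := IsCyclotomicExtension.Rat.associated_zeta_sub_one_pow_prime p hζ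
  refine ⟨Ψ (↑u⁻¹ : _), ?_, fun x ↦ ?_⟩
  · refine Function.bijective_iff_has_inverse.mpr ⟨Ψ (↑u : _), fun x ↦ ?_, fun x ↦ ?_⟩
    · change (Ψ (↑u : _) * Ψ (↑u⁻¹ : _)) x = x
      rw [← map_mul, Units.mul_inv, map_one]
      rfl
    · change (Ψ (↑u⁻¹ : _) * Ψ (↑u : _)) x = x
      rw [← map_mul, Units.inv_mul, map_one]
      rfl
  · rw [← AddMonoid.End.coe_pow]
    have h1 : (hζ.toInteger - 1) ^ (p - 1) = (p : NumberField.RingOfIntegers (CyclotomicField p ℚ)) * ↑u⁻¹ := by
      rw [Units.eq_mul_inv_iff_mul_eq]; exact hu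
    have h2 := congr(Ψ $h1)
    rw [map_pow, map_sub, map_one, hΨ, map_mul, map_natCast] at h2
    rw [h2]
    rfl

end Cyclotomic

end FermatAgent.CFT
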