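import Mathlib
import Fermat.Agent.CFT.UnitsIndex
import Fermat.Agent.CFT.ClassHom

/-!
# The first inequality for an unramified cyclic extension of odd prime degree

For `L/K` Galois of odd prime degree `p`, with trivial inertia at every prime, the norm map on
class groups is not surjective (Hilbert's Theorem 94 in dual form).
-/

set_option autoImplicit false

noncomputable section

namespace FermatAgent.CFT

open NumberField IsDedekindDomain
open scoped nonZeroDivisors Pointwise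

variable {K L : Type} [Field K] [NumberField K] [Field L] [NumberField L] [Algebra K L]
  [IsGalois K L] {p : ℕ} [Fact p.Prime]

section Units

variable (σ : L ≃ₐ[K] L)

/-- The action of `σ` on units. -/
def galUnit : (𝓞 L)ˣ →* (𝓞 L)ˣ :=
  Units.map (MulSemiringAction.toRingHom (L ≃ₐ[K] L) (𝓞 L) σ).toMonoidHom

omit [NumberField K] [NumberField L] [IsGalois K L] in
theorem coe_galUnit (u : (𝓞 L)ˣ) : ((galUnit σ u : (𝓞 L)ˣ) : 𝓞 L) = σ • (u : 𝓞 L) := rfl

/-- `u ↦ σ u / u`. -/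
def galDiv : (𝓞 L)ˣ →* (𝓞 L)ˣ := galUnit σ / MonoidHom.id _

omit [NumberField K] [NumberField L] [IsGalois K L] in
theorem galDiv_apply (u : (𝓞 L)ˣ) : galDiv σ u = galUnit σ u / u := rfl

variable (K L)

/-- The norm on units. -/
def normUnit : (𝓞 L)ˣ →* (𝓞 K)ˣ := Units.map (RingOfIntegers.norm K)

/-- The inclusion on units. -/
def extUnit : (𝓞 K)ˣ →* (𝓞 L)ˣ := Units.map (algebraMap (𝓞 K) (𝓞 L)).toMonoidHom

variable {K L}

omit [NumberField K] [NumberField L] [IsGalois K L] in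
theorem norm_smul_int (g : L ≃ₐ[K] L) (x : 𝓞 L) :
    RingOfIntegers.norm K (g • x) = RingOfIntegers.norm K x :=
  RingOfIntegers.coe_injective (Algebra.norm_eq_of_algEquiv g (x : L))

omit [NumberField K] [NumberField L] [IsGalois K L] in
theorem coe_normUnit (u : (𝓞 L)ˣ) :
    ((normUnit K L u : (𝓞 K)ˣ) : 𝓞 K) = RingOfIntegers.norm K (u : 𝓞 L) := rfl

omit [NumberField K] [NumberField L] [IsGalois K L] in
theorem extUnit_injective : Function.Injective (extUnit K L) :=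
  Units.map_injective (FaithfulSMul.algebraMap_injective (𝓞 K) (𝓞 L))

omit [NumberField K] [NumberField L] [IsGalois K L] in
theorem range_galDiv_le_ker : (galDiv σ).range ≤ (normUnit K L).ker := by
  rintro _ ⟨u, rfl⟩
  rw [MonoidHom.mem_ker, galDiv_apply, map_div, div_eq_one]
  exact Units.ext (norm_smul_int σ (u : 𝓞 L))

omit [NumberField K] [NumberField L] [IsGalois K L] in
theorem galUnit_iterate (i : ℕ) (u : (𝓞 L)ˣ) :
    (((galUnit σ)^[i] u : (𝓞 L)ˣ) : 𝓞 L) = (σ ^ i) • (u : 𝓞 L) := by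
  induction i with
  | zero => simp
  | succ i ih => rw [Function.iterate_succ_apply', coe_galUnit, ih, smul_smul, ← pow_succ']

variable {σ}

theorem exists_of_fixed (hσ : ∀ g, g ∈ Subgroup.zpowers σ) {x : 𝓞 L} (hx : σ • x = x) :
    ∃ y : 𝓞 K, algebraMap (𝓞 K) (𝓞 L) y = x := by
  have hfix : ∀ g : L ≃ₐ[K] L, g • x = x := fun g ↦
    (Subgroup.zpowers_le.mpr (show σ ∈ MulAction.stabilizer (L ≃ₐ[K] L) x from hx)) (hσ g)
  obtain ⟨y, hy⟩ : (x : L) ∈ Set.range (algebraMap K L) :=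
    (IsGalois.mem_range_algebraMap_iff_fixed _).mpr fun g ↦
      congrArg (fun z : 𝓞 L ↦ (z : L)) (hfix g)
  have hy' : IsIntegral ℤ y := by
    refine (isIntegral_algebraMap_iff (algebraMap K L).injective).mp ?_
    rw [hy]; exact RingOfIntegers.isIntegral_coe x
  exact ⟨⟨y, hy'⟩, RingOfIntegers.coe_injective hy⟩

theorem ker_galDiv (hσ : ∀ g, g ∈ Subgroup.zpowers σ) :
    (galDiv σ).ker = (extUnit K L).range := by
  ext u
  rw [MonoidHom.mem_ker, galDiv_apply, div_eq_one, MonoidHom.mem_range]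
  constructor
  · intro h
    obtain ⟨y, hy⟩ := exists_of_fixed hσ (x := (u : 𝓞 L)) congr(($h).1)
    have hfix' : σ • ((u⁻¹ : (𝓞 L)ˣ) : 𝓞 L) = ((u⁻¹ : (𝓞 L)ˣ) : 𝓞 L) := by
      rw [← coe_galUnit, map_inv, h]
    obtain ⟨z, hz⟩ := exists_of_fixed hσ hfix'
    refine ⟨⟨y, z, ?_, ?_⟩, Units.ext hy⟩ <;>
      apply FaithfulSMul.algebraMap_injective (𝓞 K) (𝓞 L) <;>
      simp [map_mul, hy, hz]
  · rintro ⟨y, rfl⟩
    exact Units.ext (smul_algebraMap σ (y : 𝓞 K))

omit [IsGalois K L] [NumberField L] [NumberField K] [Fact p.Prime] in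
theorem normUnit_extUnit (hdeg : Module.finrank K L = p) (v : (𝓞 K)ˣ) :
    normUnit K L (extUnit K L v) = v ^ p := by
  ext1
  rw [coe_normUnit, Units.val_pow_eq_pow_val, ← hdeg]
  exact RingOfIntegers.norm_algebraMap K (v : 𝓞 K)

omit [NumberField K] [NumberField L] [IsGalois K L] [Fact p.Prime] in
theorem map_normUnit_extUnit (hdeg : Module.finrank K L = p) :
    (extUnit K L).range.map (normUnit K L) = (powMonoidHom p : (𝓞 K)ˣ →* (𝓞 K)ˣ).range := by
  ext v
  simp only [Subgroup.mem_map, MonoidHom.mem_range, powMonoidHom_apply]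
  exact ⟨fun ⟨_, ⟨w, rfl⟩, h⟩ ↦ ⟨w, by rw [← h, normUnit_extUnit hdeg]⟩,
    fun ⟨w, h⟩ ↦ ⟨_, ⟨w, rfl⟩, by rw [normUnit_extUnit hdeg, h]⟩⟩

theorem units_rank_eq (hp : p ≠ 2) (hdeg : Module.finrank K L = p) :
    Units.rank L + 1 = p * (Units.rank K + 1) := by
  have : IsUnramifiedAtInfinitePlaces K L := IsUnramifiedAtInfinitePlaces_of_odd_finrank
    (hdeg ▸ (Fact.out : p.Prime).odd_of_ne_two hp)
  have h := IsUnramifiedAtInfinitePlaces.card_infinitePlace K L
  rw [hdeg] at h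
  have h1 : 0 < Fintype.card (InfinitePlace K) := Fintype.card_pos
  have h2 : 0 < Fintype.card (InfinitePlace L) := Fintype.card_pos
  rw [Units.rank, Units.rank, Nat.sub_add_cancel h2, Nat.sub_add_cancel h1, h, mul_comm]

theorem sum_iterate_galUnit (hdeg : Module.finrank K L = p) (hσ : ∀ g, g ∈ Subgroup.zpowers σ)
    {u : (𝓞 L)ˣ} (hu : u ∈ (normUnit K L).ker) :
    ∏ i ∈ Finset.range p, (galUnit σ)^[i] u = 1 := by
  refine Units.ext ?_
  rw [Units.coe_prod]
  simp_rw [galUnit_iterate]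
  have hord : orderOf σ = p := by
    rw [orderOf_eq_card_of_forall_mem_zpowers hσ, IsGalois.card_aut_eq_finrank, hdeg]
  have h1 : ∏ i ∈ Finset.range p, (σ ^ i) • (u : 𝓞 L) = ∏ g : L ≃ₐ[K] L, g • (u : 𝓞 L) := by
    classical
    subst hord
    rw [← Fin.prod_univ_eq_prod_range (fun i ↦ (σ ^ i) • (u : 𝓞 L))]
    exact Fintype.prod_equiv ((finEquivZPowers (isOfFinOrder_of_finite σ)).trans
      (Equiv.subtypeUnivEquiv hσ)) _ _ fun i ↦ rfl
  rw [h1]
  apply RingOfIntegers.coe_injective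
  rw [Units.val_one, map_one, map_prod]
  have h2 := Algebra.norm_eq_prod_automorphisms K ((u : 𝓞 L) : L)
  have h3 : Algebra.norm K ((u : 𝓞 L) : L) = 1 := congr((($hu).1 : 𝓞 K).1)
  rw [h3, map_one] at h2
  exact h2.symm

/-- `[W : (σ - 1) E_L] = p * [E_K : N E_L]`, where `W` is the kernel of the norm. -/
theorem relIndex_galDiv (hp : p ≠ 2) (hdeg : Module.finrank K L = p)
    (hσ : ∀ g, g ∈ Subgroup.zpowers σ) :
    (galDiv σ).range.relIndex (normUnit K L).ker = p * (normUnit K L).range.index ∧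
      (normUnit K L).range.index ≠ 0 := by
  have hpp : p.Prime := Fact.out
  set W := (normUnit K L).ker with hW
  let P := (powMonoidHom p : (𝓞 K)ˣ →* (𝓞 K)ˣ)
  -- index of `p`-th powers in `E_K`
  have hP : P.range.index = Nat.card P.ker * p ^ Units.rank K := by
    have h := index_range_pow_eq (A := Additive (𝓞 K)ˣ)
      (nsmulAddMonoidHom p) (AddMonoidHom.id _) one_ne_zero hpp.ne_zero Function.bijective_id
      (fun x ↦ rfl)
    rw [pow_one, pow_one, Units.finrank_eq] at h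
    exact h
  -- index of `(σ - 1) W` in `W`
  let dW : W →* W := ((galDiv σ).comp W.subtype).codRestrict W fun x ↦
    range_galDiv_le_ker σ ⟨x, rfl⟩
  let T : AddMonoid.End (Additive W) := MonoidHom.toAdditive
    (((galUnit σ).comp W.subtype).codRestrict W fun x ↦ by
      rw [MonoidHom.mem_ker, ← Units.val_eq_one]
      exact (norm_smul_int σ ((x : (𝓞 L)ˣ) : 𝓞 L)).trans congr(($(x.2)).1))
  have hTval : ∀ (i : ℕ) (x : W),
      ((Additive.toMul ((T ^ i) (Additive.ofMul x)) : W) : (𝓞 L)ˣ) =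
        (galUnit σ)^[i] (x : (𝓞 L)ˣ) := by
    intro i x
    induction i with
    | zero => rfl
    | succ i ih =>
      rw [Function.iterate_succ_apply', ← ih, pow_succ']
      rfl
  have hT : ∑ i ∈ Finset.range p, T ^ i = 0 := by
    refine AddMonoidHom.ext fun x ↦ ?_
    erw [AddMonoidHom.finsetSum_apply]
    apply Additive.toMul.injective
    refine Subtype.ext ?_
    rw [toMul_sum, Subgroup.val_finsetProd]
    refine (Finset.prod_congr rfl fun i _ ↦ hTval i x.toMul).trans ?_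
    exact sum_iterate_galUnit hdeg hσ x.toMul.2
  obtain ⟨ν, hνbij, hν⟩ := exists_bijective_nu T hT
  have hdW : (dW.range).index ^ (p - 1) =
      Nat.card dW.ker ^ (p - 1) * p ^ Module.finrank ℤ (Additive W) := by
    have : Module.Finite ℤ (Additive W) := Module.Finite.of_injective
      (MonoidHom.toAdditive W.subtype).toIntLinearMap Subtype.val_injective
    have hd : ∀ x, (MonoidHom.toAdditive dW) x = (T - 1 : AddMonoid.End (Additive W)) x := by
      intro x
      rfl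
    have h := index_range_pow_eq (MonoidHom.toAdditive dW) ν (Nat.sub_ne_zero_of_lt hpp.one_lt)
      hpp.ne_zero hνbij (fun x ↦ by rw [funext hd]; exact hν x)
    exact h
  have hrankW : Module.finrank ℤ (Additive W) = (p - 1) * (Units.rank K + 1) := by
    let N := (MonoidHom.toAdditive (normUnit K L)).toIntLinearMap
    have h1 := Submodule.finrank_quotient_add_finrank (LinearMap.ker N)
    rw [(LinearMap.quotKerEquivRange N).finrank_eq, Units.finrank_eq] at h1
    have h2 : Module.finrank ℤ (LinearMap.ker N) = Module.finrank ℤ (Additive W) := by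
      refine LinearEquiv.finrank_eq
        { toFun := fun x ↦ Additive.ofMul ⟨x.1.toMul, x.2⟩
          invFun := fun x ↦ ⟨Additive.ofMul (x.toMul : (𝓞 L)ˣ), x.toMul.2⟩
          map_add' := fun _ _ ↦ rfl
          map_smul' := fun _ _ ↦ rfl
          left_inv := fun _ ↦ rfl
          right_inv := fun _ ↦ rfl }
    have h3 : Module.finrank ℤ (LinearMap.range N) = Units.rank K := by
      refine le_antisymm ((Submodule.finrank_le _).trans_eq (Units.finrank_eq K)) ?_
      have h4 := finrank_eq_of_ker_torsion (A := Additive (𝓞 K)ˣ)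
        (nsmulAddMonoidHom p).toIntLinearMap fun x hx ↦
        isOfFinAddOrder_iff_nsmul_eq_zero.mpr ⟨p, hpp.pos, by simpa using hx⟩
      rw [← Units.finrank_eq K, ← h4]
      refine Submodule.finrank_mono ?_
      rintro _ ⟨v, rfl⟩
      exact ⟨Additive.ofMul (extUnit K L v.toMul),
        congrArg Additive.ofMul (normUnit_extUnit hdeg v.toMul)⟩
    have h5 := units_rank_eq (K := K) (L := L) hp hdeg
    rw [h2, h3] at h1
    obtain ⟨q, rfl⟩ : ∃ q, p = q + 1 := ⟨p - 1, by have := hpp.pos; omega⟩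
    rw [Nat.add_sub_cancel]
    nlinarith
  have hker : Nat.card dW.ker = Nat.card P.ker := by
    refine (Nat.card_congr ?_).symm
    refine Equiv.ofBijective (fun v ↦ ⟨⟨extUnit K L v.1, ?_⟩, ?_⟩) ⟨?_, ?_⟩
    · rw [hW, MonoidHom.mem_ker, normUnit_extUnit hdeg]; exact v.2
    · exact Subtype.ext (show extUnit K L v.1 ∈ (galDiv σ).ker by
        rw [ker_galDiv hσ]; exact ⟨_, rfl⟩)
    · intro v v' h
      exact Subtype.ext (extUnit_injective congr((($h).1).1))
    · rintro ⟨⟨x, hx⟩, hx'⟩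
      obtain ⟨v, rfl⟩ : x ∈ (extUnit K L).range := by
        rw [← ker_galDiv hσ]; exact congr(($hx').1)
      exact ⟨⟨v, (normUnit_extUnit hdeg v).symm.trans hx⟩, rfl⟩
  have hdWrel : dW.range.index = (W.map (galDiv σ)).relIndex W := by
    rw [Subgroup.relIndex]
    congr 1
    ext z
    rw [Subgroup.mem_subgroupOf, Subgroup.mem_map]
    exact ⟨fun ⟨x, hx⟩ ↦ ⟨x, x.2, congr(($hx).1)⟩,
      fun ⟨x, hx, hx'⟩ ↦ ⟨⟨x, hx⟩, Subtype.ext hx'⟩⟩
  have hmain : (W.map (galDiv σ)).relIndex W = p * P.range.index := by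
    rw [← hdWrel, hP]
    apply Nat.pow_left_injective (Nat.sub_ne_zero_of_lt hpp.one_lt)
    dsimp only
    rw [hdW, hrankW, hker, mul_pow, mul_pow, ← pow_mul p]
    ring
  have hsplit : (W.map (galDiv σ)).relIndex W =
      P.range.relIndex (normUnit K L).range * (galDiv σ).range.relIndex W := by
    rw [← Subgroup.relIndex_mul_relIndex _ (galDiv σ).range W (Subgroup.map_le_range _ _)
      (range_galDiv_le_ker σ)]
    congr 1
    rw [MonoidHom.range_eq_map, Subgroup.relIndex_map_map, top_sup_eq, ker_galDiv hσ,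
      Subgroup.relIndex_top_right, ← map_normUnit_extUnit hdeg, MonoidHom.range_eq_map (normUnit K L),
      Subgroup.relIndex_map_map, top_sup_eq, Subgroup.relIndex_top_right, sup_comm]
  have hPle : P.range ≤ (normUnit K L).range :=
    map_normUnit_extUnit (K := K) (L := L) hdeg ▸ Subgroup.map_le_range _ _
  have hPne : P.range.index ≠ 0 := by
    have : Finite P.ker := by
      have h : P.ker ≤ Units.torsion K := fun v hv ↦
        isOfFinOrder_iff_pow_eq_one.mpr ⟨p, hpp.pos, hv⟩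
      exact Finite.of_injective (Subgroup.inclusion h) (Subgroup.inclusion_injective h)
    rw [hP]
    exact mul_ne_zero Nat.card_pos.ne' (pow_ne_zero _ hpp.ne_zero)
  have hmul := Subgroup.relIndex_mul_index hPle
  refine ⟨?_, fun h0 ↦ hPne (by rw [← hmul, h0, mul_zero])⟩
  rw [hsplit, ← hmul] at hmain
  refine mul_left_cancel₀ (fun h0 ↦ hPne (by rw [← hmul, h0, zero_mul]) :
    P.range.relIndex (normUnit K L).range ≠ 0) ?_
  rw [hmain]
  ring

end Units

section ClassGroups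

variable {σ : L ≃ₐ[K] L}

theorem extClass_normClass_mk0
    (hunr : ∀ Q : HeightOneSpectrum (𝓞 L), Q.asIdeal.inertia (L ≃ₐ[K] L) = ⊥)
    (I : (Ideal (𝓞 L))⁰) :
    extClass K L (normClass K L (ClassGroup.mk0 I)) =
      ∏ g : L ≃ₐ[K] L, galClass g (ClassGroup.mk0 I) := by
  simp_rw [galClass_mk0]
  rw [← map_prod, normClass_mk0, extClass_mk0]
  congr 1
  refine Subtype.ext ?_
  rw [Submonoid.coe_finsetProd]
  exact map_relNorm_eq_prod hunr (I : Ideal (𝓞 L)) (nonZeroDivisors.coe_ne_zero I)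

theorem galClass_prod (hunr : ∀ Q : HeightOneSpectrum (𝓞 L), Q.asIdeal.inertia (L ≃ₐ[K] L) = ⊥)
    (h : L ≃ₐ[K] L) (c : ClassGroup (𝓞 L)) :
    galClass h (extClass K L (normClass K L c)) = extClass K L (normClass K L c) := by
  obtain ⟨I, rfl⟩ := ClassGroup.mk0_surjective c
  rw [extClass_normClass_mk0 hunr, map_prod]
  refine Fintype.prod_equiv (Equiv.mulLeft h) _ _ fun g ↦ ?_
  rw [galClass_mk0, galClass_mk0, galClass_mk0, Equiv.coe_mulLeft]
  congr 1
  exact Subtype.ext (mul_smul h g (I : Ideal (𝓞 L))).symm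

/-- Key lemma for the first inequality. -/
theorem mem_range_of_norm_eq
    (hunr : ∀ Q : HeightOneSpectrum (𝓞 L), Q.asIdeal.inertia (L ≃ₐ[K] L) = ⊥)
    (hσ : ∀ g, g ∈ Subgroup.zpowers σ) (hsurj : Function.Surjective (normClass K L))
    {B : (Ideal (𝓞 L))⁰} {u v : 𝓞 L} (hv : v ≠ 0)
    (h : Ideal.span {v} * (σ • (B : Ideal (𝓞 L))) = Ideal.span {u} * (B : Ideal (𝓞 L)))
    {η : (𝓞 L)ˣ}
    (hη : RingOfIntegers.norm K u = RingOfIntegers.norm K v * RingOfIntegers.norm K (η : 𝓞 L)) :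
    ClassGroup.mk0 B ∈ ((extClass K L).comp (normClass K L)).range := by
  have hσ' : IsCyclic (L ≃ₐ[K] L) := ⟨σ, hσ⟩
  set v' := v * (η : 𝓞 L) with hv'
  have hspan : Ideal.span {v'} = Ideal.span {v} :=
    Ideal.span_singleton_eq_span_singleton.mpr
      ⟨η⁻¹, by rw [hv', mul_assoc, Units.mul_inv, mul_one]⟩
  have hv'0 : v' ≠ 0 := mul_ne_zero hv η.ne_zero
  have hx : Algebra.norm K ((u : L) / (v' : L)) = 1 := by
    rw [div_eq_mul_inv, map_mul, Algebra.norm_inv, ← div_eq_mul_inv, div_eq_one_iff_eq (Algebra.norm_ne_zero_iff.mpr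
      (RingOfIntegers.coe_ne_zero_iff.mpr hv'0))]
    have := congrArg (fun z : 𝓞 K ↦ (z : K)) (hη.trans (map_mul (RingOfIntegers.norm K) v _).symm)
    exact this
  obtain ⟨y, hy⟩ := groupCohomology.exists_div_of_norm_eq_one hσ hx
  have : IsLocalization (Algebra.algebraMapSubmonoid (𝓞 L) (𝓞 K)⁰) L :=
    IsIntegralClosure.isLocalization (𝓞 K) K L (𝓞 L)
  obtain ⟨a, ⟨_, b, hb, rfl⟩, hab⟩ :=
    IsLocalization.exists_mk'_eq (Algebra.algebraMapSubmonoid (𝓞 L) (𝓞 K)⁰) (y : L)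
  rw [IsLocalization.mk'_eq_iff_eq_mul] at hab
  have hb0 : algebraMap (𝓞 K) (𝓞 L) b ≠ 0 :=
    (map_ne_zero_iff _ (FaithfulSMul.algebraMap_injective (𝓞 K) (𝓞 L))).mpr
      (nonZeroDivisors.ne_zero hb)
  have hyne : (σ (y : L)) ≠ 0 := (map_ne_zero σ).mpr y.ne_zero
  have hau : u * σ • a = a * v' := by
    apply RingOfIntegers.coe_injective
    change (u : L) * σ (a : L) = (a : L) * (v' : L)
    have e1 : (a : L) = (y : L) * ((algebraMap (𝓞 K) (𝓞 L) b : 𝓞 L) : L) := hab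
    have e2 : σ ((algebraMap (𝓞 K) (𝓞 L) b : 𝓞 L) : L) =
        ((algebraMap (𝓞 K) (𝓞 L) b : 𝓞 L) : L) :=
      congrArg (fun z : 𝓞 L ↦ (z : L)) (smul_algebraMap σ b)
    have e3 : (y : L) * (v' : L) = (u : L) * σ (y : L) := by
      have h1 : (y : L) / σ (y : L) = (u : L) / (v' : L) := hy
      rwa [div_eq_div_iff hyne (RingOfIntegers.coe_ne_zero_iff.mpr hv'0)] at h1
    rw [e1, map_mul, e2]
    linear_combination -((algebraMap (𝓞 K) (𝓞 L) b : 𝓞 L) : L) * e3
  have ha0 : a ≠ 0 := by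
    rintro rfl
    exact mul_ne_zero y.ne_zero (RingOfIntegers.coe_ne_zero_iff.mpr hb0)
      (hab.symm.trans (map_zero _))
  let J := Ideal.span {a} * (B : Ideal (𝓞 L))
  have hJ : σ • J = J := by
    apply mul_left_cancel₀ (show Ideal.span {v} ≠ 0 by simpa using hv)
    rw [smul_mul', smul_span_singleton, ← mul_assoc, mul_comm (Ideal.span {v}), mul_assoc, h,
      ← mul_assoc, Ideal.span_singleton_mul_span_singleton, ← mul_assoc,
      mul_comm (σ • a) u, hau, ← Ideal.span_singleton_mul_span_singleton, hspan,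
      mul_comm (Ideal.span {a})]
  have hinv : ∀ g : L ≃ₐ[K] L, g • J = J := fun g ↦
    (Subgroup.zpowers_le.mpr (show σ ∈ MulAction.stabilizer (L ≃ₐ[K] L) J from hJ)) (hσ g)
  obtain ⟨A, hA⟩ := exists_map_eq_of_invariant (K := K) hunr J
    (mul_ne_zero (by simpa using ha0) (nonZeroDivisors.coe_ne_zero B)) hinv
  have hA0 : A ≠ 0 := by
    rintro rfl
    exact (mul_ne_zero (by simpa using ha0) (nonZeroDivisors.coe_ne_zero B))
      (hA.trans (Ideal.map_bot))
  let A₀ : (Ideal (𝓞 K))⁰ := ⟨A, mem_nonZeroDivisors_of_ne_zero hA0⟩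
  obtain ⟨c, hc⟩ := hsurj (ClassGroup.mk0 A₀)
  refine ⟨c, ?_⟩
  rw [MonoidHom.comp_apply, hc, extClass_mk0,
    show extend₀ K L A₀ = principal₀ a ha0 * B from Subtype.ext hA.symm, map_mul, mk0_principal₀,
    one_mul]

theorem shuffle_identity {M : Type*} [CommMonoidWithZero M] [IsCancelMulZero M]
    {a a' a₂ X X' X₂ U U' V V' Z S : M} (h0 : a' ≠ 0) (e' : V' * X' = U' * a')
    (e₂ : X' * X₂ = S) (e₃ : a' * a₂ = Z) (e : V * X = U * a) :
    V * (U' * Z) * (X * X₂) = U * (V' * S) * (a * a₂) := by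
  apply mul_left_cancel₀ h0
  calc a' * (V * (U' * Z) * (X * X₂)) = (V * X) * (U' * a') * Z * X₂ := by ac_rfl
    _ = (U * a) * (V' * X') * (a' * a₂) * X₂ := by rw [e, ← e', e₃]
    _ = (U * a) * V' * a' * a₂ * (X' * X₂) := by ac_rfl
    _ = a' * (U * (V' * S) * (a * a₂)) := by rw [e₂]; ac_rfl

theorem exists_rep_of_galClass_eq {c : ClassGroup (𝓞 L)} (hc : galClass σ c = c) :
    ∃ (B : (Ideal (𝓞 L))⁰) (u v : 𝓞 L) (ε : (𝓞 K)ˣ),
      ClassGroup.mk0 B = c ∧ u ≠ 0 ∧ v ≠ 0 ∧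
      Ideal.span {v} * (σ • (B : Ideal (𝓞 L))) = Ideal.span {u} * (B : Ideal (𝓞 L)) ∧
      RingOfIntegers.norm K u = RingOfIntegers.norm K v * ε := by
  obtain ⟨B, hB⟩ := ClassGroup.mk0_surjective c
  have h1 : galClass σ c = c := hc
  rw [← hB, galClass_mk0] at h1
  obtain ⟨v, u, hv, hu, h2⟩ := ClassGroup.mk0_eq_mk0_iff.mp h1
  have h3 := congrArg (Ideal.relNorm (𝓞 K)) h2
  rw [map_mul, map_mul, relNorm_span_singleton, relNorm_span_singleton,
    show Ideal.relNorm (𝓞 K) ((gal₀ σ B : (Ideal (𝓞 L))⁰) : Ideal (𝓞 L)) =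
      Ideal.relNorm (𝓞 K) (B : Ideal (𝓞 L)) from Ideal.relNorm_smul _ σ _] at h3
  have h4 := mul_right_cancel₀ (fun h0 ↦ nonZeroDivisors.coe_ne_zero B
    (Ideal.relNorm_eq_bot_iff.mp h0)) h3
  rw [Ideal.span_singleton_eq_span_singleton] at h4
  obtain ⟨ε, hε⟩ := h4
  exact ⟨B, u, v, ε, hB, hu, hv, h2, hε.symm⟩

theorem inv_mul_mem_range
    (hunr : ∀ Q : HeightOneSpectrum (𝓞 L), Q.asIdeal.inertia (L ≃ₐ[K] L) = ⊥)
    (hσ : ∀ g, g ∈ Subgroup.zpowers σ) (hsurj : Function.Surjective (normClass K L))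
    {c c' : ClassGroup (𝓞 L)} {B B' : (Ideal (𝓞 L))⁰} {u v u' v' : 𝓞 L} {ε ε' : (𝓞 K)ˣ}
    (hB : ClassGroup.mk0 B = c) (hB' : ClassGroup.mk0 B' = c')
    (hv : v ≠ 0) (hu' : u' ≠ 0)
    (hBuv : Ideal.span {v} * (σ • (B : Ideal (𝓞 L))) = Ideal.span {u} * (B : Ideal (𝓞 L)))
    (hBuv' : Ideal.span {v'} * (σ • (B' : Ideal (𝓞 L))) = Ideal.span {u'} * (B' : Ideal (𝓞 L)))
    (hε : RingOfIntegers.norm K u = RingOfIntegers.norm K v * ε)
    (hε' : RingOfIntegers.norm K u' = RingOfIntegers.norm K v' * ε')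
    {η : (𝓞 L)ˣ} (hη : normUnit K L η = ε'⁻¹ * ε) :
    c'⁻¹ * c ∈ ((extClass K L).comp (normClass K L)).range := by
  obtain ⟨B₂, hB₂⟩ := ClassGroup.mk0_surjective c'⁻¹
  have hone : ClassGroup.mk0 (B' * B₂) = 1 := by rw [map_mul, hB', hB₂, mul_inv_cancel]
  have hP : ((B' * B₂ : (Ideal (𝓞 L))⁰) : Ideal (𝓞 L)).IsPrincipal :=
    (ClassGroup.mk0_eq_one_iff (B' * B₂).2).mp hone
  obtain ⟨z, hz⟩ := hP.principal
  rw [← Ideal.span, Submonoid.coe_mul] at hz
  have hz0 : z ≠ 0 := by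
    rintro rfl
    rw [Ideal.span_singleton_eq_bot.mpr rfl] at hz
    exact mul_ne_zero (nonZeroDivisors.coe_ne_zero _) (nonZeroDivisors.coe_ne_zero _) hz
  rw [← hB₂, ← hB, mul_comm, ← map_mul]
  refine mem_range_of_norm_eq hunr hσ hsurj (u := u * (v' * σ • z)) (v := v * (u' * z))
    (mul_ne_zero (hv) (mul_ne_zero (hu') hz0)) ?_ (η := η) ?_
  · rw [Submonoid.coe_mul, smul_mul', ← Ideal.span_singleton_mul_span_singleton,
      ← Ideal.span_singleton_mul_span_singleton, ← Ideal.span_singleton_mul_span_singleton,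
      ← Ideal.span_singleton_mul_span_singleton]
    refine shuffle_identity (nonZeroDivisors.coe_ne_zero B') hBuv' ?_ hz hBuv
    rw [← smul_mul', hz, smul_span_singleton]
  · have h7 : (normUnit K L η : (𝓞 K)ˣ) = (ε')⁻¹ * ε := hη
    have h8 : ((ε' : (𝓞 K)ˣ) : 𝓞 K) * RingOfIntegers.norm K (η : 𝓞 L) =
        ((ε : (𝓞 K)ˣ) : 𝓞 K) := by
      rw [← coe_normUnit, ← Units.val_mul, h7, mul_inv_cancel_left]
    simp only [map_mul, norm_smul_int, hε, hε']
    rw [← h8]
    ring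

theorem relIndex_range_le_index
    (hunr : ∀ Q : HeightOneSpectrum (𝓞 L), Q.asIdeal.inertia (L ≃ₐ[K] L) = ⊥)
    (hσ : ∀ g, g ∈ Subgroup.zpowers σ) (hsurj : Function.Surjective (normClass K L))
    (hfin : (normUnit K L).range.index ≠ 0) :
    ((extClass K L).comp (normClass K L)).range.relIndex
        (galClass σ / MonoidHom.id _).ker ≤ (normUnit K L).range.index := by
  set D := (galClass σ / MonoidHom.id (ClassGroup (𝓞 L))).ker with hD
  set R := ((extClass K L).comp (normClass K L)).range with hR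
  have key := fun c : D ↦ exists_rep_of_galClass_eq (σ := σ) (c := c.1) (div_eq_one.mp c.2)
  choose B u v ε hB hu hv hBuv hε using key
  have : Finite ((𝓞 K)ˣ ⧸ (normUnit K L).range) := Nat.finite_of_card_ne_zero hfin
  rw [Subgroup.relIndex, Subgroup.index, Subgroup.index]
  refine Nat.card_le_card_of_injective
    (fun q : D ⧸ R.subgroupOf D ↦ (QuotientGroup.mk (ε q.out) : (𝓞 K)ˣ ⧸ (normUnit K L).range))
    fun q q' hqq ↦ ?_
  obtain ⟨η, hη⟩ := QuotientGroup.eq.mp hqq.symm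
  have hmain := inv_mul_mem_range hunr hσ hsurj (hB q.out) (hB q'.out) (hv _) (hu _)
    (hBuv _) (hBuv _) (hε _) (hε _) hη
  rw [← QuotientGroup.out_eq' q, ← QuotientGroup.out_eq' q', QuotientGroup.eq,
    Subgroup.mem_subgroupOf]
  have h9 := inv_mem hmain
  rw [mul_inv_rev, inv_inv] at h9
  exact h9

theorem relIndex_galDiv_le
    (hunr : ∀ Q : HeightOneSpectrum (𝓞 L), Q.asIdeal.inertia (L ≃ₐ[K] L) = ⊥)
    (hσ : ∀ g, g ∈ Subgroup.zpowers σ) (hsurj : Function.Surjective (normClass K L)) :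
    (galDiv σ).range.relIndex (normUnit K L).ker ≤
      (galClass σ / MonoidHom.id _).range.relIndex
        ((extClass K L).comp (normClass K L)).ker := by
  have hσ' : IsCyclic (L ≃ₐ[K] L) := ⟨σ, hσ⟩
  let d := galClass σ / MonoidHom.id (ClassGroup (𝓞 L))
  let W := (normUnit K L).ker
  let N' := ((extClass K L).comp (normClass K L)).ker
  have key : ∀ ε : W, ∃ (e : 𝓞 L) (A : (Ideal (𝓞 K))⁰) (c : N'), e ≠ 0 ∧
      ((ε : (𝓞 L)ˣ) : 𝓞 L) * σ • e = e ∧
      Ideal.span {e} = (A : Ideal (𝓞 K)).map (algebraMap (𝓞 K) (𝓞 L)) ∧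
      normClass K L c = ClassGroup.mk0 A := by
    intro ε
    have hnorm : Algebra.norm K (algebraMap (𝓞 L) L ((ε : (𝓞 L)ˣ) : 𝓞 L)) = 1 :=
      congr((($(ε.2)).1 : 𝓞 K).1)
    obtain ⟨e, he0, he⟩ := groupCohomology.exists_mul_galRestrict_of_norm_eq_one (A := 𝓞 K) hσ hnorm
    have he' : ((ε : (𝓞 L)ˣ) : 𝓞 L) * σ • e = e := by
      convert he using 2
      apply RingOfIntegers.coe_injective
      rw [algebraMap_galRestrict_apply]
      rfl
    have hinv1 : σ • Ideal.span {e} = Ideal.span {e} := by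
      rw [smul_span_singleton, Ideal.span_singleton_eq_span_singleton]
      exact ⟨(ε : (𝓞 L)ˣ), by rw [mul_comm, he']⟩
    have hinv : ∀ g : L ≃ₐ[K] L, g • Ideal.span {e} = Ideal.span {e} := fun g ↦
      (Subgroup.zpowers_le.mpr (show σ ∈ MulAction.stabilizer (L ≃ₐ[K] L) (Ideal.span {e}) from
        hinv1)) (hσ g)
    obtain ⟨A, hA⟩ := exists_map_eq_of_invariant (K := K) hunr _ (by simpa using he0) hinv
    have hA0 : A ≠ 0 := by
      rintro rfl
      exact he0 (Ideal.span_singleton_eq_bot.mp (hA.trans Ideal.map_bot))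
    let A₀ : (Ideal (𝓞 K))⁰ := ⟨A, mem_nonZeroDivisors_of_ne_zero hA0⟩
    obtain ⟨c, hc⟩ := hsurj (ClassGroup.mk0 A₀)
    refine ⟨e, A₀, ⟨c, ?_⟩, he0, he', hA, hc⟩
    rw [MonoidHom.mem_ker, MonoidHom.comp_apply, hc, extClass_mk0,
      show extend₀ K L A₀ = principal₀ e he0 from Subtype.ext hA.symm, mk0_principal₀]
  choose e A c he0 he hA hc using key
  let f : W ⧸ (galDiv σ).range.subgroupOf W → N' ⧸ d.range.subgroupOf N' :=
    fun q ↦ QuotientGroup.mk (c q.out)
  rw [Subgroup.relIndex, Subgroup.relIndex, Subgroup.index, Subgroup.index]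
  refine Nat.card_le_card_of_injective f fun q q' hqq ↦ ?_
  have h1 := QuotientGroup.eq.mp hqq
  rw [Subgroup.mem_subgroupOf] at h1
  obtain ⟨x, hx⟩ := h1
  set ε := q.out
  set ε' := q'.out
  have h2 : normClass K L ((c ε : ClassGroup (𝓞 L))⁻¹ * c ε') = 1 := by
    rw [show (c ε : ClassGroup (𝓞 L))⁻¹ * c ε' = d x from hx.symm, MonoidHom.div_apply,
      map_div, MonoidHom.id_apply, normClass_galClass, div_self']
  rw [map_mul, map_inv, inv_mul_eq_one, hc, hc, ClassGroup.mk0_eq_mk0_iff] at h2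
  obtain ⟨s, t, hs, ht, hst⟩ := h2
  have h3 := congrArg (Ideal.map (algebraMap (𝓞 K) (𝓞 L))) hst
  rw [Ideal.map_mul, Ideal.map_mul, ← hA, ← hA, Ideal.map_span, Ideal.map_span,
    Set.image_singleton, Set.image_singleton, Ideal.span_singleton_mul_span_singleton,
    Ideal.span_singleton_mul_span_singleton, Ideal.span_singleton_eq_span_singleton] at h3
  obtain ⟨η, hη⟩ := h3
  have h4 := congrArg (fun z ↦ σ • z) hη
  simp only [smul_mul', smul_algebraMap] at h4
  -- multiply by `ε ε'`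
  have h5 : ((ε.1 : (𝓞 L)ˣ) : 𝓞 L) * (algebraMap (𝓞 K) (𝓞 L) t * e ε') =
      ((ε'.1 : (𝓞 L)ˣ) : 𝓞 L) * (algebraMap (𝓞 K) (𝓞 L) s * e ε) * σ • (η : 𝓞 L) := by
    linear_combination (((ε.1 : (𝓞 L)ˣ) : 𝓞 L) * ((ε'.1 : (𝓞 L)ˣ) : 𝓞 L)) * h4.symm -
      ((ε.1 : (𝓞 L)ˣ) : 𝓞 L) * algebraMap (𝓞 K) (𝓞 L) t * he ε' +
      ((ε'.1 : (𝓞 L)ˣ) : 𝓞 L) * algebraMap (𝓞 K) (𝓞 L) s * σ • (η : 𝓞 L) * he ε
  have h6 : ((ε.1 : (𝓞 L)ˣ) : 𝓞 L) * (η : 𝓞 L) =
      ((ε'.1 : (𝓞 L)ˣ) : 𝓞 L) * σ • (η : 𝓞 L) := by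
    apply mul_right_cancel₀ (mul_ne_zero ((map_ne_zero_iff _
      (FaithfulSMul.algebraMap_injective (𝓞 K) (𝓞 L))).mpr hs) (he0 ε))
    rw [← hη] at h5
    linear_combination h5
  have h7 : (ε.1 : (𝓞 L)ˣ) * η = ε'.1 * galUnit σ η := Units.ext h6
  rw [← QuotientGroup.out_eq' q, ← QuotientGroup.out_eq' q', QuotientGroup.eq,
    Subgroup.mem_subgroupOf]
  refine ⟨η⁻¹, ?_⟩
  rw [galDiv_apply, map_inv, Subgroup.coe_mul, Subgroup.coe_inv, inv_div_inv,
    eq_inv_mul_iff_mul_eq, ← mul_div_assoc, div_eq_iff_eq_mul, h7]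

/-- **First inequality**: the norm map on class groups is not surjective. -/
theorem normClass_not_surjective (hp : p ≠ 2) (hdeg : Module.finrank K L = p)
    (hunr : ∀ Q : HeightOneSpectrum (𝓞 L), Q.asIdeal.inertia (L ≃ₐ[K] L) = ⊥) :
    ¬ Function.Surjective (normClass K L) := by
  intro hsurj
  have hcard : Nat.card (L ≃ₐ[K] L) = p := by rw [IsGalois.card_aut_eq_finrank, hdeg]
  obtain ⟨σ, hσ⟩ := (isCyclic_of_prime_card hcard).exists_generator
  obtain ⟨hidx, hne⟩ := relIndex_galDiv hp hdeg hσ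
  let d := galClass σ / MonoidHom.id (ClassGroup (𝓞 L))
  let N := (extClass K L).comp (normClass K L)
  have hRd : N.range ≤ d.ker := by
    rintro _ ⟨c, rfl⟩
    rw [MonoidHom.mem_ker, MonoidHom.div_apply, MonoidHom.id_apply, div_eq_one]
    exact galClass_prod hunr σ c
  have hdN : d.range ≤ N.ker := by
    rintro _ ⟨c, rfl⟩
    rw [MonoidHom.mem_ker, MonoidHom.comp_apply, MonoidHom.div_apply, map_div,
      MonoidHom.id_apply, normClass_galClass, div_self', map_one]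
  have e1 : Nat.card N.range * N.range.relIndex d.ker = Nat.card d.ker := by
    rw [← Subgroup.relIndex_bot_left, Subgroup.relIndex_mul_relIndex _ _ _ bot_le hRd,
      Subgroup.relIndex_bot_left]
  have e2 : Nat.card d.range * d.range.relIndex N.ker = Nat.card N.ker := by
    rw [← Subgroup.relIndex_bot_left, Subgroup.relIndex_mul_relIndex _ _ _ bot_le hdN,
      Subgroup.relIndex_bot_left]
  have e3 : Nat.card d.ker * Nat.card d.range = Nat.card (ClassGroup (𝓞 L)) := by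
    rw [← Subgroup.index_ker, Subgroup.card_mul_index]
  have e4 : Nat.card N.ker * Nat.card N.range = Nat.card (ClassGroup (𝓞 L)) := by
    rw [← Subgroup.index_ker, Subgroup.card_mul_index]
  have e5 : N.range.relIndex d.ker = d.range.relIndex N.ker := by
    apply mul_left_cancel₀ (mul_ne_zero Nat.card_pos.ne' Nat.card_pos.ne' :
      Nat.card N.range * Nat.card d.range ≠ 0)
    calc Nat.card N.range * Nat.card d.range * N.range.relIndex d.ker
        = (Nat.card N.range * N.range.relIndex d.ker) * Nat.card d.range := by ring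
      _ = Nat.card N.ker * Nat.card N.range := by rw [e1, e3, e4]
      _ = _ := by rw [← e2]; ring
  have h1 := relIndex_galDiv_le hunr hσ hsurj
  have h2 := relIndex_range_le_index hunr hσ hsurj hne
  rw [hidx] at h1
  have h3 : p * (normUnit K L).range.index ≤ 1 * (normUnit K L).range.index := by
    rw [one_mul]
    exact h1.trans (e5.symm.trans_le h2)
  exact absurd (Nat.le_of_mul_le_mul_right h3 (Nat.pos_of_ne_zero hne))
    (not_le.mpr (Fact.out : p.Prime).one_lt)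

end ClassGroups

end FermatAgent.CFT
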