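import Mathlib
import Fermat.Agent.CFT.FirstInequality
import Fermat.Agent.CFT.Crossing

/-!
# Artin map for an everywhere unramified cyclic extension of prime degree

For a number field `K` with `[K : ℚ] < p` and a Galois extension `L/K` of odd prime degree `p`
with trivial inertia at every finite prime, the Frobenius map on primes factors through the ideal
class group and is surjective.
-/

set_option autoImplicit false

noncomputable section

namespace FermatAgent.CFT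

open NumberField IsDedekindDomain nonZeroDivisors Polynomial

section Helpers

variable {K : Type} [Field K] [NumberField K]

theorem exists_absNorm_eq_pow (P : HeightOneSpectrum (𝓞 K)) :
    ∃ q f : ℕ, q.Prime ∧ (q : 𝓞 K) ∈ P.asIdeal ∧ 0 < f ∧ f ≤ Module.finrank ℚ K ∧
      Ideal.absNorm P.asIdeal = q ^ f := by
  obtain ⟨q, hq, hlo⟩ := exists_prime_mem P
  have hqP : (q : 𝓞 K) ∈ P.asIdeal := by
    have : (q : ℤ) ∈ Ideal.span {(q : ℤ)} := Ideal.mem_span_singleton_self _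
    rw [hlo.over, Ideal.under, Ideal.mem_comap, map_natCast] at this
    exact this
  have hd : Ideal.absNorm P.asIdeal ∣ q ^ Module.finrank ℚ K := by
    have h := Ideal.absNorm_dvd_norm_of_mem hqP
    rw [← map_natCast (algebraMap ℤ (𝓞 K)), Algebra.norm_algebraMap, RingOfIntegers.rank] at h
    exact_mod_cast h
  obtain ⟨f, hf, he⟩ := (Nat.dvd_prime_pow hq).mp hd
  refine ⟨q, f, hq, hqP, Nat.pos_of_ne_zero fun h ↦ ?_, hf, he⟩
  have := two_le_absNorm P
  rw [he, h, pow_zero] at this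
  omega

omit [NumberField K] in
theorem natCast_not_mem_of_coprime (P : HeightOneSpectrum (𝓞 K)) {q n : ℕ}
    (hq : (q : 𝓞 K) ∈ P.asIdeal) (h : n.Coprime q) : (n : 𝓞 K) ∉ P.asIdeal := fun hn ↦ by
  obtain ⟨u, v, huv⟩ := (Nat.isCoprime_iff_coprime.mpr h).map (algebraMap ℤ (𝓞 K))
  exact P.isPrime.ne_top ((Ideal.eq_top_iff_one _).mpr (huv ▸
    add_mem (Ideal.mul_mem_left _ _ (by simpa using hn))
      (Ideal.mul_mem_left _ _ (by simpa using hq))))

/-- A cyclotomic extension of a Galois extension is Galois over the base. -/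
theorem isGalois_cyclotomicField {L : Type} [Field L] [NumberField L] [Algebra K L] [IsGalois K L]
    (h : 1 < Module.finrank K L) (n : ℕ) [NeZero n] : IsGalois K (CyclotomicField n L) := by
  obtain ⟨f, hf⟩ := Normal.exists_isSplittingField K L
  have hf0 : f ≠ 0 := by
    rintro rfl
    have h1 := Polynomial.IsSplittingField.adjoin_rootSet L (0 : K[X])
    rw [Polynomial.rootSet_zero, Algebra.adjoin_empty] at h1
    have h2 := Subalgebra.bot_eq_top_iff_finrank_eq_one.mp h1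
    omega
  have : Polynomial.IsSplittingField L (CyclotomicField n L)
      ((cyclotomic n K).map (algebraMap K L)) := by
    rw [Polynomial.map_cyclotomic]
    exact IsCyclotomicExtension.splitting_field_cyclotomic n L (CyclotomicField n L)
  have := Polynomial.IsSplittingField.mul (F := K) (K := L) (L := CyclotomicField n L) f
    (cyclotomic n K) hf0 (cyclotomic_ne_zero n K)
  have : Normal K (CyclotomicField n L) := Normal.of_isSplittingField (f * cyclotomic n K)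
  exact ⟨⟩

end Helpers

variable {K L : Type} [Field K] [NumberField K] [Field L] [NumberField L] [Algebra K L]
  [IsGalois K L] {p : ℕ} [Fact p.Prime]

/-- The crossing argument for two primes over distinct prime numbers. -/
theorem exists_crossing (hp : p ≠ 2) (hK : Module.finrank ℚ K < p)
    (hdeg : Module.finrank K L = p)
    (hunr : ∀ Q : HeightOneSpectrum (𝓞 L), Q.asIdeal.inertia (L ≃ₐ[K] L) = ⊥)
    (P R : HeightOneSpectrum (𝓞 K)) (hP : artinSymbol (L := L) P ≠ 1)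
    (hR : artinSymbol (L := L) R ≠ 1)
    (hPR : ∀ q : ℕ, q.Prime → (q : 𝓞 K) ∈ P.asIdeal → (q : 𝓞 K) ∉ R.asIdeal) :
    ∃ c : (L ≃ₐ[K] L) →* ClassGroup (𝓞 K) ⧸ (normClass K L).range,
      c (artinSymbol P) = normQuot K L (primeClass P) ∧
        c (artinSymbol R) = normQuot K L (primeClass R) := by
  have hG : Nat.card (L ≃ₐ[K] L) = p := (IsGalois.card_aut_eq_finrank K L).trans hdeg
  have hGfact : Fact (Nat.card (L ≃ₐ[K] L)).Prime := ⟨hG ▸ Fact.out⟩
  let _ : CommGroup (L ≃ₐ[K] L) :=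
    { (inferInstance : Group (L ≃ₐ[K] L)) with mul_comm := mul_comm_of_card_prime hG }
  obtain ⟨q, f, hq, hqP, hf0, hf, hNP⟩ := exists_absNorm_eq_pow P
  obtain ⟨q', f', hq', hqR, hf0', hf', hNR⟩ := exists_absNorm_eq_pow R
  have hne : q ≠ q' := by rintro rfl; exact hPR q hq hqP hqR
  have hcop : ∀ g, 0 < g → g ≤ Module.finrank ℚ K → g.Coprime p := fun g h0 h ↦
    ((Fact.out : p.Prime).coprime_iff_not_dvd.mpr fun hd ↦ by
      have := Nat.le_of_dvd h0 hd; omega).symm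
  obtain ⟨m₁, hm₁, h1q', h1q, h1pow, h1non⟩ := exists_modulus p hq' hq hne.symm
  obtain ⟨m₂, hm₂, h2q, h2q', h2pow, h2non⟩ := exists_modulus p hq hq' hne
  have := Fact.mk hm₁
  have := Fact.mk hm₂
  have hm : m₁ ≠ m₂ := by rintro rfl; exact h1non h2pow
  have c1 : ∀ {a b : ℕ}, a.Prime → b.Prime → a ≠ b → a.Coprime b := fun ha hb h ↦
    (Nat.coprime_primes ha hb).mpr h
  let u₁ := ZMod.unitOfCoprime q (c1 hq hm₁ h1q.symm)
  let u₂ := ZMod.unitOfCoprime q' (c1 hq' hm₂ h2q'.symm)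
  obtain ⟨φ₁, hφ₁⟩ := exists_char_of_not_pow hG u₁
    (fun ⟨c, hc⟩ ↦ h1non ⟨c, by rw [← Units.val_pow_eq_pow_val, hc]; rfl⟩) (hcop f hf0 hf)
    (artinSymbol (L := L) P)
  obtain ⟨φ₂, hφ₂⟩ := exists_char_of_not_pow hG u₂
    (fun ⟨c, hc⟩ ↦ h2non ⟨c, by rw [← Units.val_pow_eq_pow_val, hc]; rfl⟩) (hcop f' hf0' hf')
    (artinSymbol (L := L) R)
  have hsurj : ∀ {m : ℕ} (φ : (ZMod m)ˣ →* (L ≃ₐ[K] L)) (u : (ZMod m)ˣ), φ u ≠ 1 →
      Function.Surjective φ := fun φ u hu ↦ MonoidHom.range_eq_top.mp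
    (φ.range.eq_bot_or_eq_top_of_prime_card.resolve_left fun h ↦
      hu (MonoidHom.range_eq_bot_iff.mp h ▸ rfl))
  have : NeZero (m₁ * m₂) := ⟨mul_ne_zero hm₁.ne_zero hm₂.ne_zero⟩
  let Φ : (ZMod (m₁ * m₂))ˣ →* (L ≃ₐ[K] L) :=
    φ₁.comp (ZMod.unitsMap (dvd_mul_right m₁ m₂)) * φ₂.comp (ZMod.unitsMap (dvd_mul_left m₂ m₁))
  -- value of a character at a power
  have hkill : ∀ {m r : ℕ} (φ : (ZMod m)ˣ →* (L ≃ₐ[K] L)) (u : (ZMod m)ˣ),
      (u : ZMod m) = r → (∃ c : ZMod m, c ^ p = (r : ZMod m)) → φ u = 1 := by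
    rintro m r φ u hu ⟨c, hc⟩
    have hcu : IsUnit c :=
      (isUnit_pow_iff (Fact.out : p.Prime).ne_zero).mp (hc.symm ▸ hu ▸ u.isUnit)
    rw [show u = hcu.unit ^ p from Units.ext (by
      rw [hu, Units.val_pow_eq_pow_val, IsUnit.unit_spec, hc]), map_pow, ← hG, pow_card_eq_one']
  have hval : ∀ (r g : ℕ) (hr : r.Coprime (m₁ * m₂)) (u : (ZMod m₁)ˣ) (v : (ZMod m₂)ˣ),
      (u : ZMod m₁) = r → (v : ZMod m₂) = r →
        Φ (ZMod.unitOfCoprime r hr ^ g) = φ₁ u ^ g * φ₂ v ^ g := by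
    intro r g hr u v hu hv
    rw [map_pow, show Φ (ZMod.unitOfCoprime r hr) = φ₁ u * φ₂ v from ?_, mul_pow]
    simp only [Φ, MonoidHom.mul_apply, MonoidHom.comp_apply]
    congr 2 <;> ext
    · rw [ZMod.unitsMap_val, ZMod.coe_unitOfCoprime, ZMod.cast_natCast (dvd_mul_right m₁ m₂), hu]
    · rw [ZMod.unitsMap_val, ZMod.coe_unitOfCoprime, ZMod.cast_natCast (dvd_mul_left m₂ m₁), hv]
  have := isGalois_cyclotomicField (K := K) (L := L)
    (by rw [hdeg]; exact (Fact.out : p.Prime).one_lt) (m₁ * m₂)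
  have hq1 : q.Coprime (m₁ * m₂) := (c1 hq hm₁ h1q.symm).mul_right (c1 hq hm₂ h2q.symm)
  have hq2 : q'.Coprime (m₁ * m₂) := (c1 hq' hm₁ h1q'.symm).mul_right (c1 hq' hm₂ h2q'.symm)
  obtain ⟨c, hc⟩ := exists_crossing_aux (Ω := CyclotomicField (m₁ * m₂) L) hp hK hdeg hunr rfl hm
    φ₁ φ₂ (hsurj φ₁ _ (hφ₁.symm ▸ hP)) (hsurj φ₂ _ (hφ₂.symm ▸ hR)) Φ (fun _ ↦ rfl) {P, R}
    (by
      rintro X (rfl | rfl)
      · refine ⟨natCast_not_mem_of_coprime X hqP hq1.symm, ZMod.unitOfCoprime q hq1 ^ f,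
          by rw [Units.val_pow_eq_pow_val, ZMod.coe_unitOfCoprime, hNP, Nat.cast_pow], ?_⟩
        rw [hval q f hq1 u₁ (ZMod.unitOfCoprime q (c1 hq hm₂ h2q.symm)) rfl rfl, ← map_pow, hφ₁,
          hkill φ₂ _ rfl h2pow, one_pow, mul_one]
      · refine ⟨natCast_not_mem_of_coprime X hqR hq2.symm, ZMod.unitOfCoprime q' hq2 ^ f',
          by rw [Units.val_pow_eq_pow_val, ZMod.coe_unitOfCoprime, hNR, Nat.cast_pow], ?_⟩
        rw [hval q' f' hq2 (ZMod.unitOfCoprime q' (c1 hq' hm₁ h1q'.symm)) u₂ rfl rfl,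
          hkill φ₁ _ rfl h1pow, one_pow, one_mul, ← map_pow, hφ₂])
    ⟨P, Or.inl rfl, hP⟩
  exact ⟨c, hc P (Or.inl rfl), hc R (Or.inr rfl)⟩

/-- There are non-split primes avoiding any finite set. -/
theorem exists_artinSymbol_ne_one (hdeg : Module.finrank K L = p)
    (hunr : ∀ Q : HeightOneSpectrum (𝓞 L), Q.asIdeal.inertia (L ≃ₐ[K] L) = ⊥)
    {bad : Set (HeightOneSpectrum (𝓞 K))} (hbad : bad.Finite) :
    ∃ P, P ∉ bad ∧ artinSymbol (L := L) P ≠ 1 := by
  have h1 : UpperDens {P : HeightOneSpectrum (𝓞 K) | artinSymbol (L := L) P = 1}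
      (1 / Module.finrank K L) := by
    refine upperDens_of_splits (F := L) fun P hP ↦ ?_
    obtain ⟨Q, rfl⟩ := exists_underPrime_eq (L := L) P
    rw [← IsGalois.card_aut_eq_finrank]
    exact card_le_ncard_of_frobenius_one Q (hunr Q) (hP ▸ isArithFrobAt_artinSymbol hdeg Q)
  have hlt : 1 / (Module.finrank K L : ℝ) + 0 < 1 := by
    rw [add_zero, hdeg]
    exact (div_lt_one (by exact_mod_cast (Fact.out : p.Prime).pos)).mpr
      (by exact_mod_cast (Fact.out : p.Prime).one_lt)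
  obtain ⟨P, -, hP⟩ :=
    exists_mem_diff (lowerDens_univ (K := K)) (h1.union (upperDens_finite hbad)) hlt
  exact ⟨P, fun h ↦ hP (Or.inr h), fun h ↦ hP (Or.inl h)⟩

/-- The Artin map of an unramified cyclic extension of prime degree `p > [K : ℚ]`. -/
theorem exists_artinMap (K L : Type) [Field K] [NumberField K] [Field L] [NumberField L]
    [Algebra K L] [IsGalois K L] {p : ℕ} [Fact p.Prime] (hp : p ≠ 2)
    (hK : Module.finrank ℚ K < p) (hdeg : Module.finrank K L = p)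
    (hunr : ∀ Q : Ideal (𝓞 L), Q.IsPrime → Q ≠ ⊥ → Q.inertia (L ≃ₐ[K] L) = ⊥) :
    ∃ f : ClassGroup (𝓞 K) →* (L ≃ₐ[K] L), Function.Surjective f ∧
      ∀ (Q : Ideal (𝓞 L)) (P : (Ideal (𝓞 K))⁰), Q.IsPrime → Q ≠ ⊥ → Q.under (𝓞 K) = P →
        IsArithFrobAt (𝓞 K) (f (ClassGroup.mk0 P)) Q := by
  classical
  have hunr' : ∀ Q : HeightOneSpectrum (𝓞 L), Q.asIdeal.inertia (L ≃ₐ[K] L) = ⊥ := fun Q ↦
    hunr _ Q.isPrime Q.ne_bot
  have hG : Nat.card (L ≃ₐ[K] L) = p := (IsGalois.card_aut_eq_finrank K L).trans hdeg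
  have hgen : ∀ {c d : (L ≃ₐ[K] L) →* ClassGroup (𝓞 K) ⧸ (normClass K L).range} (t : L ≃ₐ[K] L),
      t ≠ 1 → c t = d t → c = d := fun t ht h ↦ MonoidHom.ext fun x ↦ by
    obtain ⟨i, rfl⟩ := Subgroup.mem_zpowers_iff.mp (mem_zpowers_of_prime_card (g' := x) hG ht)
    rw [map_zpow, map_zpow, h]
  -- the set of primes over the prime numbers lying in a given prime
  let near : HeightOneSpectrum (𝓞 K) → Set (HeightOneSpectrum (𝓞 K)) := fun P ↦
    {R | ∃ q : ℕ, q.Prime ∧ (q : 𝓞 K) ∈ P.asIdeal ∧ (q : 𝓞 K) ∈ R.asIdeal}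
  have hnear : ∀ P, (near P).Finite := fun P ↦ by
    obtain ⟨q, -, hq, hqP, -⟩ := exists_absNorm_eq_pow P
    refine (finite_primes_containing (K := K) (x := (q : 𝓞 K))
      (Nat.cast_ne_zero.mpr hq.ne_zero)).subset ?_
    rintro R ⟨q', hq', hq'P, hq'R⟩
    rcases eq_or_ne q q' with rfl | hne
    · exact hq'R
    · exact absurd hq'P (natCast_not_mem_of_coprime P hqP
        ((Nat.coprime_primes hq' hq).mpr hne.symm))
  obtain ⟨P₀, -, hP₀⟩ := exists_artinSymbol_ne_one hdeg hunr' Set.finite_empty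
  obtain ⟨R₀, hR₀, hR₀1⟩ := exists_artinSymbol_ne_one hdeg hunr' (hnear P₀)
  obtain ⟨c₀, hc₀, -⟩ := exists_crossing hp hK hdeg hunr' P₀ R₀ hP₀ hR₀1
    fun q hq h h' ↦ hR₀ ⟨q, hq, h, h'⟩
  have hall : ∀ P, c₀ (artinSymbol P) = normQuot K L (primeClass P) := by
    intro P
    by_cases hP : artinSymbol (L := L) P = 1
    · rw [hP, map_one, normQuot_eq_one_of_artinSymbol hdeg P hP]
    obtain ⟨R, hR, hR1⟩ := exists_artinSymbol_ne_one hdeg hunr' ((hnear P).union (hnear P₀))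
    obtain ⟨c, hcP, hcR⟩ := exists_crossing hp hK hdeg hunr' P R hP hR1
      fun q hq h h' ↦ hR (Or.inl ⟨q, hq, h, h'⟩)
    obtain ⟨d, hdP, hdR⟩ := exists_crossing hp hK hdeg hunr' P₀ R hP₀ hR1
      fun q hq h h' ↦ hR (Or.inr ⟨q, hq, h, h'⟩)
    rw [hgen _ hP₀ (hc₀.trans hdP.symm), ← hgen _ hR1 (hcR.trans hdR.symm)]
    exact hcP
  have hsurj : Function.Surjective c₀ := by
    rw [← MonoidHom.range_eq_top, eq_top_iff]
    rintro x -
    obtain ⟨y, rfl⟩ := QuotientGroup.mk'_surjective _ x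
    obtain ⟨I, rfl⟩ := ClassGroup.mk0_surjective y
    obtain ⟨m, rfl⟩ := (idealOfMultiset_bijective K).2 I
    rw [idealOfMultiset, map_multiset_prod, map_multiset_prod]
    refine Subgroup.multiset_prod_mem _ _ fun z hz ↦ ?_
    simp only [Multiset.map_map, Multiset.mem_map, Function.comp_apply] at hz
    obtain ⟨P, -, rfl⟩ := hz
    exact ⟨artinSymbol P, hall P⟩
  have hinj : Function.Injective c₀ := by
    rw [← MonoidHom.ker_eq_bot_iff]
    have : Fact (Nat.card (L ≃ₐ[K] L)).Prime := ⟨hG ▸ Fact.out⟩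
    refine c₀.ker.eq_bot_or_eq_top_of_prime_card.resolve_right fun h ↦
      normClass_not_surjective hp hdeg hunr' fun x ↦ ?_
    obtain ⟨g, hg⟩ := hsurj (normQuot K L x)
    have h1 : normQuot K L x = 1 := by
      rw [← hg]; exact MonoidHom.mem_ker.mp (h ▸ Subgroup.mem_top g)
    exact (QuotientGroup.eq_one_iff x).mp h1
  let e := MulEquiv.ofBijective c₀ ⟨hinj, hsurj⟩
  refine ⟨e.symm.toMonoidHom.comp (normQuot K L),
    e.symm.surjective.comp (QuotientGroup.mk'_surjective _), fun Q P hQ hQ0 hQP ↦ ?_⟩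
  let Q' : HeightOneSpectrum (𝓞 L) := ⟨Q, hQ, hQ0⟩
  have hP : P = primeIdeal₀ (underPrime K L Q') := Subtype.ext hQP.symm
  have h1 : e.symm (normQuot K L (ClassGroup.mk0 P)) = artinSymbol (underPrime K L Q') := by
    rw [MulEquiv.symm_apply_eq, hP, ← primeClass_eq]
    exact (hall _).symm
  rw [MonoidHom.comp_apply, MulEquiv.coe_toMonoidHom, h1]
  exact isArithFrobAt_artinSymbol hdeg Q'

end FermatAgent.CFT
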